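import Fermat.Agent.Root.Patched.TowerMap
import Fermat.Agent.FlatBound.OfHopf
import Fermat.Agent.FlatModel.FlatAt
import Fermat.Prelude.Def_GaloisRep_StrictOrdinary

/-!
# The local conditions pass to pushforwards and equivalent representations

Flatness and strict ordinarity are preserved by base change; the Steinberg and flat shapes of lifts
are closed conditions (`condClosed_steinbergShape`, `condClosed_flatShape`).
-/

set_option autoImplicit false

noncomputable section

open IsLocalRing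
open scoped TensorProduct

namespace Fermat.Agent.TWGen

open Fermat.Agent.Deformation Fermat.Agent.Root.Patched Fermat.Agent.FlatModel

local notation "ℚbar" => AlgebraicClosure ℚ

variable {A : Type} [CommRing A] [IsLocalRing A] {p : ℕ}

theorem isFlatAt_of_isEquiv {ρ ρ' : GaloisRepAdic A} (h : ρ.IsFlatAt p) (e : ρ.IsEquiv ρ') :
    ρ'.IsFlatAt p := by
  obtain ⟨e⟩ := e
  refine ⟨h.1, fun I hI => ?_⟩
  obtain ⟨H, i₁, i₂, h1, h2, h3, eH, hadd, hgal⟩ := h.2 I hI
  let q : (ρ.V ⧸ (I • (⊤ : Submodule A ρ.V))) ≃ₗ[A] (ρ'.V ⧸ (I • (⊤ : Submodule A ρ'.V))) :=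
    Submodule.Quotient.equiv _ _ e.toLinearEquiv (by
      rw [Submodule.map_smul'', Submodule.map_top, LinearEquiv.range])
  have hq : ∀ σ x, q (ρ.levelAction I σ x) = ρ'.levelAction I σ (q x) := by
    intro σ x
    obtain ⟨v, rfl⟩ := Submodule.Quotient.mk_surjective _ x
    show (Submodule.Quotient.mk (e.toLinearEquiv (ρ.ρ σ v)) : ρ'.V ⧸ _) =
      Submodule.Quotient.mk (ρ'.ρ σ (e.toLinearEquiv v))
    rw [e.map_apply]
  refine ⟨H, i₁, i₂, h1, h2, h3, eH.trans q.toEquiv, fun f g => ?_, fun σ f g hfg => ?_⟩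
  · simp [hadd]
  · simp [hgal σ f g hfg, hq]

/-- Flatness passes to quotients of extensions of scalars. -/
theorem isFlatAt_baseChangeAlong [Fact p.Prime] {ρ : GaloisRepAdic A} (h : ρ.IsFlatAt p)
    {B : Type} [CommRing B] [IsLocalRing B] [Finite (ResidueField B)] (φ : A →+* B)
    (hφ : IsLocalHom φ) : (ρ.baseChangeAlong φ hφ).IsFlatAt p := by
  classical
  refine ⟨inferInstance, fun I hI => ?_⟩
  let : Algebra A B := φ.toAlgebra
  let ρ' := ρ.baseChangeAlong φ hφ
  set J : Ideal A := I.comap φ with hJ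
  have : Finite (A ⧸ J) :=
    Finite.of_injective (Ideal.quotientMap I φ le_rfl) Ideal.quotientMap_injective
  have := finite_level ρ J
  have := finite_level ρ' I
  obtain ⟨M₀⟩ := FlatBound.exists_model_of_isFlatAt h J (levelEnd ρ J) fun _ _ => rfl
  have := Fintype.ofFinite (B ⧸ I)
  let P : Submodule B (B ⊗[A] ρ.V) := I • ⊤
  let f : B → (ρ.V ⧸ (J • (⊤ : Submodule A ρ.V))) →ₗ[A] ((B ⊗[A] ρ.V) ⧸ P) := fun b =>
    Submodule.liftQ _ ((P.mkQ.restrictScalars A).comp (TensorProduct.mk A B ρ.V b)) (by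
      intro v hv
      induction hv using Submodule.smul_induction_on' with
      | smul a ha w _ =>
        rw [LinearMap.mem_ker, LinearMap.comp_apply]
        show P.mkQ (b ⊗ₜ[A] (a • w)) = 0
        rw [Submodule.mkQ_apply, Submodule.Quotient.mk_eq_zero, ← TensorProduct.smul_tmul,
          Algebra.smul_def, ← smul_eq_mul, ← TensorProduct.smul_tmul']
        exact Submodule.smul_mem_smul ha Submodule.mem_top
      | add x _ y _ hx hy => exact add_mem hx hy)
  have hf : ∀ b v, f b (Submodule.Quotient.mk v) = P.mkQ (b ⊗ₜ[A] v) := fun _ _ => rfl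
  choose lift hlift using fun c : B ⧸ I => Ideal.Quotient.mk_surjective c
  let π : ((B ⧸ I) → ρ.V ⧸ (J • (⊤ : Submodule A ρ.V))) →+ ((B ⊗[A] ρ.V) ⧸ P) :=
    (∑ c, (f (lift c)).comp (LinearMap.proj c)).toAddMonoidHom
  have hπ : ∀ x, π x = ∑ c, f (lift c) (x c) := fun x => by simp [π]
  have hsurj : Function.Surjective π := by
    intro y
    obtain ⟨z, rfl⟩ := Submodule.Quotient.mk_surjective P y
    induction z using TensorProduct.induction_on with
    | zero => exact ⟨0, map_zero π⟩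
    | tmul b v =>
      refine ⟨Pi.single (Ideal.Quotient.mk I b) (Submodule.Quotient.mk v), ?_⟩
      rw [hπ, Finset.sum_eq_single (Ideal.Quotient.mk I b)
        (fun c _ hc => by rw [Pi.single_eq_of_ne hc, map_zero])
        (fun hc => absurd (Finset.mem_univ _) hc), Pi.single_eq_same, hf,
        Submodule.mkQ_apply, Submodule.Quotient.eq, ← TensorProduct.sub_tmul,
        show (lift (Ideal.Quotient.mk I b) - b) ⊗ₜ[A] v =
          (lift (Ideal.Quotient.mk I b) - b) • ((1 : B) ⊗ₜ[A] v) by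
            rw [TensorProduct.smul_tmul', smul_eq_mul, mul_one]]
      exact Submodule.smul_mem_smul (Ideal.Quotient.eq.mp (hlift _)) Submodule.mem_top
    | add a b ha hb =>
      obtain ⟨x, hx⟩ := ha
      obtain ⟨y, hy⟩ := hb
      exact ⟨x + y, by rw [map_add, hx, hy, Submodule.Quotient.mk_add]⟩
  have hstep : ∀ σ b x, f b (levelEnd ρ J σ x) = levelEnd ρ' I σ (f b x) := by
    intro σ b x
    obtain ⟨v, rfl⟩ := Submodule.Quotient.mk_surjective _ x
    rfl
  refine ((Model.pi (fun _ : B ⧸ I => M₀) (piAct (levelEnd ρ J) (B ⧸ I))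
    fun _ _ _ => rfl).map (act' := levelEnd ρ' I) π hsurj fun σ x => ?_).exists_hopfAlgebra
  show π (piAct (levelEnd ρ J) (B ⧸ I) σ x) = levelEnd ρ' I σ (π x)
  rw [hπ, hπ]
  refine Eq.trans (Finset.sum_congr rfl fun c _ => hstep σ (lift c) (x c)) ?_
  exact (map_sum (levelEnd ρ' I σ) _ _).symm

theorem isStrictOrdinaryAt_baseChangeAlong {ρ : GaloisRepAdic A} (h : ρ.IsStrictOrdinaryAt p)
    {B : Type} [CommRing B] [IsLocalRing B] (φ : A →+* B) (hφ : IsLocalHom φ) :
    (ρ.baseChangeAlong φ hφ).IsStrictOrdinaryAt p := by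
  let : Algebra A B := φ.toAlgebra
  refine ⟨by rw [← map_natCast φ]; exact map_nonunit φ _ h.1, fun P hP => ?_⟩
  obtain ⟨L, ⟨b, hL⟩, hD, hI, hxz⟩ := h.2 P hP
  let b' : Module.Basis (Fin 2) B (B ⊗[A] ρ.V) := b.baseChange B
  let L' : Submodule B (B ⊗[A] ρ.V) := B ∙ b' 0
  have hin : ∀ w ∈ L, ∀ c : B, c ⊗ₜ[A] w ∈ L' := by
    intro w hw c
    rw [hL, Submodule.mem_span_singleton] at hw
    obtain ⟨a, rfl⟩ := hw
    refine Submodule.mem_span_singleton.mpr ⟨a • c, ?_⟩
    rw [Module.Basis.baseChange_apply, TensorProduct.smul_tmul', smul_eq_mul, mul_one,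
      TensorProduct.smul_tmul]
  have hgen : ∀ z, z ∈ L' → ∃ c : B, z = c • ((1 : B) ⊗ₜ[A] b 0) := fun z hz => by
    obtain ⟨c, rfl⟩ := Submodule.mem_span_singleton.mp hz
    exact ⟨c, by rw [Module.Basis.baseChange_apply]⟩
  have hb0 : b 0 ∈ L := hL ▸ Submodule.mem_span_singleton_self _
  refine ⟨L', ⟨b', rfl⟩, fun σ hσ z hz => ?_, fun σ hσ z => ?_, fun σ hσ => ?_⟩
  · obtain ⟨c, rfl⟩ := hgen z hz
    show (ρ.ρ σ).baseChange B (c • ((1 : B) ⊗ₜ[A] b 0)) ∈ L'
    rw [map_smul, LinearMap.baseChange_tmul]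
    exact Submodule.smul_mem _ _ (hin _ (hD σ hσ _ hb0) 1)
  · induction z using TensorProduct.induction_on with
    | zero =>
      show (ρ.ρ σ).baseChange B 0 - 0 ∈ L'
      rw [map_zero, sub_zero]
      exact zero_mem _
    | tmul c v =>
      show (ρ.ρ σ).baseChange B (c ⊗ₜ[A] v) - c ⊗ₜ[A] v ∈ L'
      rw [LinearMap.baseChange_tmul, ← TensorProduct.tmul_sub]
      exact hin _ (hI σ hσ v) c
    | add x y hx hy =>
      have := add_mem hx hy
      rwa [sub_add_sub_comm, ← map_add] at this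
  · obtain ⟨x, z, hx, hz, ha⟩ := hxz σ hσ
    refine ⟨φ x, φ z, fun w hw => ?_, fun v => ?_, fun n a hna => ?_⟩
    · obtain ⟨c, rfl⟩ := hgen w hw
      show (ρ.ρ σ).baseChange B (c • ((1 : B) ⊗ₜ[A] b 0)) = _
      rw [map_smul, LinearMap.baseChange_tmul, hx _ hb0, TensorProduct.tmul_smul, smul_comm c,
        ← algebraMap_smul B x]
      rfl
    · induction v using TensorProduct.induction_on with
      | zero =>
        show (ρ.ρ σ).baseChange B 0 - φ z • 0 ∈ L'
        rw [map_zero, smul_zero, sub_zero]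
        exact zero_mem _
      | tmul c v =>
        show (ρ.ρ σ).baseChange B (c ⊗ₜ[A] v) - φ z • c ⊗ₜ[A] v ∈ L'
        rw [LinearMap.baseChange_tmul, TensorProduct.smul_tmul', smul_eq_mul,
          show φ z * c = z • c from (Algebra.smul_def z c).symm, TensorProduct.smul_tmul,
          ← TensorProduct.tmul_sub]
        exact hin _ (hz v) c
      | add u v hu hv =>
        have := add_mem hu hv
        rwa [sub_add_sub_comm, ← map_add, ← smul_add] at this
    · have := Ideal.mem_map_of_mem φ (ha n a hna)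
      rwa [Ideal.map_span, Set.image_singleton, map_natCast, map_sub, map_mul, map_natCast] at this

section Lifts

variable {O : Type} [CommRing O] [IsLocalRing O] {ρbar : GQ →* M2 (ResidueField O)}

theorem condClosed_and {c c' : ∀ S : TestRing O, Lift ρbar S → Prop} (h : CondClosed c)
    (h' : CondClosed c') : CondClosed fun S r => c S r ∧ c' S r where
  push S S' φ ha hr r r' he hc :=
    ⟨h.push S S' φ ha hr r r' he hc.1, h'.push S S' φ ha hr r r' he hc.2⟩
  conj S r r' U hU he hc := ⟨h.conj S r r' U hU he hc.1, h'.conj S r r' U hU he hc.2⟩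

theorem condClosed_steinbergShape (P : ValuationSubring ℚbar) :
    CondClosed fun (S : TestRing O) (r : Lift ρbar S) => SteinbergShape P S r where
  push S S' φ _ _ r r' h hc := by
    obtain ⟨s, ⟨hs1, hs2⟩, hs3⟩ := hc
    refine ⟨φ.toMonoidHom.comp s, ⟨fun g hg => ?_, fun g k => ?_⟩, fun g => ?_⟩
    · simp [hs1 g hg]
    · have hsm : ∀ c : S.R, φ.mapMatrix (c • (1 : M2 S.R)) = φ c • (1 : M2 S'.R) := fun c => by
        ext i j; fin_cases i <;> fin_cases j <;> simp
      have hm := congrArg φ.mapMatrix (hs2 g k)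
      simp only [map_mul, map_sub, map_zero, hsm] at hm
      rw [h, h, ← RingHom.mapMatrix_apply, ← RingHom.mapMatrix_apply, ← RingHom.map_det]
      exact hm
    · simp [← map_mul, hs3 g]
  conj S r r' U _ h hc := by
    obtain ⟨s, ⟨hs1, hs2⟩, hs3⟩ := hc
    refine ⟨s, ⟨hs1, fun g k => ?_⟩, hs3⟩
    have h1 := congrArg (fun X : M2 S.R => (U : M2 S.R) * X * (↑U⁻¹ : M2 S.R)) (hs2 g k)
    simp only [mul_zero, zero_mul] at h1
    rw [h, h, Matrix.det_units_conj, ← h1]
    simp only [Matrix.mul_sub, Matrix.sub_mul, Matrix.mul_assoc, Matrix.mul_smul, Matrix.smul_mul,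
      Units.inv_mul_cancel_left, Units.mul_inv, Matrix.mul_one, Matrix.one_mul]

theorem condClosed_flatShape (p : ℕ) [Fact p.Prime] :
    CondClosed fun (S : TestRing O) (r : Lift ρbar S) => FlatShape p S r where
  push S S' φ _ hr r r' h hc := by
    have hφ : IsLocalHom φ := ⟨fun x hx => by
      by_contra hx'
      have h1 := ((S'.ker_red _).not.mpr (notMem_maximalIdeal.mpr hx))
      rw [← RingHom.comp_apply, hr] at h1
      exact h1 ((S.ker_red x).mpr ((mem_maximalIdeal _).mpr hx'))⟩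
    have e : mapRep φ r.M = r'.M := MonoidHom.ext fun g => (h g).symm
    exact isFlatAt_of_isEquiv (isFlatAt_baseChangeAlong hc φ hφ)
      ((e ▸ (isMatrixRep_ofMatrix r.M r.cont).baseChangeAlong φ hφ).isEquiv
        (isMatrixRep_ofMatrix r'.M r'.cont))
  conj S r r' U _ h hc :=
    isFlatAt_of_isEquiv hc ((isEquiv_iff_areConj (isMatrixRep_ofMatrix r.M r.cont)
      (isMatrixRep_ofMatrix r'.M r'.cont)).mpr ⟨U, fun g => by
        rw [h, Units.inv_mul_cancel_right]⟩)

end Lifts

end Fermat.Agent.TWGen
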