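import Fermat.Agent.Root.Patched.TangentVectors
import Fermat.Prelude.Def_GaloisRep_StrictOrdinary

/-!
# Conditions on a representation read on its matrices

Determinant, unramified and unipotent inertia, and, for a strictly ordinary representation with
cyclotomic determinant, the unramified quadratic quotient character (`exists_quotient_char`).
-/

set_option autoImplicit false

noncomputable section

open IsLocalRing Polynomial

namespace Fermat.Agent.TWGen

open Fermat.Agent.Deformation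

local notation "ℚbar" => AlgebraicClosure ℚ

variable {A : Type} [CommRing A] [IsLocalRing A] {ρ : GaloisRepAdic A} {M : GQ →* M2 A}

theorem det_eq (hM : IsMatrixRep ρ M) (σ : GQ) : (M σ).det = LinearMap.det (ρ.ρ σ) := by
  obtain ⟨b, hb⟩ := hM
  rw [← hb, LinearMap.det_toMatrix]

theorem detCyclotomic (hM : IsMatrixRep ρ M) {p : ℕ} (h : ρ.DetIsCyclotomic p) (n : ℕ) (σ : GQ)
    (a : ℕ) (ha : ∀ μ : ℚbar, μ ^ p ^ n = 1 → σ μ = μ ^ a) :
    (M σ).det - (a : A) ∈ Ideal.span {((p ^ n : ℕ) : A)} := by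
  rw [det_eq hM]
  exact h.2 n σ a ha

theorem eq_one_of_isUnramifiedAt (hM : IsMatrixRep ρ M) {q : ℕ} (h : ρ.IsUnramifiedAt q)
    {P : ValuationSubring ℚbar} (hP : P.LiesOverPrime q) {σ : GQ}
    (hσ : σ ∈ P.inertiaSubgroupIn ℚ) : M σ = 1 := by
  obtain ⟨b, hb⟩ := hM
  rw [← hb, h P hP σ hσ, LinearMap.toMatrix_one]

theorem charpoly_eq_of_isUnipotent (hM : IsMatrixRep ρ M) {q : ℕ}
    (h : ρ.IsUnipotentOnInertiaAt q) {P : ValuationSubring ℚbar} (hP : P.LiesOverPrime q)
    {σ : GQ} (hσ : σ ∈ P.inertiaSubgroupIn ℚ) : (M σ).charpoly = (X - 1) ^ 2 := by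
  obtain ⟨b, hb⟩ := hM
  rw [← hb, LinearMap.charpoly_toMatrix]
  exact h P hP σ hσ

/-- Strictly ordinary with cyclotomic determinant: the quotient character is unramified
quadratic. -/
theorem exists_quotient_char (hM : IsMatrixRep ρ M) [IsHausdorff (maximalIdeal A) A] {p : ℕ}
    (hp : p.Prime) (hd : ρ.DetIsCyclotomic p) (ho : ρ.IsStrictOrdinaryAt p)
    {P : ValuationSubring ℚbar} (hP : P.LiesOverPrime p) :
    ∃ s : P.decompositionSubgroup ℚ →* A,
      ((∀ g : P.decompositionSubgroup ℚ, (g : GQ) ∈ P.inertiaSubgroupIn ℚ → s g = 1) ∧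
        ∀ g h : P.decompositionSubgroup ℚ,
          (M g - ((M g).det * s g⁻¹) • (1 : M2 A)) * (M h - s h • (1 : M2 A)) = 0) ∧
      ∀ g, s g * s g = 1 := by
  obtain ⟨hp', hstr⟩ := ho
  obtain ⟨L, ⟨b, hL⟩, hD, hI, hxz⟩ := hstr P hP
  have hmem : ∀ v : ρ.V, v ∈ L → b.repr v 1 = 0 := fun v hv => by
    rw [hL, Submodule.mem_span_singleton] at hv
    obtain ⟨c, rfl⟩ := hv
    simp
  have hb0 : b 0 ∈ L := hL ▸ Submodule.mem_span_singleton_self _
  let zf : GQ → A := fun σ => b.repr (ρ.ρ σ (b 1)) 1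
  let xf : GQ → A := fun σ => b.repr (ρ.ρ σ (b 0)) 0
  have hz : ∀ σ ∈ P.decompositionSubgroup ℚ, ∀ v : ρ.V, ρ.ρ σ v - zf σ • v ∈ L := by
    intro σ hσ
    obtain ⟨x, z, -, hz, -⟩ := hxz σ hσ
    have e : z = zf σ := by
      have h := hmem _ (hz (b 1))
      simp [sub_eq_zero] at h
      exact h.symm
    exact e ▸ hz
  have hx : ∀ σ ∈ P.decompositionSubgroup ℚ, (∀ w ∈ L, ρ.ρ σ w = xf σ • w) ∧
      ∀ n a : ℕ, (∀ μ : ℚbar, μ ^ p ^ n = 1 → σ μ = μ ^ a) →
        xf σ - (a : A) * zf σ ∈ Ideal.span {((p ^ n : ℕ) : A)} := by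
    intro σ hσ
    obtain ⟨x, z, hx, hz', h⟩ := hxz σ hσ
    have e : x = xf σ := by simp [xf, hx _ hb0]
    have e' : z = zf σ := by
      have h := hmem _ (hz' (b 1))
      simp [sub_eq_zero] at h
      exact h.symm
    exact ⟨e ▸ hx, e ▸ e' ▸ h⟩
  have hmul : ∀ σ ∈ P.decompositionSubgroup ℚ, ∀ τ ∈ P.decompositionSubgroup ℚ,
      zf (σ * τ) = zf σ * zf τ := by
    intro σ hσ τ hτ
    have h1 := hmem _ (hD σ hσ _ (hz τ hτ (b 1)))
    rw [map_sub, map_smul, map_sub, map_smul, Finsupp.sub_apply, Finsupp.smul_apply, smul_eq_mul,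
      sub_eq_zero] at h1
    show b.repr (ρ.ρ (σ * τ) (b 1)) 1 = _
    rw [map_mul, Module.End.mul_apply, h1, mul_comm]
  have hone : zf 1 = 1 := by simp [zf]
  let s : P.decompositionSubgroup ℚ →* A :=
    { toFun := fun g => zf g
      map_one' := by simpa using hone
      map_mul' := fun g h => by simpa using hmul g g.2 h h.2 }
  have hdet : ∀ σ ∈ P.decompositionSubgroup ℚ, LinearMap.det (ρ.ρ σ) = xf σ * zf σ := by
    intro σ hσ
    rw [← LinearMap.det_toMatrix b, Matrix.det_fin_two]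
    simp only [LinearMap.toMatrix_apply]
    rw [show b.repr (ρ.ρ σ (b 0)) 1 = 0 from hmem _ (hD σ hσ _ hb0)]
    simp [xf, zf]
  have hsq : ∀ g, s g * s g = 1 := by
    intro g
    have key : ∀ n : ℕ, n ≠ 0 → zf g * zf g - 1 ∈ maximalIdeal A ^ n := by
      intro n hn
      have : NeZero (p ^ n) := ⟨pow_ne_zero n hp.ne_zero⟩
      obtain ⟨a, ha⟩ := Root.Patched.exists_exponent (p ^ n) (g : GQ)
      have h1 := (hx g g.2).2 n a ha
      have h2 := hd.2 n g a ha
      rw [hdet g g.2] at h2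
      have hle : Ideal.span {((p ^ n : ℕ) : A)} ≤ maximalIdeal A ^ n := by
        rw [Ideal.span_singleton_le_iff_mem, Nat.cast_pow]
        exact Ideal.pow_mem_pow hd.1 n
      have hu : IsUnit (a : A) := by
        by_contra hu
        have hm : xf g * zf g ∈ maximalIdeal A := by
          have := add_mem (Ideal.pow_le_self hn (hle h2)) ((mem_maximalIdeal _).mpr hu)
          rwa [sub_add_cancel] at this
        refine (mem_maximalIdeal _).mp hm ?_
        rw [← hdet g g.2]
        exact (((Group.isUnit (g : GQ)).map ρ.ρ).map LinearMap.det)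
      obtain ⟨u, hu⟩ := hu
      have h3 : (a : A) * (zf g * zf g - 1) ∈ maximalIdeal A ^ n := by
        have := sub_mem (hle h2) (Ideal.mul_mem_right (zf g) _ (hle h1))
        rwa [show xf g * zf g - (a : A) - (xf g - (a : A) * zf g) * zf g
          = (a : A) * (zf g * zf g - 1) by ring] at this
      have := Ideal.mul_mem_left _ (↑u⁻¹ : A) h3
      rwa [← hu, Units.inv_mul_cancel_left] at this
    show zf g * zf g = 1
    rw [← sub_eq_zero]
    refine IsHausdorff.haus (inferInstance : IsHausdorff (maximalIdeal A) A) _ fun n => ?_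
    rw [SModEq.zero, smul_eq_mul, Ideal.mul_top]
    rcases eq_or_ne n 0 with rfl | hn
    · simp
    · exact key n hn
  refine ⟨s, ⟨fun g hg => ?_, fun g h => ?_⟩, hsq⟩
  · have h := hmem _ (hI g hg (b 1))
    simpa [s, zf, sub_eq_zero] using h
  · have he : (ρ.ρ g - (LinearMap.det (ρ.ρ g) * s g⁻¹) • (1 : Module.End A ρ.V)) *
        (ρ.ρ h - s h • (1 : Module.End A ρ.V)) = 0 := by
      have hs : LinearMap.det (ρ.ρ g) * s g⁻¹ = xf g := by
        rw [hdet g g.2, mul_assoc, show zf g = s g from rfl, ← map_mul, mul_inv_cancel, map_one,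
          mul_one]
      ext v
      rw [hs, Module.End.mul_apply, LinearMap.sub_apply, LinearMap.sub_apply, LinearMap.smul_apply,
        LinearMap.smul_apply, Module.End.one_apply, Module.End.one_apply,
        show s h = zf h from rfl, (hx g g.2).1 _ (hz h h.2 v), LinearMap.zero_apply, sub_self]
    obtain ⟨b', hb'⟩ := hM
    have h1 := congrArg (LinearMap.toMatrixAlgEquiv b') he
    simp only [map_mul, map_sub, map_smul, map_one, map_zero] at h1
    rw [show LinearMap.toMatrixAlgEquiv b' (ρ.ρ g) = M g from hb' g,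
      show LinearMap.toMatrixAlgEquiv b' (ρ.ρ h) = M h from hb' h] at h1
    rw [det_eq ⟨b', hb'⟩]
    exact h1

end Fermat.Agent.TWGen
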