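import Fermat.Agent.TWGen.AdjHyp
import Fermat.Agent.TWGen.Shapes

/-!
# The image hypotheses for a residual representation irreducible on index two subgroups

`bigImage_of_residual`: a residual representation with cyclotomic determinant, split characteristic
polynomials and no stable lines on subgroups of index two, over any extension, has `BigImage`.
-/

set_option autoImplicit false

noncomputable section

open Matrix Polynomial IsLocalRing

namespace Fermat.Agent.TWGen

open SelmerTW Duality Fermat.Agent.Deformation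

/-- There is a subgroup of index two. -/
theorem exists_index_two : ∃ G : Subgroup GalQ, G.index = 2 := by
  obtain ⟨z, hz⟩ := IsAlgClosed.exists_pow_nat_eq (-1 : Qbar) (show 0 < 2 by norm_num)
  refine ⟨MulAction.stabilizer GalQ z, ?_⟩
  have hmove : ∃ σ : GalQ, σ z ≠ z := by
    by_contra h
    push Not at h
    obtain ⟨w, hw⟩ := (InfiniteGalois.mem_range_algebraMap_iff_fixed (k := ℚ) (K := Qbar) z).mpr h
    rw [← hw, ← map_pow, show (-1 : Qbar) = algebraMap ℚ Qbar (-1) by simp] at hz
    nlinarith [(algebraMap ℚ Qbar).injective hz]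
  have hor : ∀ σ : GalQ, σ z = z ∨ σ z = -z := fun σ => by
    rw [← sq_eq_sq_iff_eq_or_eq_neg, ← map_pow, hz, map_neg, map_one]
  obtain ⟨τ, hτ⟩ := hmove
  have hτ' : τ z = -z := (hor τ).resolve_left hτ
  have hne : z ≠ -z := fun e => hτ (hτ'.trans e.symm)
  have hset : MulAction.orbit GalQ z = {z, -z} := by
    ext x
    rw [MulAction.mem_orbit_iff]
    simp only [AlgEquiv.smul_def, Set.mem_insert_iff, Set.mem_singleton_iff]
    constructor
    · rintro ⟨σ, rfl⟩; exact hor σ
    · rintro (rfl | rfl)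
      exacts [⟨1, rfl⟩, ⟨τ, hτ'⟩]
  rw [MulAction.index_stabilizer, hset, Set.ncard_pair hne]

theorem charpoly_split {k : Type} [Field k] {M : Matrix (Fin 2) (Fin 2) k} {α β : k}
    (h : M.charpoly = (X - C α) * (X - C β)) : M.trace = α + β ∧ M.det = α * β := by
  rw [Matrix.charpoly_fin_two] at h
  have h0 := congrArg (eval 0) h
  have h1 := congrArg (eval 1) h
  simp only [eval_add, eval_sub, eval_mul, eval_pow, eval_X, eval_C] at h0 h1
  exact ⟨by linear_combination h0 - h1, by linear_combination h0⟩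

variable {k : Type} [Field k] {p : ℕ} [Fact p.Prime] {ρbar : ResidualGaloisRep k}
  {M0 : GQ →* M2 k}

theorem exists_charpoly_split (hM0 : IsResMatrixRep ρbar M0) {σ : GQ} {α β : k}
    (h : LinearMap.charpoly (ρbar.ρ σ) = (X - C α) * (X - C β)) :
    (M0 σ).charpoly = (X - C α) * (X - C β) := by
  obtain ⟨b, hb⟩ := hM0
  rw [← hb, LinearMap.charpoly_toMatrix, h]

/-- No stable lines on subgroups of index two give a big image. -/
theorem bigImage_of_residual [CharP k p] (hp2 : p ≠ 2) (hM0 : IsResMatrixRep ρbar M0)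
    (hdet : (GaloisRepAdic.ofResidualGaloisRep ρbar).DetIsCyclotomic p)
    (hsplit : ∀ σ : GQ, ∃ α β : k, LinearMap.charpoly (ρbar.ρ σ) = (X - C α) * (X - C β))
    (hTW : ∀ (K : Type) [Field K] [Algebra k K] (G : Subgroup GQ), G.index = 2 →
      ∀ V : Submodule K (ρbar.baseChange K).V,
        (∀ σ ∈ G, ∀ x ∈ V, (ρbar.baseChange K).ρ σ x ∈ V) → V = ⊥ ∨ V = ⊤)
    (ρ : GalQ →* GL (Fin 2) k) (hρ : ∀ σ, (ρ σ).val = M0 σ) : BigImage p ρ := by
  refine ⟨hp2, ?_, fun σ => ?_, fun K _ _ G hG v hv => ?_, fun σ => ?_⟩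
  · obtain ⟨L, hL, h⟩ := ρbar.factorsThroughFiniteLevel
    refine ⟨L, hL, fun σ hσ => Units.ext ?_⟩
    obtain ⟨b, hb⟩ := hM0
    rw [hρ, ← hb, h σ hσ, LinearMap.toMatrix_one, Units.val_one]
  · have h := TWGen.detCyclotomic hM0.ofResidual hdet 1 σ (ExtCitation.cycloExp p σ)
      fun μ hμ => cycloExp_spec σ (by simpa using hμ)
    rw [pow_one, CharP.cast_eq_zero k p, Ideal.span_singleton_eq_bot.mpr rfl, Ideal.mem_bot,
      sub_eq_zero] at h
    rw [hρ, h]
  · obtain ⟨G₀, hG₀⟩ := exists_index_two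
    obtain ⟨G', hG', hle⟩ : ∃ G' : Subgroup GQ, G'.index = 2 ∧ G' ≤ G := by
      rcases hG with rfl | hG
      exacts [⟨G₀, hG₀, le_top⟩, ⟨G, hG, le_rfl⟩]
    by_contra hcon
    push Not at hcon
    obtain ⟨b, hb⟩ := hM0.baseChange (k' := K)
    set w := b.equivFun.symm v with hw
    have hw0 : w ≠ 0 := fun e => hv (b.equivFun.symm.map_eq_zero_iff.mp e)
    rcases hTW K G' hG' (Submodule.span K {w}) (fun σ hσ x hx => by
      obtain ⟨a, rfl⟩ := Submodule.mem_span_singleton.mp hx
      obtain ⟨c, hc⟩ := hcon σ (hle hσ)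
      refine Submodule.mem_span_singleton.mpr ⟨a * c, ?_⟩
      rw [map_smul, mul_smul]
      congr 1
      refine b.equivFun.injective ?_
      rw [map_smul]
      have e : b.equivFun w = v := b.equivFun.apply_symm_apply v
      rw [e, ← hc]
      rw [hρ] at *
      have h1 := LinearMap.toMatrix_mulVec_repr b b ((ρbar.baseChange K).ρ σ) w
      rw [hb, mapRep_apply, show ⇑(b.repr w) = v from e] at h1
      exact h1) with h | h
    · exact hw0 (Submodule.span_singleton_eq_bot.mp h)
    · have h1 := congrArg (fun V : Submodule K (ρbar.baseChange K).V => Module.finrank K V) h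
      simp [finrank_span_singleton hw0, (ρbar.baseChange K).finrank_eq] at h1
  · obtain ⟨α, β, h⟩ := hsplit σ
    obtain ⟨ht, hd⟩ := charpoly_split (exists_charpoly_split hM0 h)
    exact ⟨α, β, by rw [hρ, ht], by rw [hρ, hd]⟩

end Fermat.Agent.TWGen
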