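import Fermat.Agent.TWGen.Generators
import Fermat.Agent.TWGen.Closed
import Fermat.Agent.TWGen.Image
import Fermat.Agent.LocalModel.Ram
import Fermat.Agent.LocalModelP.Steinberg
import Fermat.Agent.LocalModelP.Flat
import Fermat.Agent.Gal.Places

/-!
# Generators for the minimal conditions with auxiliary primes

`exists_surjective_minimal`: generators of the deformation ring with minimal conditions away from
`p` and coordinates at `p`, for a representation with big image.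
-/

set_option autoImplicit false

noncomputable section

open IsLocalRing Polynomial Matrix

namespace Fermat.Agent.TWGen

open Fermat.Agent.Deformation Fermat.Agent.Root.Patched

local notation "ℚbar" => AlgebraicClosure ℚ

section Closure

variable {A B : Type} [CommRing A] [IsLocalRing A] [CommRing B] [IsLocalRing B]
  {ρ : GaloisRepAdic A} (φ : A →+* B) (hφ : IsLocalHom φ)

theorem detIsCyclotomic_baseChangeAlong {p : ℕ} (h : ρ.DetIsCyclotomic p) :
    (ρ.baseChangeAlong φ hφ).DetIsCyclotomic p := by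
  let : Algebra A B := φ.toAlgebra
  refine ⟨by rw [← map_natCast φ]; exact map_nonunit φ _ h.1, fun n σ a ha => ?_⟩
  show LinearMap.det ((ρ.ρ σ).baseChange B) - _ ∈ _
  have h1 := Ideal.mem_map_of_mem φ (h.2 n σ a ha)
  rw [Ideal.map_span, Set.image_singleton, map_natCast, map_sub, map_natCast] at h1
  rw [LinearMap.det_baseChange]
  exact h1

theorem isUnramifiedAt_baseChangeAlong {q : ℕ} (h : ρ.IsUnramifiedAt q) :
    (ρ.baseChangeAlong φ hφ).IsUnramifiedAt q := fun P hP σ hσ => by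
  let : Algebra A B := φ.toAlgebra
  show (ρ.ρ σ).baseChange B = 1
  rw [h P hP σ hσ, LinearMap.baseChange_one]

theorem isUnipotentOnInertiaAt_baseChangeAlong {q : ℕ} (h : ρ.IsUnipotentOnInertiaAt q) :
    (ρ.baseChangeAlong φ hφ).IsUnipotentOnInertiaAt q := fun P hP σ hσ => by
  let : Algebra A B := φ.toAlgebra
  show LinearMap.charpoly ((ρ.ρ σ).baseChange B) = _
  rw [LinearMap.charpoly_baseChange, h P hP σ hσ]
  simp

end Closure

section Cond

variable {O : Type} [CommRing O] [IsLocalRing O] {ρbar : GQ →* M2 (ResidueField O)}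

/-- A closed condition satisfied by one lift is satisfied by the residual lifts. -/
theorem cond_of_maximalIdeal_eq_bot {cond : ∀ S : TestRing O, Lift ρbar S → Prop}
    (hc : CondClosed cond) {S₀ : TestRing O} {ℓ : Lift ρbar S₀} (h : cond S₀ ℓ)
    (S : TestRing O) (r : Lift ρbar S) (hS : maximalIdeal S.R = ⊥) : cond S r := by
  have hinj : Function.Injective S.red :=
    (injective_iff_map_eq_zero _).mpr fun x hx => by rwa [S.ker_red, hS, Ideal.mem_bot] at hx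
  have hsurj : Function.Surjective S.red := fun z => by
    obtain ⟨a, rfl⟩ := residue_surjective z
    exact ⟨S.alg a, S.red_alg a⟩
  let e := RingEquiv.ofBijective S.red ⟨hinj, hsurj⟩
  have he : ∀ z, S.red (e.symm z) = z := e.apply_symm_apply
  refine hc.push S₀ S (e.symm.toRingHom.comp S₀.red) ?_ (RingHom.ext fun x => he _) ℓ r
    (fun g => Matrix.ext fun i j => hinj ?_) h
  · refine RingHom.ext fun a => hinj ?_
    rw [S.red_alg]
    exact (he _).trans (S₀.red_alg a)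
  · rw [Matrix.map_apply]
    exact (congrFun (congrFun (r.reduces g) i) j).trans
      ((congrFun (congrFun (ℓ.reduces g) i) j).symm.trans (he _).symm)

/-- Coordinates serve every stronger condition. -/
def coordsRestrict {P : ValuationSubring ℚbar} {σ : Type}
    {c c' : ∀ S : TestRing O, Lift ρbar S → Prop} (C : Coords ρbar P σ c)
    (h : ∀ S r, c' S r → c S r) : Coords ρbar P σ c' where
  val := C.val
  mem S r hr := C.mem S r (h S r hr)
  natural S S' φ ha hr r r' he hc := C.natural S S' φ ha hr r r' he (h S r hc)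
  determine S hS r r' hr hr' := C.determine S hS r r' (h S r hr) (h S r' hr')

/-- Coordinates reindexed. -/
theorem nonempty_coords_of_eq {P : ValuationSubring ℚbar} {n m : ℕ} (e : n = m)
    {c : ∀ S : TestRing O, Lift ρbar S → Prop} (C : Nonempty (Coords ρbar P (Fin n) c)) :
    Nonempty (Coords ρbar P (Fin m) c) := e ▸ C

theorem sq_of_unipotent {P : ValuationSubring ℚbar} {S : TestRing O} {r : Lift ρbar S}
    (h : Unipotent P S r) {σ : GQ} (hσ : σ ∈ P.inertiaSubgroupIn ℚ) :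
    (r.M σ - 1) * (r.M σ - 1) = 0 := by
  have h1 := Matrix.aeval_self_charpoly (r.M σ)
  rw [h σ hσ] at h1
  simpa [sq] using h1

end Cond

section Main

variable {𝒪 : Type} [CommRing 𝒪] [IsDomain 𝒪] [IsDiscreteValuationRing 𝒪]
  [IsAdicComplete (maximalIdeal 𝒪) 𝒪] [Finite (ResidueField 𝒪)]
  {ρbar : ResidualGaloisRep (ResidueField 𝒪)} {M0 : GQ →* M2 (ResidueField 𝒪)}

omit [IsAdicComplete (maximalIdeal 𝒪) 𝒪] [Finite (ResidueField 𝒪)] in
/-- Places above the primes at which ramification is visible. -/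
theorem exists_places (hM0 : IsResMatrixRep ρbar M0) :
    ∃ P : ℕ → ValuationSubring ℚbar, ∀ x : ℕ, x.Prime → (P x).LiesOverPrime x ∧
      (¬ ρbar.IsUnramifiedAt x → ∃ σ ∈ (P x).inertiaSubgroupIn ℚ, M0 σ ≠ 1) := by
  have key : ∀ x : ℕ, ∃ A : ValuationSubring ℚbar, x.Prime → A.LiesOverPrime x ∧
      (¬ ρbar.IsUnramifiedAt x → ∃ σ ∈ A.inertiaSubgroupIn ℚ, M0 σ ≠ 1) := by
    intro x
    by_cases hx : x.Prime
    · by_cases hu : ρbar.IsUnramifiedAt x
      · obtain ⟨A, hA⟩ := Gal.exists_liesOverPrime (L := ℚbar) hx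
        exact ⟨A, fun _ => ⟨hA, fun h => absurd hu h⟩⟩
      · unfold ResidualGaloisRep.IsUnramifiedAt at hu
        push Not at hu
        obtain ⟨A, hA, σ, hσ, hne⟩ := hu
        obtain ⟨b, hb⟩ := hM0
        refine ⟨A, fun _ => ⟨hA, fun _ => ⟨σ, hσ, fun h => hne ?_⟩⟩⟩
        rw [← hb, ← LinearMap.toMatrix_one b] at h
        exact (LinearMap.toMatrix b b).injective h
    · exact ⟨⊤, fun h => absurd h hx⟩
  choose P hP using key
  exact ⟨P, hP⟩

variable {𝒟 : ∀ ⦃A : Type⦄ [CommRing A] [IsLocalRing A] [Algebra 𝒪 A], GaloisRepAdic A → Prop}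

/-- Generators with minimal conditions away from `p` and coordinates at `p`. -/
theorem exists_surjective_minimal {p : ℕ} [Fact p.Prime] [CharP (ResidueField 𝒪) p] (hp2 : p ≠ 2)
    (hp : (p : 𝒪) ∈ maximalIdeal 𝒪) (hM0 : IsResMatrixRep ρbar M0)
    (ρ : GQ →* GL (Fin 2) (ResidueField 𝒪)) (hρ : ∀ σ, (ρ σ).val = M0 σ) (hbig : BigImage p ρ)
    (Smin : Finset ℕ) (hpSmin : p ∈ Smin) (hprime : ∀ q ∈ Smin, q.Prime)
    (hmin : ∀ q ∈ Smin, q ≠ p → ¬ ρbar.IsUnramifiedAt q)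
    (P : ℕ → ValuationSubring ℚbar) (hP : ∀ x : ℕ, x.Prime → (P x).LiesOverPrime x ∧
      (¬ ρbar.IsUnramifiedAt x → ∃ σ ∈ (P x).inertiaSubgroupIn ℚ, M0 σ ≠ 1))
    (Q : Finset ℕ) (DQ : GaloisRep.DeformationRingData 𝒪 ρbar 𝒟)
    (hdet : DQ.ρ.DetIsCyclotomic p)
    (hunr : ∀ x : ℕ, x.Prime → x ∉ Smin ∪ Q → DQ.ρ.IsUnramifiedAt x)
    (huni : ∀ q ∈ Smin, q.Prime → q ≠ p → DQ.ρ.IsUnipotentOnInertiaAt q)
    (hpush : ∀ (A : Type) [CommRing A] [IsLocalRing A] [IsNoetherianRing A]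
      [IsAdicComplete (maximalIdeal A) A] [Finite (ResidueField A)] [Algebra 𝒪 A]
      (φ : DQ.R →+* A) (hφ : IsLocalHom φ), 𝒟 (DQ.ρ.baseChangeAlong φ hφ))
    (condP : ∀ S : TestRing 𝒪, Lift M0 S → Prop) (hclosedP : CondClosed condP)
    (hcondP : ∀ ℓ : Lift M0 (ringOf DQ), IsMatrixRep (A := DQ.R) DQ.ρ ℓ.M → condP (ringOf DQ) ℓ)
    (hcoordP : Nonempty (Coords M0 (P p) (Fin 4) condP))
    (r : ℕ)
    (hbound : ∀ (n : ℕ) (x : Fin n → (GQ → M2 (ResidueField 𝒪)) × (ℕ → M2 (ResidueField 𝒪))),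
      (∀ i, IsFramedKernel ρ Smin Q P (x i)) → LinearIndependent (ResidueField 𝒪) x →
        n ≤ r + 2) :
    ∃ γ : MvPowerSeries (Fin r) 𝒪 →ₐ[𝒪] DQ.R, Function.Surjective γ := by
  classical
  let cond : Smin → ∀ S : TestRing 𝒪, Lift M0 S → Prop := fun v S ℓ =>
    if (v : ℕ) = p then condP S ℓ else DetCyclotomic p S ℓ ∧ Unipotent (P v) S ℓ
  have hclosed : ∀ v, CondClosed (cond v) := fun v => by
    by_cases hv : (v : ℕ) = p
    · simpa only [cond, if_pos hv] using hclosedP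
    · simpa only [cond, if_neg hv] using
        condClosed_and (condClosed_detCyclotomic p) (condClosed_unipotent (P v))
  have hcond : ∀ (v : Smin) (ℓ : Lift M0 (ringOf DQ)), IsMatrixRep (A := DQ.R) DQ.ρ ℓ.M →
      cond v (ringOf DQ) ℓ := fun v ℓ hℓ => by
    by_cases hv : (v : ℕ) = p
    · simpa only [cond, if_pos hv] using hcondP ℓ hℓ
    · simp only [cond, if_neg hv]
      exact ⟨detCyclotomic hℓ hdet, fun σ hσ => charpoly_eq_of_isUnipotent (A := DQ.R) hℓ
        (huni v v.2 (hprime v v.2) hv) (hP v (hprime v v.2)).1 hσ⟩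
  let σv : Smin → Type := fun v => Fin (if (v : ℕ) = p then 4 else 3)
  have hC : ∀ v : Smin, Nonempty (Coords M0 (P v) (σv v) (cond v)) := fun v => by
    by_cases hv : (v : ℕ) = p
    · obtain ⟨C⟩ := hcoordP
      refine nonempty_coords_of_eq (if_pos hv).symm ?_
      rw [hv]
      exact ⟨coordsRestrict C fun S ℓ h => by simpa only [cond, if_pos hv] using h⟩
    · obtain ⟨C⟩ := LocalModel.exists_coords_ram_of_sq (Fact.out : p.Prime) hp2 hp v
        (hprime v v.2) hv (P v) (hP v (hprime v v.2)).1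
        ((hP v (hprime v v.2)).2 (hmin v v.2 hv))
        (fun S ℓ => DetCyclotomic p S ℓ ∧ Unipotent (P v) S ℓ) (fun _ _ h => h.1)
        fun _ _ h _ hσ => sq_of_unipotent h.2 hσ
      exact nonempty_coords_of_eq (if_neg hv).symm
        ⟨coordsRestrict C fun S ℓ h => by simpa only [cond, if_neg hv] using h⟩
  refine exists_surjective_of_coords hM0 hpush hp hdet Smin Q P
    (fun x hx h1 h2 => hunr x hx (by simp [h1, h2])) σv cond hclosed hcond
    (fun v => (hC v).some) ?_ ρ hρ (fun X hX hcomm => hbig.fixed hX fun σ _ => ?_) r hbound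
  · rw [show ∑ v : Smin, Fintype.card (σv v) = ∑ v : Smin, (3 + if (v : ℕ) = p then 1 else 0) from
      Finset.sum_congr rfl fun v _ => by simp only [σv, Fintype.card_fin]; split_ifs <;> rfl,
      Finset.sum_add_distrib, Finset.sum_const, Finset.card_univ, Fintype.card_coe,
      Finset.sum_coe_sort Smin (fun v => if v = p then 1 else 0), Finset.sum_ite_eq' Smin p,
      if_pos hpSmin, smul_eq_mul, mul_comm]
  · simp only [SelmerTW.conjAct]
    rw [hcomm σ, Matrix.mul_assoc, mul_val_inv, Matrix.mul_one]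

/-- Generators for the strictly ordinary minimal conditions. -/
theorem exists_surjective_strictOrdinary {p : ℕ} [Fact p.Prime] [CharP (ResidueField 𝒪) p]
    (hp2 : p ≠ 2) (hp : (p : 𝒪) ∈ maximalIdeal 𝒪) (hM0 : IsResMatrixRep ρbar M0)
    (ρ : GQ →* GL (Fin 2) (ResidueField 𝒪)) (hρ : ∀ σ, (ρ σ).val = M0 σ) (hbig : BigImage p ρ)
    (Smin : Finset ℕ) (hpSmin : p ∈ Smin) (hprime : ∀ q ∈ Smin, q.Prime)
    (hmin : ∀ q ∈ Smin, q ≠ p → ¬ ρbar.IsUnramifiedAt q)
    (P : ℕ → ValuationSubring ℚbar) (hP : ∀ x : ℕ, x.Prime → (P x).LiesOverPrime x ∧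
      (¬ ρbar.IsUnramifiedAt x → ∃ σ ∈ (P x).inertiaSubgroupIn ℚ, M0 σ ≠ 1))
    (Q : Finset ℕ)
    (DQ : GaloisRep.DeformationRingData 𝒪 ρbar fun _A _ _ _ ρ =>
      GaloisRep.strictOrdinaryCondition 𝒪 p (Smin ∪ Q) ρ ∧
        ∀ q ∈ Smin, q.Prime → q ≠ p → ρ.IsUnipotentOnInertiaAt q)
    (r : ℕ)
    (hbound : ∀ (n : ℕ) (x : Fin n → (GQ → M2 (ResidueField 𝒪)) × (ℕ → M2 (ResidueField 𝒪))),
      (∀ i, IsFramedKernel ρ Smin Q P (x i)) → LinearIndependent (ResidueField 𝒪) x →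
        n ≤ r + 2) :
    ∃ γ : MvPowerSeries (Fin r) 𝒪 →ₐ[𝒪] DQ.R, Function.Surjective γ := by
  obtain ⟨⟨hd, ho, hu⟩, huni⟩ := DQ.isOfType
  have hPp := (hP p Fact.out).1
  refine exists_surjective_minimal hp2 hp hM0 ρ hρ hbig Smin hpSmin hprime hmin P hP Q DQ hd hu
    huni (fun A _ _ _ _ _ _ φ hφ => ⟨⟨detIsCyclotomic_baseChangeAlong φ hφ hd,
      isStrictOrdinaryAt_baseChangeAlong ho φ hφ,
      fun q h1 h2 => isUnramifiedAt_baseChangeAlong φ hφ (hu q h1 h2)⟩,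
      fun q h1 h2 h3 => isUnipotentOnInertiaAt_baseChangeAlong φ hφ (huni q h1 h2 h3)⟩)
    (fun S ℓ => DetCyclotomic p S ℓ ∧ SteinbergShape (P p) S ℓ)
    (condClosed_and (condClosed_detCyclotomic p) (condClosed_steinbergShape (P p))) (fun ℓ hℓ => ?_)
    (LocalModelP.exists_coords_steinberg hp2 hp (P p) hPp) r hbound
  obtain ⟨s, hs⟩ := exists_quotient_char (A := DQ.R) hℓ Fact.out hd ho hPp
  exact ⟨detCyclotomic hℓ hd, s, hs⟩

/-- Generators for the flat minimal conditions. -/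
theorem exists_surjective_flat {p : ℕ} [Fact p.Prime] [CharP (ResidueField 𝒪) p]
    (hp2 : p ≠ 2) (hp : (p : 𝒪) ∈ maximalIdeal 𝒪) (hM0 : IsResMatrixRep ρbar M0)
    (ρ : GQ →* GL (Fin 2) (ResidueField 𝒪)) (hρ : ∀ σ, (ρ σ).val = M0 σ) (hbig : BigImage p ρ)
    (Smin : Finset ℕ) (hpSmin : p ∈ Smin) (hprime : ∀ q ∈ Smin, q.Prime)
    (hmin : ∀ q ∈ Smin, q ≠ p → ¬ ρbar.IsUnramifiedAt q)
    (P : ℕ → ValuationSubring ℚbar) (hP : ∀ x : ℕ, x.Prime → (P x).LiesOverPrime x ∧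
      (¬ ρbar.IsUnramifiedAt x → ∃ σ ∈ (P x).inertiaSubgroupIn ℚ, M0 σ ≠ 1))
    (Q : Finset ℕ)
    (DQ : GaloisRep.DeformationRingData 𝒪 ρbar fun _A _ _ _ ρ =>
      GaloisRep.flatCondition 𝒪 p (Smin ∪ Q) ρ ∧
        ∀ q ∈ Smin, q.Prime → q ≠ p → ρ.IsUnipotentOnInertiaAt q)
    (r : ℕ)
    (hbound : ∀ (n : ℕ) (x : Fin n → (GQ → M2 (ResidueField 𝒪)) × (ℕ → M2 (ResidueField 𝒪))),
      (∀ i, IsFramedKernel ρ Smin Q P (x i)) → LinearIndependent (ResidueField 𝒪) x →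
        n ≤ r + 2) :
    ∃ γ : MvPowerSeries (Fin r) 𝒪 →ₐ[𝒪] DQ.R, Function.Surjective γ := by
  obtain ⟨⟨hd, hf, hu⟩, huni⟩ := DQ.isOfType
  have hPp := (hP p Fact.out).1
  obtain ⟨ℓ₀, hℓ₀⟩ := exists_lift DQ hM0
  have hshape : ∀ ℓ : Lift M0 (ringOf DQ), IsMatrixRep (A := DQ.R) DQ.ρ ℓ.M →
      DetCyclotomic p (ringOf DQ) ℓ ∧ FlatShape p (ringOf DQ) ℓ := fun ℓ hℓ =>
    ⟨detCyclotomic hℓ hd, isFlatAt_of_isEquiv hf (hℓ.isEquiv (isMatrixRep_ofMatrix ℓ.M ℓ.cont))⟩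
  exact exists_surjective_minimal hp2 hp hM0 ρ hρ hbig Smin hpSmin hprime hmin P hP Q DQ hd hu
    huni (fun A _ _ _ _ _ _ φ hφ => ⟨⟨detIsCyclotomic_baseChangeAlong φ hφ hd,
      isFlatAt_baseChangeAlong hf φ hφ,
      fun q h1 h2 => isUnramifiedAt_baseChangeAlong φ hφ (hu q h1 h2)⟩,
      fun q h1 h2 h3 => isUnipotentOnInertiaAt_baseChangeAlong φ hφ (huni q h1 h2 h3)⟩)
    (fun S ℓ => DetCyclotomic p S ℓ ∧ FlatShape p S ℓ)
    (condClosed_and (condClosed_detCyclotomic p) (condClosed_flatShape p)) hshape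
    (LocalModelP.exists_coords_flat hp2 hp (P p) hPp fun S ℓ hS =>
      cond_of_maximalIdeal_eq_bot
        (condClosed_and (condClosed_detCyclotomic p) (condClosed_flatShape p))
        (hshape ℓ₀ hℓ₀) S ℓ hS) r hbound

end Main

end Fermat.Agent.TWGen
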