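import Fermat.Agent.TWGen.H1
import Fermat.Agent.SelmerTW.Detect

/-!
# The properties of the image used in the choice of Taylor–Wiles primes

`BigImage`: cyclotomic determinant, no stable lines even on subgroups of index two and over
extensions of the coefficients, split characteristic polynomials.  `BigImage.isTWImage`: these give
the hypotheses used to choose Taylor–Wiles primes.
-/

set_option autoImplicit false

noncomputable section

open Matrix

namespace Fermat.Agent.TWGen

open SelmerTW Duality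

variable {k : Type} [Field k]

/-- No line over any extension of `k` is stable by an index two subgroup or by the whole group. -/
structure BigImage (p : ℕ) [Fact p.Prime] (ρ : GalQ →* GL (Fin 2) k) : Prop where
  odd : p ≠ 2
  finite : GaloisFactorsThroughFiniteLevel ρ
  cycloDet : IsCycloDet ρ p
  irr : ∀ (K : Type) [Field K] [Algebra k K] (G : Subgroup GalQ), G = ⊤ ∨ G.index = 2 →
    ∀ v : Fin 2 → K, v ≠ 0 →
      ∃ σ ∈ G, ∀ c : K, ((ρ σ).val.map (algebraMap k K)).mulVec v ≠ c • v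
  split : ∀ σ, ∃ α β : k, (ρ σ).val.trace = α + β ∧ (ρ σ).val.det = α * β

/-- An eigenspace of a nonzero trace zero matrix is at most a line. -/
theorem line_of_eigen {F : Type} [Field F] {M : Matrix (Fin 2) (Fin 2) F} (h2 : (2 : F) ≠ 0)
    (hM : M.trace = 0) (hM0 : M ≠ 0) {lam : F} {v w : Fin 2 → F} (hv : v ≠ 0)
    (h : M.mulVec v = lam • v) (h' : M.mulVec w = lam • w) : ∃ c : F, w = c • v := by
  have hv0 := congrFun h 0
  have hv1 := congrFun h 1
  have hw0 := congrFun h' 0
  have hw1 := congrFun h' 1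
  simp [mulVec, dotProduct, Fin.sum_univ_two] at hv0 hv1 hw0 hw1
  rw [trace_fin_two] at hM
  have hcross : v 0 * w 1 - v 1 * w 0 = 0 := by
    by_contra hne
    have e01 : M 0 1 = 0 := (mul_eq_zero.mp (show M 0 1 * (v 0 * w 1 - v 1 * w 0) = 0 by
      linear_combination v 0 * hw0 - w 0 * hv0)).resolve_right hne
    have e10 : M 1 0 = 0 := (mul_eq_zero.mp (show M 1 0 * (v 0 * w 1 - v 1 * w 0) = 0 by
      linear_combination w 1 * hv1 - v 1 * hw1)).resolve_right hne
    have e00 : M 0 0 - lam = 0 := (mul_eq_zero.mp (show (M 0 0 - lam) * (v 0 * w 1 - v 1 * w 0) = 0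
      by linear_combination w 1 * hv0 - v 1 * hw0)).resolve_right hne
    have e11 : M 1 1 - lam = 0 := (mul_eq_zero.mp (show (M 1 1 - lam) * (v 0 * w 1 - v 1 * w 0) = 0
      by linear_combination v 0 * hw1 - w 0 * hv1)).resolve_right hne
    have hlam : lam = 0 := (mul_eq_zero.mp (show (2 : F) * lam = 0 by
      linear_combination hM - e00 - e11)).resolve_left h2
    refine hM0 (Matrix.ext fun i j => ?_)
    fin_cases i <;> fin_cases j <;> simp [e01, e10, sub_eq_zero.mp e00, sub_eq_zero.mp e11, hlam]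
  by_cases h0 : v 0 = 0
  · have h1 : v 1 ≠ 0 := fun h1 => hv (funext fun i => by fin_cases i <;> simp [h0, h1])
    refine ⟨w 1 / v 1, funext fun i => ?_⟩
    fin_cases i <;> simp [div_mul_cancel₀ _ h1, h0]
    rw [h0, zero_mul, zero_sub, neg_eq_zero] at hcross
    exact (mul_eq_zero.mp hcross).resolve_left h1
  · refine ⟨w 0 / v 0, funext fun i => ?_⟩
    fin_cases i <;> simp [h0]
    field_simp
    linear_combination hcross

/-- The trace zero part of a matrix. -/
def tzero (A : Mat2 k) : Mat2 k := A - (A.trace / 2) • 1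

/-- Commuting trace zero matrices are proportional. -/
theorem prop_of_commute (h2 : (2 : k) ≠ 0) {A N : Mat2 k} (hA : A.trace = 0) (hN : N.trace = 0)
    (hN0 : N ≠ 0) (h : A * N = N * A) : ∃ c : k, A = c • N := by
  rw [trace_fin_two] at hA hN
  have a11 : A 1 1 = -A 0 0 := by linear_combination hA
  have n11 : N 1 1 = -N 0 0 := by linear_combination hN
  have e00 := congrFun (congrFun h 0) 0
  have e01 := congrFun (congrFun h 0) 1
  have e10 := congrFun (congrFun h 1) 0
  simp [Matrix.mul_apply, Fin.sum_univ_two, a11, n11] at e00 e01 e10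
  have f1 : A 0 1 * N 1 0 = N 0 1 * A 1 0 := by linear_combination e00
  have f2 : A 0 0 * N 0 1 = N 0 0 * A 0 1 := mul_left_cancel₀ h2 (by linear_combination e01)
  have f3 : A 0 0 * N 1 0 = N 0 0 * A 1 0 := mul_left_cancel₀ h2 (by linear_combination -e10)
  by_cases ha : N 0 0 = 0
  · by_cases hb : N 0 1 = 0
    · have hc : N 1 0 ≠ 0 := fun hc => hN0 (Matrix.ext fun i j => by
        fin_cases i <;> fin_cases j <;> simp [ha, hb, hc, n11])
      refine ⟨A 1 0 / N 1 0, Matrix.ext fun i j => ?_⟩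
      fin_cases i <;> fin_cases j <;> simp [ha, hb, a11, n11, div_mul_cancel₀ _ hc]
      all_goals first
        | exact (mul_eq_zero.mp (f3.trans (by rw [ha, zero_mul]))).resolve_right hc
        | exact (mul_eq_zero.mp (f1.trans (by rw [hb, zero_mul]))).resolve_right hc
    · refine ⟨A 0 1 / N 0 1, Matrix.ext fun i j => ?_⟩
      fin_cases i <;> fin_cases j <;> simp [ha, a11, n11, div_mul_cancel₀ _ hb]
      all_goals first
        | exact (mul_eq_zero.mp (f2.trans (by rw [ha, zero_mul]))).resolve_right hb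
        | (field_simp; linear_combination -f1)
  · refine ⟨A 0 0 / N 0 0, Matrix.ext fun i j => ?_⟩
    fin_cases i <;> fin_cases j <;> simp [a11, n11, div_mul_cancel₀ _ ha] <;> field_simp
    all_goals first | linear_combination -f2 | linear_combination -f3

/-- Orthogonal nilpotent trace zero matrices are proportional. -/
theorem prop_of_nilpotent {A N : Mat2 k} (hA : A.trace = 0) (hN : N.trace = 0)
    (hA2 : A * A = 0) (hN2 : N * N = 0) (h : (A * N).trace = 0) : A * N = N * A := by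
  rw [trace_fin_two] at hA hN
  have a11 : A 1 1 = -A 0 0 := by linear_combination hA
  have n11 : N 1 1 = -N 0 0 := by linear_combination hN
  have ea := congrFun (congrFun hA2 0) 0
  have en := congrFun (congrFun hN2 0) 0
  rw [trace_fin_two] at h
  simp [Matrix.mul_apply, Fin.sum_univ_two, a11, n11] at ea en h
  set a := A 0 0
  set b := A 0 1
  set c := A 1 0
  set a' := N 0 0
  set b' := N 0 1
  set c' := N 1 0
  have g1 : a * b' = a' * b := by
    refine sub_eq_zero.mp (pow_eq_zero_iff two_ne_zero |>.mp ?_)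
    linear_combination b' ^ 2 * ea + b ^ 2 * en - b * b' * h
  have g2 : a * c' = a' * c := by
    refine sub_eq_zero.mp (pow_eq_zero_iff two_ne_zero |>.mp ?_)
    linear_combination c' ^ 2 * ea + c ^ 2 * en - c * c' * h
  have g3 : b * c' = b' * c := by
    refine sub_eq_zero.mp (pow_eq_zero_iff two_ne_zero |>.mp ?_)
    linear_combination (b * c' + c * b' - 2 * a * a') * h + 4 * a' ^ 2 * ea - 4 * b * c * en
  ext i j
  fin_cases i <;> fin_cases j <;>
    simp [Matrix.mul_apply, Fin.sum_univ_two, a11, n11] <;>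
    first
      | linear_combination g3
      | linear_combination 2 * g1
      | linear_combination -2 * g2
      | linear_combination -g3

theorem eq_smul_one_of_tzero {A : Mat2 k} (hA : tzero A = 0) : A = (A.trace / 2) • 1 :=
  sub_eq_zero.mp hA

theorem mat_inv_eq (ρ : GalQ →* GL (Fin 2) k) (σ : GalQ) :
    (ρ σ).val.adjugate = (ρ σ).val.det • (ρ σ⁻¹).val := by
  calc (ρ σ).val.adjugate = (ρ σ).val.adjugate * ((ρ σ).val * (ρ σ⁻¹).val) := by
        rw [val_mul_val_inv, Matrix.mul_one]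
    _ = _ := by rw [← Matrix.mul_assoc, adjugate_mul, Matrix.smul_mul, Matrix.one_mul]

theorem tw_eq_det_smul_conjAct (ρ : GalQ →* GL (Fin 2) k) (σ : GalQ) (A : Mat2 k) :
    tw (ρ σ) A = (ρ σ).val.det • conjAct ρ σ A := by
  rw [tw, conjAct, mat_inv_eq, Matrix.mul_smul]

theorem conjAct_tzero (ρ : GalQ →* GL (Fin 2) k) (σ : GalQ) (A : Mat2 k) :
    conjAct ρ σ (tzero A) = tzero (conjAct ρ σ A) := by
  rw [tzero, tzero, conjAct_sub, conjAct_smul, trace_conjAct,
    show conjAct ρ σ (1 : Mat2 k) = 1 by rw [conjAct, Matrix.mul_one, val_mul_val_inv]]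

variable {p : ℕ} [hp : Fact p.Prime] {ρ : GalQ →* GL (Fin 2) k}

theorem cycloExp_spec (σ : GalQ) {μ : Qbar} (hμ : μ ^ p = 1) :
    σ μ = μ ^ ExtCitation.cycloExp p σ := by
  have : NeZero p := ⟨hp.out.ne_zero⟩
  exact modularCyclotomicCharacter.spec _ (ExtCitation.card_rootsOfUnity_eq_self p)
    (σ : Qbar ≃+* Qbar) (t := Units.ofPowEqOne μ p hμ (NeZero.ne p))
    ((mem_rootsOfUnity p _).mpr (Units.pow_ofPowEqOne hμ (NeZero.ne p)))

variable [CharP k p]

theorem mem_cycKer_iff_det (hdet : IsCycloDet ρ p) (σ : GalQ) :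
    σ ∈ cycKer p ↔ (ρ σ).val.det = 1 := by
  rw [hdet σ, ← map_natCast (ZMod.castHom (dvd_refl p) k), ← map_one (ZMod.castHom (dvd_refl p) k),
    (RingHom.injective _).eq_iff]
  refine ⟨fun h => cycloExp_eq_one h, fun h μ hμ => ?_⟩
  rw [cycloExp_spec σ hμ, pow_eq_pow_mod _ hμ]
  have h1 : ExtCitation.cycloExp p σ % p = 1 := by
    rw [← ZMod.val_natCast, h, ZMod.val_one]
  rw [h1, pow_one]

variable (h : BigImage p ρ)

include h

theorem BigImage.two_ne : (2 : k) ≠ 0 := two_ne_zero_of_odd p h.odd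

/-- No line of trace zero matrices is stable by conjugation. -/
theorem BigImage.no_line {M : Mat2 k} (hM : M.trace = 0) (hM0 : M ≠ 0)
    (hst : ∀ σ, ∃ c : k, conjAct ρ σ M = c • M) : False := by
  classical
  choose c hc using hst
  have hrel : ∀ σ, (ρ σ).val * M = c σ • (M * (ρ σ).val) := fun σ => by
    rw [← Matrix.smul_mul, ← hc σ, conjAct, Matrix.mul_assoc, val_inv_mul_val, Matrix.mul_one]
  have hc0 : ∀ σ, c σ ≠ 0 := fun σ h0 => hM0 (by
    have h1 := congrArg ((ρ σ⁻¹).val * ·) (hrel σ)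
    simp only [← Matrix.mul_assoc, val_inv_mul_val, Matrix.one_mul, h0, zero_smul,
      Matrix.mul_zero] at h1
    exact h1)
  let K := AlgebraicClosure k
  let φ := algebraMap k K
  have hMK : (M.map φ).trace = 0 := by
    rw [trace_fin_two, map_apply, map_apply, ← map_add, ← trace_fin_two, hM, map_zero]
  have hMK0 : M.map φ ≠ 0 := fun e => hM0 (Matrix.ext fun i j =>
    φ.injective ((congrFun (congrFun e i) j).trans (map_zero φ).symm))
  have h2K : (2 : K) ≠ 0 := by rw [← map_ofNat φ 2]; exact (map_ne_zero φ).mpr h.two_ne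
  obtain ⟨lam, hlam⟩ := IsAlgClosed.exists_eq_mul_self (-φ M.det)
  have hlamdet : (M.map φ - lam • (1 : Matrix (Fin 2) (Fin 2) K)).det = 0 := by
    rw [trace_fin_two] at hMK
    rw [det_fin_two] at hlam ⊢
    simp at hlam hMK ⊢
    linear_combination -lam * hMK - hlam
  obtain ⟨v, hv, hv'⟩ := Matrix.exists_mulVec_eq_zero_iff.mpr hlamdet
  rw [sub_mulVec, smul_mulVec, one_mulVec, sub_eq_zero] at hv'
  have hact : ∀ σ, φ (c σ) • (M.map φ).mulVec (((ρ σ).val.map φ).mulVec v) =
      lam • ((ρ σ).val.map φ).mulVec v := fun σ => by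
    have h1 := congrArg (fun A : Mat2 k => (A.map φ).mulVec v) (hrel σ)
    simp only [Matrix.map_mul] at h1
    rw [← mulVec_mulVec, hv', mulVec_smul] at h1
    rw [h1, show (c σ • (M * (ρ σ).val)).map φ = φ (c σ) • (M.map φ * (ρ σ).val.map φ) by
      rw [← Matrix.map_mul]; ext i j
      simp only [Matrix.map_apply, Matrix.smul_apply, smul_eq_mul, map_mul],
      smul_mulVec, mulVec_mulVec]
  by_cases hd : M.det = 0
  · -- a nilpotent matrix: its kernel is stable
    have hlam0 : lam = 0 := by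
      rw [hd, map_zero, neg_zero] at hlam
      exact mul_self_eq_zero.mp hlam.symm
    obtain ⟨σ, -, hσ⟩ := h.irr K ⊤ (Or.inl rfl) v hv
    obtain ⟨a, ha⟩ := line_of_eigen h2K hMK hMK0 hv hv' (w := ((ρ σ).val.map φ).mulVec v) (by
      have h1 := hact σ
      rw [hlam0, zero_smul] at h1 ⊢
      exact (smul_eq_zero.mp h1).resolve_left ((map_ne_zero φ).mpr (hc0 σ)))
    exact hσ a ha
  · have hsq : ∀ σ, c σ * c σ = 1 := fun σ => by
      have h1 := congrArg Matrix.det (hrel σ)
      rw [det_mul, det_smul, det_mul, Fintype.card_fin] at h1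
      have hne : M.det * (ρ σ).val.det ≠ 0 :=
        mul_ne_zero hd ((Matrix.isUnit_iff_isUnit_det _).mp (ρ σ).isUnit).ne_zero
      have : (c σ * c σ - 1) * (M.det * (ρ σ).val.det) = 0 := by linear_combination -h1
      exact sub_eq_zero.mp ((mul_eq_zero.mp this).resolve_right hne)
    have hmul : ∀ σ τ, c (σ * τ) = c σ * c τ := fun σ τ => by
      have e : c (σ * τ) • M = (c σ * c τ) • M := by
        rw [← hc, conjAct_mul, hc τ, conjAct_smul, hc σ, smul_smul, mul_comm]
      exact smul_left_injective k hM0 e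
    have hone : c 1 = 1 := by
      have e := hc 1
      rw [conjAct_one] at e
      exact (smul_left_injective k hM0 ((one_smul k M).trans e)).symm
    let G : Subgroup GalQ :=
      { carrier := {σ | c σ = 1}
        one_mem' := hone
        mul_mem' := fun {a b} ha hb => by
          show c (a * b) = 1
          rw [hmul, ha, hb, one_mul]
        inv_mem' := fun {a} ha => by
          show c a⁻¹ = 1
          have e := hmul a⁻¹ a
          rw [inv_mul_cancel, hone, ha, mul_one] at e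
          exact e.symm }
    have hG : G = ⊤ ∨ G.index = 2 := by
      refine or_iff_not_imp_left.mpr fun hne => ?_
      obtain ⟨a, ha⟩ : ∃ a, a ∉ G := by
        by_contra hcon
        push Not at hcon
        exact hne (eq_top_iff.mpr fun a _ => hcon a)
      have h1ne : (1 : k) ≠ -1 := fun e => h.two_ne (by linear_combination e)
      have ha' : c a = -1 := (mul_self_eq_one_iff.mp (hsq a)).resolve_left ha
      refine Subgroup.index_eq_two_iff.mpr ⟨a, fun b => ?_⟩
      have hm : b * a ∈ G ↔ c b = -1 := by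
        show c (b * a) = 1 ↔ _
        rw [hmul, ha', mul_neg, mul_one, neg_eq_iff_eq_neg]
      rw [hm]
      rcases mul_self_eq_one_iff.mp (hsq b) with e | e
      · exact Or.inr ⟨e, e ▸ h1ne⟩
      · exact Or.inl ⟨e, fun e' : c b = 1 => h1ne (e'.symm.trans e)⟩
    obtain ⟨σ, hσG, hσ⟩ := h.irr K G hG v hv
    obtain ⟨a, ha⟩ := line_of_eigen h2K hMK hMK0 hv hv' (w := ((ρ σ).val.map φ).mulVec v) (by
      have h1 := hact σ
      rwa [show c σ = 1 from hσG, map_one, one_smul] at h1)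
    exact hσ a ha

theorem BigImage.trace_tzero (A : Mat2 k) : (tzero A).trace = 0 := trace_sub_half h.two_ne A

/-- Some element of determinant one is not scalar. -/
theorem BigImage.exists_nonscalar : ∃ τ ∈ cycKer p, tzero (ρ τ).val ≠ 0 := by
  by_contra hcon
  push Not at hcon
  by_cases hall : ∀ g, tzero (ρ g).val = 0
  · refine h.no_line (M := !![0, 1; 0, 0]) (by simp [trace_fin_two])
      (fun e => by simpa using congrFun (congrFun e 0) 1) fun σ => ⟨1, ?_⟩
    rw [one_smul, conjAct_eq_self_iff, eq_smul_one_of_tzero (hall σ), Matrix.smul_mul,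
      Matrix.mul_smul, Matrix.one_mul, Matrix.mul_one]
  push Not at hall
  obtain ⟨g₀, hg₀⟩ := hall
  refine h.no_line (h.trace_tzero _) hg₀ fun σ => ?_
  have hmem : σ * g₀ * σ⁻¹ * g₀⁻¹ ∈ cycKer p := commutator_mem_cycKer hp.out.ne_zero σ g₀
  set l := (ρ (σ * g₀ * σ⁻¹ * g₀⁻¹)).val.trace / 2
  refine ⟨l, ?_⟩
  have hs := eq_smul_one_of_tzero (hcon _ hmem)
  have e : conjAct ρ σ (ρ g₀).val = l • (ρ g₀).val := by
    have e1 : conjAct ρ σ (ρ g₀).val = (ρ (σ * g₀ * σ⁻¹ * g₀⁻¹)).val * (ρ g₀).val := by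
      rw [conjAct, ← Units.val_mul, ← Units.val_mul, ← Units.val_mul, ← map_mul, ← map_mul,
        ← map_mul, inv_mul_cancel_right]
    rw [e1, hs, Matrix.smul_mul, Matrix.one_mul]
  rw [conjAct_tzero, e, tzero, tzero, trace_smul, smul_sub, smul_smul, smul_eq_mul]
  congr 2
  ring

theorem BigImage.fixed {M : Mat2 k} (hM : M.trace = 0)
    (hfix : ∀ σ ∈ cycKer p, conjAct ρ σ M = M) : M = 0 := by
  by_contra hM0
  obtain ⟨τ, hτ, hτ0⟩ := h.exists_nonscalar
  have hprop : ∀ A : Mat2 k, A.trace = 0 → (∀ σ ∈ cycKer p, conjAct ρ σ A = A) →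
      ∃ c : k, A = c • tzero (ρ τ).val := fun A hA hAfix => by
    refine prop_of_commute h.two_ne hA (h.trace_tzero _) hτ0 ?_
    have e := (conjAct_eq_self_iff ρ τ A).mp (hAfix τ hτ)
    rw [tzero, Matrix.mul_sub, Matrix.sub_mul, e, Matrix.mul_smul, Matrix.smul_mul, Matrix.mul_one,
      Matrix.one_mul]
  obtain ⟨c, hc⟩ := hprop M hM hfix
  refine h.no_line hM hM0 fun g => ?_
  obtain ⟨d, hd⟩ := hprop (conjAct ρ g M) (by rw [trace_conjAct, hM]) fun σ hσ => by
    rw [← conjAct_mul, show σ * g = g * (g⁻¹ * σ * g⁻¹⁻¹) by group, conjAct_mul,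
      hfix _ ((cycKer_normal _).conj_mem σ hσ g⁻¹)]
  have hc0 : c ≠ 0 := fun e => hM0 (by rw [hc, e, zero_smul])
  exact ⟨d / c, by rw [hd, hc, smul_smul, div_mul_cancel₀ _ hc0]⟩

theorem BigImage.exists_regular : ∃ σ ∈ cycKer p, (ρ σ).val.trace ^ 2 ≠ 4 := by
  by_contra hcon
  push Not at hcon
  have h2 := h.two_ne
  have h4 : (4 : k) ≠ 0 := by rw [show (4 : k) = 2 * 2 by norm_num]; exact mul_ne_zero h2 h2
  have hnil : ∀ σ ∈ cycKer p, tzero (ρ σ).val * tzero (ρ σ).val = 0 := fun σ hσ => by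
    rw [tzero, sub_half_trace_sq h2, hcon σ hσ, (mem_cycKer_iff_det h.cycloDet σ).mp hσ,
      div_self h4, sub_self, zero_smul]
  have horth : ∀ σ ∈ cycKer p, ∀ τ ∈ cycKer p,
      (tzero (ρ σ).val * tzero (ρ τ).val).trace = 0 := fun σ hσ τ hτ => by
    set a := (ρ σ).val.trace / 2 with ha
    set b := (ρ τ).val.trace / 2 with hb
    set A := tzero (ρ σ).val with hA
    set B := tzero (ρ τ).val with hB
    have eA : (ρ σ).val = a • 1 + A := by rw [hA, tzero]; abel
    have eB : (ρ τ).val = b • 1 + B := by rw [hB, tzero]; abel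
    have hA2 : A * A = 0 := hnil σ hσ
    have tA : A.trace = 0 := h.trace_tzero _
    have tB : B.trace = 0 := h.trace_tzero _
    have ha2 : a * a = 1 := by
      rw [ha, div_mul_div_comm, ← sq, hcon σ hσ, show (2 : k) * 2 = 4 by norm_num, div_self h4]
    have hb2 : b * b = 1 := by
      rw [hb, div_mul_div_comm, ← sq, hcon τ hτ, show (2 : k) * 2 = 4 by norm_num, div_self h4]
    set u := (A * B).trace
    have htr1 : (ρ (σ * τ)).val.trace = 2 * (a * b) + u := by
      rw [map_mul, Units.val_mul, eA, eB]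
      simp [Matrix.add_mul, Matrix.mul_add, trace_add, trace_one, tA, tB, smul_smul, u]
      ring
    have htr2 : (ρ (σ * σ * τ)).val.trace = 2 * (a * a * b) + 2 * a * u := by
      rw [map_mul, map_mul, Units.val_mul, Units.val_mul, eA, eB]
      simp [Matrix.add_mul, Matrix.mul_add, trace_add, trace_one, tA, tB, hA2,
        smul_smul, u]
      ring
    have e1 := hcon _ (mul_mem hσ hτ)
    have e2 := hcon _ (mul_mem (mul_mem hσ hσ) hτ)
    rw [htr1] at e1
    rw [htr2, ha2] at e2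
    have f1 : u * (u + 4 * (a * b)) = 0 := by
      linear_combination e1 - 4 * (b * b) * ha2 - 4 * hb2
    have f2 : u * (u + 2 * (a * b)) = 0 := by
      have : (4 : k) * (u * (u + 2 * (a * b))) = 0 := by
        linear_combination e2 - 4 * hb2 - 4 * u * u * ha2
      exact (mul_eq_zero.mp this).resolve_left h4
    have f3 : (2 * (a * b)) * u = 0 := by linear_combination f1 - f2
    exact (mul_eq_zero.mp f3).resolve_left
      (mul_ne_zero h2
        (mul_ne_zero (left_ne_zero_of_mul_eq_one ha2) (left_ne_zero_of_mul_eq_one hb2)))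
  obtain ⟨τ, hτ, hτ0⟩ := h.exists_nonscalar
  refine h.no_line (h.trace_tzero _) hτ0 fun g => ?_
  rw [conjAct_tzero, show conjAct ρ g (ρ τ).val = (ρ (g * τ * g⁻¹)).val by
    rw [conjAct, map_mul, map_mul, Units.val_mul, Units.val_mul]]
  have hmem : g * τ * g⁻¹ ∈ cycKer p := (cycKer_normal _).conj_mem τ hτ g
  exact prop_of_commute h.two_ne (h.trace_tzero _) (h.trace_tzero _) hτ0
    (prop_of_nilpotent (h.trace_tzero _) (h.trace_tzero _) (hnil _ hmem) (hnil τ hτ)
      (horth _ hmem τ hτ))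

theorem BigImage.sep (U : AddSubgroup (Mat2 k)) (htr : ∀ M ∈ U, M.trace = 0) (hne : U ≠ ⊥) :
    ∃ M ∈ U, ∃ σ ∈ cycKer p, (ρ σ).val.trace ^ 2 ≠ 4 ∧ (M * (ρ σ).val).trace ≠ 0 := by
  by_contra hcon
  push Not at hcon
  have h2 := h.two_ne
  have h4 : (4 : k) ≠ 0 := by rw [show (4 : k) = 2 * 2 by norm_num]; exact mul_ne_zero h2 h2
  obtain ⟨M, hMU, hM0⟩ := U.bot_or_exists_ne_zero.resolve_left hne
  have hMt : M.trace = 0 := htr M hMU
  let Sp : Set (Mat2 k) := {N | ∃ σ ∈ cycKer p, (ρ σ).val.trace ^ 2 ≠ 4 ∧ N = tzero (ρ σ).val}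
  have horth : ∀ N ∈ Sp, (M * N).trace = 0 := by
    rintro N ⟨σ, hσ, hreg, rfl⟩
    rw [tzero, Matrix.mul_sub, trace_sub, hcon M hMU σ hσ hreg, Matrix.mul_smul, Matrix.mul_one,
      trace_smul, hMt, smul_zero, sub_zero]
  have hstab : ∀ g, ∀ N ∈ Sp, conjAct ρ g N ∈ Sp := by
    rintro g N ⟨σ, hσ, hreg, rfl⟩
    have e : conjAct ρ g (ρ σ).val = (ρ (g * σ * g⁻¹)).val := by
      rw [conjAct, map_mul, map_mul, Units.val_mul, Units.val_mul]
    refine ⟨g * σ * g⁻¹, (cycKer_normal _).conj_mem σ hσ g, ?_, by rw [conjAct_tzero, e]⟩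
    rwa [← e, trace_conjAct]
  obtain ⟨σ₁, hσ₁, hreg₁⟩ := h.exists_regular
  set N₁ := tzero (ρ σ₁).val with hN₁
  have hN₁S : N₁ ∈ Sp := ⟨σ₁, hσ₁, hreg₁, rfl⟩
  have hN₁t : N₁.trace = 0 := h.trace_tzero _
  have hN₁0 : N₁ ≠ 0 := fun e => hreg₁ (by
    have e1 := congrArg Matrix.det (eq_smul_one_of_tzero e)
    rw [(mem_cycKer_iff_det h.cycloDet σ₁).mp hσ₁, det_smul, det_one, Fintype.card_fin, mul_one,
      div_pow, eq_div_iff (pow_ne_zero 2 h2)] at e1
    linear_combination -e1)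
  by_cases hpar : ∀ N ∈ Sp, ∃ c : k, N = c • N₁
  · exact h.no_line hN₁t hN₁0 fun g => hpar _ (hstab g N₁ hN₁S)
  push Not at hpar
  obtain ⟨N₂, hN₂S, hN₂⟩ := hpar
  have hSt : ∀ N ∈ Sp, N.trace = 0 := by
    rintro N ⟨σ, -, -, rfl⟩
    exact h.trace_tzero _
  have hN₂t : N₂.trace = 0 := hSt _ hN₂S
  -- the common orthogonal line
  let W : Mat2 k := N₁ * N₂ - N₂ * N₁
  have hW0 : W ≠ 0 := fun e => by
    obtain ⟨c, hc⟩ := prop_of_commute h2 hN₂t hN₁t hN₁0 (sub_eq_zero.mp e).symm
    exact hN₂ c hc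
  have hline : ∀ X : Mat2 k, X.trace = 0 → (X * N₁).trace = 0 → (X * N₂).trace = 0 →
      X * W = W * X := by
    intro X hX h1 h1'
    rw [trace_fin_two] at hX h1 h1' hN₁t hN₂t
    have x11 : X 1 1 = -X 0 0 := by linear_combination hX
    have a11 : N₁ 1 1 = -N₁ 0 0 := by linear_combination hN₁t
    have b11 : N₂ 1 1 = -N₂ 0 0 := by linear_combination hN₂t
    simp [Matrix.mul_apply, Fin.sum_univ_two, x11, a11, b11] at h1 h1'
    ext i j
    fin_cases i <;> fin_cases j <;>
      simp [W, Matrix.mul_apply, Fin.sum_univ_two, x11, a11, b11]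
    · linear_combination (2 * N₂ 0 0) * h1 - (2 * N₁ 0 0) * h1'
    · linear_combination (2 * N₂ 0 1) * h1 - (2 * N₁ 0 1) * h1'
    · linear_combination (2 * N₂ 1 0) * h1 - (2 * N₁ 1 0) * h1'
    · linear_combination -(2 * N₂ 0 0) * h1 + (2 * N₁ 0 0) * h1'
  have hWt : W.trace = 0 := by rw [trace_sub, trace_mul_comm, sub_self]
  refine h.no_line hMt hM0 fun g => ?_
  obtain ⟨a, ha⟩ := prop_of_commute h2 hMt hWt hW0 (hline M hMt (horth _ hN₁S) (horth _ hN₂S))
  have hrot : ∀ N ∈ Sp, (conjAct ρ g M * N).trace = 0 := fun N hN => by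
    have e : conjAct ρ g (conjAct ρ g⁻¹ N) = N := by
      rw [← conjAct_mul, mul_inv_cancel, conjAct_one]
    rw [← e, trace_conjAct_mul]
    exact horth _ (hstab g⁻¹ N hN)
  have htM : (conjAct ρ g M).trace = 0 := by rw [trace_conjAct, hMt]
  obtain ⟨b, hb⟩ := prop_of_commute h2 htM hWt hW0
    (hline _ htM (hrot _ hN₁S) (hrot _ hN₂S))
  have ha0 : a ≠ 0 := fun e => hM0 (by rw [ha, e, zero_smul])
  exact ⟨b / a, by rw [hb, ha, smul_smul, div_mul_cancel₀ _ ha0]⟩

variable [Finite k]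

theorem BigImage.h1 (z : GalQ → AdTw ρ) (hz : ∀ g g', z (g * g') = g • z g' + z g)
    (hker : ∀ κ, ρ κ = 1 → z κ = 0) : ∃ a, ∀ g, z g = g • a - a := by
  classical
  have hwd : ∀ g g', ρ g = ρ g' → z g = z g' := fun g g' e => by
    have hk : ρ (g'⁻¹ * g) = 1 := by rw [map_mul, map_inv, e, inv_mul_cancel]
    have h1 := hz g' (g'⁻¹ * g)
    rwa [mul_inv_cancel_left, hker _ hk, smul_zero, zero_add] at h1
  let zf : GL (Fin 2) k → Mat2 k := fun x =>
    if hx : ∃ g, ρ g = x then (z hx.choose).mat else 0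
  have hzf : ∀ g, zf (ρ g) = (z g).mat := fun g => by
    have hx : ∃ g', ρ g' = ρ g := ⟨g, rfl⟩
    show (if hx : ∃ g', ρ g' = ρ g then (z hx.choose).mat else 0) = _
    rw [dif_pos hx, hwd _ g hx.choose_spec]
  obtain ⟨A, hA, hAz⟩ := exists_coboundary (p := p) h.odd ρ.range (fun v hv => by
      obtain ⟨σ, -, hσ⟩ := h.irr k ⊤ (Or.inl rfl) v hv
      refine ⟨ρ σ, ⟨σ, rfl⟩, fun c hc => hσ c ?_⟩
      rwa [show (ρ σ).val.map (algebraMap k k) = (ρ σ).val from Matrix.ext fun i j => rfl])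
    (by rintro _ ⟨σ, rfl⟩; exact h.split σ)
    (by
      obtain ⟨c, hc⟩ := FiniteField.exists_nonsquare (F := ZMod p) (by
        rw [ringChar.eq_iff.2 (ZMod.charP p)]; exact h.odd)
      have hc0 : c ≠ 0 := fun e => hc (e ▸ IsSquare.zero)
      obtain ⟨σ, hσ⟩ := Root.ClassField.cycloChar_surjective p (Units.mk0 c hc0)
      refine ⟨ρ σ, ⟨σ, rfl⟩, fun e => hc ?_⟩
      have hexp : (ExtCitation.cycloExp p σ : ZMod p) = c := by
        have : NeZero p := ⟨hp.out.ne_zero⟩
        have hr := Root.ClassField.rootQ_spec p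
        have h1 := cycloExp_spec (p := p) σ hr.pow_eq_one
        rw [← Root.ClassField.cycloChar_spec p σ, hσ] at h1
        rw [← natCast_eq_of_pow_eq hr h1, ZMod.natCast_zmod_val]
        rfl
      rw [h.cycloDet σ, ← map_natCast (ZMod.castHom (dvd_refl p) k), hexp, ← map_pow,
        ← map_one (ZMod.castHom (dvd_refl p) k), (RingHom.injective _).eq_iff] at e
      have hodd : p % 2 = 1 := Nat.odd_iff.mp (hp.out.odd_of_ne_two h.odd)
      rw [show (p - 1) / 2 = p / 2 by omega] at e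
      exact (ZMod.euler_criterion p hc0).mpr e)
    zf
    ⟨by
      rintro _ ⟨a, rfl⟩ _ ⟨b, rfl⟩
      rw [← map_mul, hzf, hzf, hzf, hz, AdTw.mat_add, mat_smul, tw_eq_det_smul_conjAct],
    by rintro _ ⟨a, rfl⟩; rw [hzf]; exact (z a).trace_mat⟩
  refine ⟨AdTw.mk A hA, fun g => AdTw.ext' ?_⟩
  rw [← hzf, hAz _ ⟨g, rfl⟩, AdTw.mat_sub, mat_smul, AdTw.mat_mk, tw_eq_det_smul_conjAct]

theorem BigImage.isTWImage : IsTWImage p ρ :=
  ⟨h.odd, h.finite, h.cycloDet, fun _ hM hfix => h.fixed hM hfix,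
    fun U htr _ hne => h.sep U htr hne, h.h1⟩

end Fermat.Agent.TWGen
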