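import Mathlib

/-!
# Counting fixed points: the torus of a group with one class of wild points

`le_two_mul_add_one`: a bound on the wild part by the torus, from counting fixed points.
-/

set_option autoImplicit false

noncomputable section

open MulAction Finset

namespace Fermat.Agent.TWGen

variable {G X : Type*} [Group G] [MulAction G X]

/-- If outside the kernel `Z` every element has one or two fixed points, those with one fixed point
being the nontrivial elements of `S₁` and their conjugates, the quotient of the stabiliser by `S₁`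
is large. -/
theorem le_two_mul_add_one [Finite G] [Finite X] (Z : Subgroup G)
    (hZ : ∀ c ∈ Z, ∀ x : X, c • x = x) (x₀ : X) (S₁ : Subgroup G) (hZS : Z ≤ S₁)
    (hS : S₁ ≤ stabilizer G x₀)
    (hfix : ∀ g, g ∉ Z → (fixedBy X g).ncard = 1 ∨ (fixedBy X g).ncard = 2)
    (hiff : ∀ g ∈ stabilizer G x₀, g ∉ Z → ((fixedBy X g).ncard = 1 ↔ g ∈ S₁))
    (hone : ∀ g, g ∉ Z → (fixedBy X g).ncard = 1 → ∀ x, g • x = x → x ∈ orbit G x₀)
    (hne : stabilizer G x₀ ≠ ⊤) (q e : ℕ) (hq : Nat.card S₁ = Nat.card Z * q)
    (he : Nat.card (stabilizer G x₀) = Nat.card Z * q * e) : q ≤ 2 * e + 1 := by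
  classical
  let := Fintype.ofFinite G
  let := Fintype.ofFinite X
  set z := Nat.card Z with hz
  have hz0 : 0 < z := Nat.card_pos
  have hq0 : 0 < q := by
    rcases Nat.eq_zero_or_pos q with rfl | h
    · exact absurd (hq.trans (mul_zero z)) Nat.card_pos.ne'
    · exact h
  set O : Finset X := univ.filter fun x => x ∈ orbit G x₀ with hO
  set n := O.card with hn
  set g₀ := Nat.card G with hg₀
  have horb : ∀ x : X, (univ.filter fun y => y ∈ orbit G x).card * Nat.card (stabilizer G x)
      = g₀ := fun x => by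
    rw [hg₀, ← Subgroup.card_mul_index (stabilizer G x), index_stabilizer, mul_comm]
    congr 1
    rw [← Set.ncard_coe_finset]
    congr 1
    ext y
    simp
  have hg : g₀ = n * (z * q * e) := by rw [← horb x₀, he]
  have hn2 : 2 ≤ n := by
    by_contra hlt
    refine hne (Subgroup.card_eq_iff_eq_top _ |>.mp ?_)
    have hpos : 0 < n := Finset.card_pos.mpr ⟨x₀, by simp [hO]⟩
    rw [he, ← hg₀, hg, show n = 1 by omega, one_mul]
  -- the double count
  set out : Finset G := univ.filter fun g => g ∉ Z with hout
  let f : X → ℕ := fun x => (out.filter fun g => g • x = x).card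
  have hfixcard : ∀ g : G, (univ.filter fun x : X => g • x = x).card = (fixedBy X g).ncard :=
    fun g => by
      rw [← Set.ncard_coe_finset]
      congr 1
      ext x
      simp
  have hcard : ∀ T : Subgroup G, (univ.filter fun g => g ∈ T).card = Nat.card T := fun T => by
    rw [Nat.card_eq_fintype_card, Fintype.card_subtype]
  have hout_card : out.card + z = g₀ := by
    have h1 := card_filter_add_card_filter_not (s := (univ : Finset G)) fun g => g ∉ Z
    simp only [not_not, hcard, card_univ, ← Nat.card_eq_fintype_card] at h1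
    exact h1
  have hf : ∀ x, f x + z = Nat.card (stabilizer G x) := fun x => by
    have h1 := card_filter_add_card_filter_not
      (s := univ.filter fun g => g ∈ stabilizer G x) fun g => g ∉ Z
    have h2 : (univ.filter fun g => g ∈ stabilizer G x).card = Nat.card (stabilizer G x) := by
      convert hcard (stabilizer G x)
    rw [h2] at h1
    rw [← h1]
    congr 1
    · refine congrArg card ?_
      ext g
      simp [hout, and_comm]
    · rw [show z = (univ.filter fun g => g ∈ Z).card from (hcard Z).symm]
      refine congrArg card ?_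
      ext g
      simp only [mem_filter, mem_univ, true_and, not_not, mem_stabilizer_iff]
      exact ⟨fun h => ⟨hZ g h x, h⟩, fun h => h.2⟩
  set U : Finset G := out.filter fun g => (fixedBy X g).ncard = 1 with hU
  have hdouble : ∑ x, f x + U.card = 2 * out.card := by
    have h1 : ∑ x, f x = ∑ g ∈ out, (univ.filter fun x : X => g • x = x).card := by
      simp only [f, card_filter]
      exact Finset.sum_comm
    rw [h1, hU, card_filter, ← sum_add_distrib, mul_comm, ← smul_eq_mul, ← sum_const]
    refine sum_congr rfl fun g hgo => ?_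
    have hgZ : g ∉ Z := by simpa [hout] using hgo
    rw [hfixcard]
    rcases hfix g hgZ with h | h <;> simp [h]
  -- the elements with one fixed point
  have hUx : ∀ x ∈ O, (U.filter fun g => g • x = x).card = z * q - z := by
    intro x hx
    obtain ⟨a, rfl⟩ := (by simpa [hO] using hx : x ∈ orbit G x₀)
    have hbase : (U.filter fun g => g • x₀ = x₀) = univ.filter fun g => g ∈ S₁ ∧ g ∉ Z := by
      ext g
      simp only [hU, hout, mem_filter, mem_univ, true_and]
      exact ⟨fun h => ⟨(hiff g h.2 h.1.1).mp h.1.2, h.1.1⟩,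
        fun h => ⟨⟨h.2, (hiff g (hS h.1) h.2).mpr h.1⟩, hS h.1⟩⟩
    have hS1 : (univ.filter fun g => g ∈ S₁ ∧ g ∉ Z).card = z * q - z := by
      have h1 := card_filter_add_card_filter_not
        (s := univ.filter fun g => g ∈ S₁) fun g => g ∉ Z
      simp only [filter_filter, not_not, hcard] at h1
      rw [show (univ.filter fun g => g ∈ S₁ ∧ g ∈ Z) = univ.filter fun g => g ∈ Z from
        filter_congr fun g _ => ⟨fun h => h.2, fun h => ⟨hZS h, h⟩⟩, hcard, hq] at h1
      omega
    rw [← hS1, ← hbase]
    have hfixa : ∀ g, (fixedBy X (a⁻¹ * g * a)).ncard = (fixedBy X g).ncard := fun g => by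
      rw [← Set.ncard_image_of_injective (fixedBy X (a⁻¹ * g * a)) (MulAction.injective a)]
      congr 1
      ext y
      simp only [Set.mem_image, mem_fixedBy, mul_smul]
      exact ⟨fun ⟨w, hw, hwy⟩ => by rw [← hwy]; exact eq_inv_smul_iff.mp hw.symm |>.symm,
        fun hy => ⟨a⁻¹ • y, by simp [hy]⟩⟩
    have hconjZ : ∀ c ∈ Z, ∀ g, g = a * c * a⁻¹ → ∀ x : X, g • x = x := fun c hc g hgc x => by
      rw [hgc, mul_smul, mul_smul, hZ c hc, smul_inv_smul]
    refine card_bij' (fun g _ => a⁻¹ * g * a) (fun g _ => a * g * a⁻¹) ?_ ?_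
      (fun g _ => by group) (fun g _ => by group)
    · intro g hg'
      simp only [hU, hout, mem_filter, mem_univ, true_and] at hg' ⊢
      refine ⟨⟨fun hc => ?_, by rw [hfixa]; exact hg'.1.2⟩, by
        rw [mul_smul, mul_smul, hg'.2, inv_smul_smul]⟩
      have hfull : fixedBy X g = Set.univ := Set.eq_univ_of_forall fun y =>
        hconjZ _ hc g (by group) y
      have h1 := hg'.1.2
      rw [hfull, Set.ncard_univ] at h1
      have := Finite.one_lt_card_iff_nontrivial.mpr
        (show Nontrivial X by
          obtain ⟨b, hb⟩ : ∃ b, b ∉ stabilizer G x₀ := by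
            by_contra h0
            push Not at h0
            exact hne (eq_top_iff.mpr fun b _ => h0 b)
          exact ⟨b • x₀, x₀, hb⟩)
      omega
    · intro g hg'
      simp only [hU, hout, mem_filter, mem_univ, true_and] at hg' ⊢
      have e1 : (fixedBy X (a * g * a⁻¹)).ncard = 1 := by
        rw [← hfixa, show a⁻¹ * (a * g * a⁻¹) * a = g by group]
        exact hg'.1.2
      refine ⟨⟨fun hc => ?_, e1⟩, by rw [mul_smul, mul_smul, inv_smul_smul, hg'.2]⟩
      have hfull : fixedBy X (a * g * a⁻¹) = Set.univ := Set.eq_univ_of_forall (hZ _ hc)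
      rw [hfull, Set.ncard_univ] at e1
      have := Finite.one_lt_card_iff_nontrivial.mpr
        (show Nontrivial X by
          obtain ⟨b, hb⟩ : ∃ b, b ∉ stabilizer G x₀ := by
            by_contra h0
            push Not at h0
            exact hne (eq_top_iff.mpr fun b _ => h0 b)
          exact ⟨b • x₀, x₀, hb⟩)
      omega
  have hUcard : U.card = n * (z * q - z) := by
    have h1 : ∀ g ∈ U, (O.filter fun x => g • x = x).card = 1 := fun g hgU => by
      simp only [hU, hout, mem_filter, mem_univ, true_and] at hgU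
      rw [← hgU.2, ← hfixcard]
      refine congrArg card ?_
      ext x
      simp only [hO, mem_filter, mem_univ, true_and]
      exact ⟨fun h => h.2, fun h => ⟨hone g hgU.1 hgU.2 x h, h⟩⟩
    rw [card_eq_sum_ones U, ← sum_congr rfl h1]
    simp only [card_filter]
    rw [sum_comm, sum_congr rfl fun x hx => (card_filter _ _).symm.trans (hUx x hx), sum_const,
      smul_eq_mul]
  have hfO : ∑ x ∈ O, f x + n * z = g₀ := by
    have h1 : ∑ x ∈ O, (f x + z) = ∑ x ∈ O, z * q * e := sum_congr rfl fun x hx => by
      rw [hf]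
      obtain ⟨a, ha⟩ := (by simpa [hO] using hx : x ∈ orbit G x₀)
      rw [← he, Nat.card_congr (stabilizerEquivStabilizer (g := a) ha.symm).toEquiv]
    rw [sum_add_distrib, sum_const, sum_const, smul_eq_mul, smul_eq_mul] at h1
    rw [hg, h1]
  set R := ∑ x ∈ Oᶜ, f x with hR
  have hsum : ∑ x ∈ O, f x + R = ∑ x, f x := sum_add_sum_compl O f
  have hle : z ≤ z * q := Nat.le_mul_of_pos_right z hq0
  have hnle : n * z ≤ n * (z * q) := Nat.mul_le_mul_left n hle
  rw [hUcard, Nat.mul_sub] at hdouble
  -- now `R + n z q + 2 z = g₀ + 2 n z`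
  have hkey : R + n * (z * q) + 2 * z = g₀ + 2 * (n * z) := by omega
  by_contra hlt
  push Not at hlt
  have hq3 : 2 ≤ q := by omega
  have hnq : 2 * (n * z) ≤ n * (z * q) := by
    calc 2 * (n * z) = n * (z * 2) := by ring
      _ ≤ _ := Nat.mul_le_mul_left n (Nat.mul_le_mul_left z hq3)
  have he0 : 0 < e := by
    rcases Nat.eq_zero_or_pos e with rfl | h
    · exact absurd (he.trans (mul_zero _)) Nat.card_pos.ne'
    · exact h
  rcases Nat.eq_zero_or_pos R with hR0 | hRpos
  · -- no further orbit
    rw [hR0, hg] at hkey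
    have h1 : n * (z * q) ≤ n * (z * q * e) :=
      Nat.mul_le_mul_left n (Nat.le_mul_of_pos_right _ he0)
    have h2 : 2 * z ≤ n * z := Nat.mul_le_mul_right z hn2
    omega
  obtain ⟨x₁, hx₁, hfx₁⟩ : ∃ x ∈ Oᶜ, 0 < f x := by
    by_contra h
    push Not at h
    exact hRpos.ne' (sum_eq_zero fun x hx => Nat.le_zero.mp (h x hx))
  set O₁ : Finset X := univ.filter fun y => y ∈ orbit G x₁ with hO₁
  have hO₁sub : O₁ ⊆ Oᶜ := fun y hy => by
    simp only [hO₁, mem_filter, mem_univ, true_and] at hy
    simp only [hO, mem_compl, mem_filter, mem_univ, true_and] at hx₁ ⊢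
    intro h
    apply hx₁
    rw [← orbit_eq_iff] at hy h ⊢
    rw [← hy, h]
  have hfconst : ∀ y ∈ univ.filter (fun y => y ∈ orbit G x₁), f y = f x₁ := fun y hy => by
    have h1 := hf y
    have h2 := hf x₁
    obtain ⟨a, rfl⟩ := (by simpa using hy : y ∈ orbit G x₁)
    rw [← Nat.card_congr (stabilizerEquivStabilizer (g := a) rfl).toEquiv] at h1
    omega
  have hsum1 : ∑ y ∈ O₁, f y + O₁.card * z = g₀ := by
    rw [sum_congr rfl hfconst, sum_const, smul_eq_mul, ← mul_add, hf]
    exact horb x₁
  -- every contributing orbit gives at least half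
  have hhalf : ∀ x, 0 < f x → 2 * ((univ.filter fun y => y ∈ orbit G x).card * z) ≤ g₀ := by
    intro x hx
    have hdvd : z ∣ Nat.card (stabilizer G x) :=
      Subgroup.card_dvd_of_le fun c hc => hZ c hc x
    obtain ⟨m, hm⟩ := hdvd
    have hm2 : 2 ≤ m := by
      by_contra hm2
      have := hf x
      have := Nat.mul_le_mul_left z (show m ≤ 1 by omega)
      omega
    rw [← horb x, hm]
    calc 2 * ((univ.filter fun y => y ∈ orbit G x).card * z)
        = (univ.filter fun y => y ∈ orbit G x).card * (z * 2) := by ring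
      _ ≤ _ := Nat.mul_le_mul_left _ (Nat.mul_le_mul_left z hm2)
  have hrest : ∀ x ∈ Oᶜ \ O₁, f x = 0 := by
    intro x hx
    by_contra hne0
    have hxp : 0 < f x := Nat.pos_of_ne_zero hne0
    set O₂ : Finset X := univ.filter fun y => y ∈ orbit G x with hO₂
    simp only [hO, hO₁, mem_sdiff, mem_compl, mem_filter, mem_univ, true_and] at hx
    have hO₂sub : O₂ ⊆ Oᶜ \ O₁ := fun y hy => by
      simp only [hO₂, mem_filter, mem_univ, true_and] at hy
      simp only [hO, hO₁, mem_sdiff, mem_compl, mem_filter, mem_univ, true_and]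
      refine ⟨fun h => hx.1 ?_, fun h => hx.2 ?_⟩ <;>
      · rw [← orbit_eq_iff] at hy h ⊢
        rw [← hy, h]
    have h2 : ∑ y ∈ O₂, f y + O₂.card * z = g₀ := by
      have hc : ∀ y ∈ O₂, f y = f x := fun y hy => by
        have h1 := hf y
        have h2 := hf x
        obtain ⟨a, rfl⟩ := (by simpa [hO₂] using hy : y ∈ orbit G x)
        rw [← Nat.card_congr (stabilizerEquivStabilizer (g := a) rfl).toEquiv] at h1
        omega
      rw [sum_congr rfl hc, sum_const, smul_eq_mul, ← mul_add, hf]
      exact horb x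
    have h3 : ∑ y ∈ O₁, f y + ∑ y ∈ O₂, f y ≤ R := by
      rw [← sum_union (disjoint_left.mpr fun y hy hy' => (mem_sdiff.mp (hO₂sub hy')).2 hy)]
      exact sum_le_sum_of_subset (union_subset hO₁sub fun y hy => (mem_sdiff.mp (hO₂sub hy)).1)
    have := hhalf x₁ hfx₁
    have := hhalf x hxp
    rw [← hO₁] at *
    rw [← hO₂] at *
    omega
  have hR1 : R = ∑ y ∈ O₁, f y := by
    rw [hR, ← sum_sdiff hO₁sub, sum_eq_zero hrest, zero_add]
  set o := O₁.card with ho
  obtain ⟨m, hm⟩ : z ∣ Nat.card (stabilizer G x₁) :=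
    Subgroup.card_dvd_of_le fun c hc => hZ c hc x₁
  -- `o z = 2 z + n z (q - 2)` and `o m = n q e`
  have hoz : o * z + 2 * (n * z) = n * (z * q) + 2 * z := by omega
  have hmq : (o * m) * z = (n * q * e) * z := by
    have h1 : o * (z * m) = n * (z * q * e) := by rw [← hm, ← hg]; exact horb x₁
    calc (o * m) * z = o * (z * m) := by ring
      _ = n * (z * q * e) := h1
      _ = _ := by ring
  have hmq' : o * m = n * q * e := Nat.eq_of_mul_eq_mul_right hz0 hmq
  have ho' : o + 2 * n = n * q + 2 := by
    refine Nat.eq_of_mul_eq_mul_right hz0 ?_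
    calc (o + 2 * n) * z = o * z + 2 * (n * z) := by ring
      _ = n * (z * q) + 2 * z := hoz
      _ = _ := by ring
  have hme : e + 1 ≤ m := by
    by_contra h
    have h1 : o * m ≤ o * e := Nat.mul_le_mul_left o (by omega)
    rw [hmq'] at h1
    have : n * q ≤ o := Nat.le_of_mul_le_mul_right h1 he0
    omega
  have h2 := Nat.mul_le_mul_left o hme
  rw [hmq'] at h2
  nlinarith [Nat.mul_le_mul_left n hlt]

end Fermat.Agent.TWGen
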