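import Fermat.Agent.TWGen.Shapes
import Fermat.Agent.Root.Patched.Generators
import Fermat.Agent.Root.Patched.Tangent
import Fermat.Agent.Deformation.TestAlgebra
import Fermat.Agent.LocalRing.Series
import Fermat.Prelude.Def_GaloisRep_DeformationRingData

/-!
# Generators of universal deformation rings

The tangent space of a universal deformation ring injects, after adjoining frames, into the
solutions of the local coordinate equations; a bound on the framed Selmer space therefore bounds
the number of generators (`exists_surjective_of_coords`).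
-/

set_option autoImplicit false

noncomputable section

open IsLocalRing Matrix

namespace Fermat.Agent.TWGen

open Fermat.Agent.Deformation Fermat.Agent.Root.Patched

local notation "ℚbar" => AlgebraicClosure ℚ

section Deriv

variable {O : Type} [CommRing O] [IsLocalRing O]

theorem isLocalHom_alg (S : TestRing O) : IsLocalHom S.alg :=
  ⟨fun a ha => by
    by_contra h
    have h1 := ha.map S.red
    rw [S.red_alg, (residue_eq_zero_iff a).mpr ((mem_maximalIdeal a).mpr h)] at h1
    exact not_isUnit_zero h1⟩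

theorem deriv_eq_zero_of_mem_sq {S : TestRing O} {δ : S.R →+ ResidueField O}
    (hδ : IsPointDeriv S.red δ) {x : S.R} (hx : x ∈ maximalIdeal S.R ^ 2) : δ x = 0 := by
  rw [pow_two] at hx
  induction hx using Submodule.mul_induction_on' with
  | mem_mul_mem a ha b hb =>
    rw [hδ.leibniz, (S.ker_red a).mpr ha, (S.ker_red b).mpr hb, zero_mul, mul_zero, add_zero]
  | add a _ b _ ha hb => rw [map_add, ha, hb, add_zero]

/-- The tangent quotient attached to a derivation at the closed point. -/
theorem exists_tangent_of_deriv {E : TestRing O} {δ : E.R →+ ResidueField O}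
    (hδ : IsPointDeriv E.red δ) (halg : ∀ c, δ (E.alg c) = 0) :
    ∃ (D : TestRing O) (π : E.R →+* D.R) (sec : ResidueField O →+* D.R), Function.Surjective π ∧
      π.comp E.alg = D.alg ∧ D.red.comp π = E.red ∧ D.IsTangent ∧
      (∀ a, sec (residue O a) = D.alg a) ∧
      ∀ z, π z = 0 ↔ E.red z = 0 ∧ δ z = 0 := by
  let J : Ideal E.R :=
    { carrier := {z | E.red z = 0 ∧ δ z = 0}
      add_mem' := fun ha hb => ⟨by rw [map_add, ha.1, hb.1, add_zero],
        by rw [map_add, ha.2, hb.2, add_zero]⟩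
      zero_mem' := ⟨map_zero _, map_zero _⟩
      smul_mem' := fun c x hx => ⟨by rw [smul_eq_mul, map_mul, hx.1, mul_zero],
        by rw [smul_eq_mul, hδ.leibniz, hx.1, hx.2, mul_zero, mul_zero, add_zero]⟩ }
  have hJm : J ≤ maximalIdeal E.R := fun x hx => (E.ker_red x).mp hx.1
  have hsq : maximalIdeal E.R ^ 2 ≤ J := fun x hx =>
    ⟨(E.ker_red x).mpr (Ideal.pow_le_self two_ne_zero hx), deriv_eq_zero_of_mem_sq hδ hx⟩
  obtain ⟨D, π, hπ, hker, hπa, hπr, hD, -⟩ := E.exists_quotient_tangent J hJm hsq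
  have h0 : ∀ z, π z = 0 ↔ E.red z = 0 ∧ δ z = 0 := fun z => by
    rw [← RingHom.mem_ker, hker]; rfl
  refine ⟨D, π, Ideal.Quotient.lift (maximalIdeal O) D.alg (fun a ha => ?_), hπ, hπa, hπr, hD,
    fun a => rfl, h0⟩
  rw [← hπa, RingHom.comp_apply, h0]
  exact ⟨by rw [E.red_alg, residue_eq_zero_iff]; exact ha, halg a⟩

/-- The first order coefficient at a variable. -/
def coeffOne (S : TestRing O) {σ : Type} [Finite σ] (w : σ) : (S.series σ).R →+ S.R :=
  (MvPowerSeries.coeff (R := S.R) (Finsupp.single w 1)).toAddMonoidHom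

variable {S : TestRing O} {σ : Type} [Finite σ]

theorem coeffOne_mul (w : σ) (x y : (S.series σ).R) :
    coeffOne S w (x * y) =
      S.coeffZero σ x * coeffOne S w y + coeffOne S w x * S.coeffZero σ y := by
  classical
  have key : ∀ f g : MvPowerSeries σ S.R, MvPowerSeries.coeff (Finsupp.single w 1) (f * g) =
      MvPowerSeries.constantCoeff f * MvPowerSeries.coeff (Finsupp.single w 1) g +
        MvPowerSeries.coeff (Finsupp.single w 1) f * MvPowerSeries.constantCoeff g := fun f g => by
    rw [MvPowerSeries.coeff_mul, Finsupp.antidiagonal_single, Finset.sum_map,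
      show Finset.HasAntidiagonal.antidiagonal 1 = {(0, 1), (1, 0)} from rfl,
      Finset.sum_insert (by simp), Finset.sum_singleton]
    simp [MvPowerSeries.coeff_zero_eq_constantCoeff_apply]
  exact key x y

theorem coeffOne_constHom (w : σ) (x : S.R) : coeffOne S w (S.constHom σ x) = 0 := by
  classical
  show MvPowerSeries.coeff (Finsupp.single w 1) (MvPowerSeries.C x) = 0
  rw [MvPowerSeries.coeff_C, if_neg (by simp)]

theorem coeffOne_varX [DecidableEq σ] (w w' : σ) :
    coeffOne S w (S.varX w') = if w = w' then 1 else 0 := by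
  classical
  show MvPowerSeries.coeff (Finsupp.single w 1) (MvPowerSeries.X w') = _
  rw [MvPowerSeries.coeff_X]
  exact if_congr (by simp [Finsupp.single_left_inj one_ne_zero]) rfl rfl

end Deriv

section Universal

variable {𝒪 : Type} [CommRing 𝒪] [IsDomain 𝒪] [IsDiscreteValuationRing 𝒪]
  [IsAdicComplete (maximalIdeal 𝒪) 𝒪] [Finite (ResidueField 𝒪)]
  {ρbar : ResidualGaloisRep (ResidueField 𝒪)} {M0 : GQ →* M2 (ResidueField 𝒪)}
  {𝒟 : ∀ ⦃A : Type⦄ [CommRing A] [IsLocalRing A] [Algebra 𝒪 A], GaloisRepAdic A → Prop}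
  (DQ : GaloisRep.DeformationRingData 𝒪 ρbar 𝒟)

/-- The universal ring as a test ring. -/
def ringOf : TestRing 𝒪 :=
  haveI := finite_residueField DQ.residue_surjective
  let ι := RingEquiv.ofBijective (ResidueField.map (algebraMap 𝒪 DQ.R))
    (resMap_bijective DQ.residue_surjective)
  { R := { carrier := DQ.R }
    alg := algebraMap 𝒪 DQ.R
    red := ι.symm.toRingHom.comp (residue DQ.R)
    red_alg := fun a => by
      show ι.symm (residue DQ.R (algebraMap 𝒪 DQ.R a)) = _
      rw [show residue DQ.R (algebraMap 𝒪 DQ.R a) = ι (residue 𝒪 a) from rfl,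
        RingEquiv.symm_apply_apply]
    ker_red := fun x => by
      show ι.symm (residue DQ.R x) = 0 ↔ _
      rw [map_eq_zero_iff _ ι.symm.injective, residue_eq_zero_iff] }

theorem red_residue (x : DQ.R) :
    ResidueField.map (algebraMap 𝒪 DQ.R) ((ringOf DQ).red x) = residue DQ.R x :=
  (RingEquiv.ofBijective (ResidueField.map (algebraMap 𝒪 DQ.R))
    (resMap_bijective DQ.residue_surjective)).apply_symm_apply _

theorem exists_lift (hM0 : IsResMatrixRep ρbar M0) :
    ∃ ℓ : Lift M0 (ringOf DQ), IsMatrixRep (A := DQ.R) DQ.ρ ℓ.M := by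
  obtain ⟨M, hM⟩ := exists_isMatrixRep DQ.ρ
  obtain ⟨U, hU⟩ := (isResEquiv_iff_areConj hM.residual
    (hM0.baseChangeAlong (ResidueField.map (algebraMap 𝒪 DQ.R)))).mp DQ.residual_isEquiv
  choose V hV using fun i j => residue_surjective ((U : M2 (ResidueField DQ.R)) i j)
  have hVU : (Matrix.of V).map (residue DQ.R) = (U : M2 (ResidueField DQ.R)) :=
    Matrix.ext fun i j => hV i j
  have hVd : IsUnit (Matrix.of V).det := by
    by_contra h
    have h1 := (residue_eq_zero_iff (R := DQ.R) _).mpr ((mem_maximalIdeal _).mpr h)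
    rw [RingHom.map_det, RingHom.mapMatrix_apply, hVU] at h1
    exact ((Matrix.isUnit_iff_isUnit_det _).mp U.isUnit).ne_zero h1
  set V' : (M2 DQ.R)ˣ := Matrix.nonsingInvUnit _ hVd
  have hV'U : Units.map (residue DQ.R).mapMatrix.toMonoidHom V' = U := Units.ext hVU
  refine ⟨⟨conjRep V' M, (hM.conjRep V').matCont, fun σ => ?_⟩, hM.conjRep V'⟩
  have e : (conjRep V' M σ).map (residue DQ.R) =
      (M0 σ).map (ResidueField.map (algebraMap 𝒪 DQ.R)) := by
    rw [← RingHom.mapMatrix_apply, conjRep_apply, map_mul, map_mul]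
    have e1 : (residue DQ.R).mapMatrix ((V'⁻¹ : (M2 DQ.R)ˣ) : M2 DQ.R) =
        ((U⁻¹ : (M2 (ResidueField DQ.R))ˣ) : M2 _) := by
      rw [← hV'U, ← map_inv]; rfl
    rw [show (residue DQ.R).mapMatrix (V' : M2 DQ.R) = (U : M2 _) from hVU, e1,
      RingHom.mapMatrix_apply, ← mapRep_apply, hU, mul_assoc, Units.mul_inv, mul_one, mapRep_apply]
  refine Matrix.ext fun i j => (RingHom.injective (ResidueField.map (algebraMap 𝒪 DQ.R))) ?_
  rw [Matrix.map_apply]
  exact (red_residue DQ _).trans (congrFun (congrFun e i) j)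

variable {DQ}

/-- **Rigidity.**  A derivation of the universal ring which deforms the representation only by an
infinitesimal conjugation is zero. -/
theorem deriv_eq_zero_of_conj (hM0 : IsResMatrixRep ρbar M0)
    (hpush : ∀ (A : Type) [CommRing A] [IsLocalRing A] [IsNoetherianRing A]
      [IsAdicComplete (maximalIdeal A) A] [Finite (ResidueField A)] [Algebra 𝒪 A]
      (φ : DQ.R →+* A) (hφ : IsLocalHom φ), 𝒟 (DQ.ρ.baseChangeAlong φ hφ))
    (ℓ : Lift M0 (ringOf DQ)) (hℓ : IsMatrixRep (A := DQ.R) DQ.ρ ℓ.M)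
    {δ : (ringOf DQ).R →+ ResidueField 𝒪} (hδ : IsPointDeriv (ringOf DQ).red δ)
    (halg : ∀ c, δ ((ringOf DQ).alg c) = 0) (X : M2 (ResidueField 𝒪))
    (h : ∀ σ, (ℓ.M σ).map δ = X * M0 σ - M0 σ * X) : δ = 0 := by
  by_contra hne
  obtain ⟨x, hx⟩ := DFunLike.ne_iff.mp hne
  obtain ⟨D, π, sec, hπ, hπa, hπr, hD, hsec, h0⟩ := exists_tangent_of_deriv hδ halg
  choose lift hlift using residue_surjective (R := 𝒪)
  let y : (ringOf DQ).R :=
    (ringOf DQ).alg (lift (δ x)⁻¹) * (x - (ringOf DQ).alg (lift ((ringOf DQ).red x)))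
  have hy0 : (ringOf DQ).red y = 0 := by simp [y, (ringOf DQ).red_alg, hlift]
  have hy1 : δ y = 1 := by
    simp only [y]
    rw [hδ.leibniz, map_sub, halg, halg, sub_zero, zero_mul, add_zero, (ringOf DQ).red_alg, hlift]
    exact inv_mul_cancel₀ hx
  have key : ∀ z, π z = sec ((ringOf DQ).red z) + sec (δ z) * π y := fun z => by
    have e : π (z - ((ringOf DQ).alg (lift ((ringOf DQ).red z)) +
        (ringOf DQ).alg (lift (δ z)) * y)) = 0 := by
      rw [h0]
      constructor
      · rw [map_sub, map_add, map_mul, hy0, (ringOf DQ).red_alg, hlift, mul_zero, add_zero,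
          sub_self]
      · rw [map_sub, map_add, hδ.leibniz, halg, halg, hy1, (ringOf DQ).red_alg, hlift, zero_mul,
          add_zero,
          mul_one, zero_add, sub_self]
    rw [map_sub, sub_eq_zero, map_add, map_mul, ← RingHom.comp_apply, ← RingHom.comp_apply, hπa,
      ← hsec, ← hsec, hlift, hlift] at e
    exact e
  have he2 : π y * π y = 0 := by
    have hym : π y ∈ maximalIdeal D.R := by
      rw [← D.ker_red, ← RingHom.comp_apply, hπr, hy0]
    rw [← Ideal.mem_bot, ← hD, pow_two]
    exact Ideal.mul_mem_mul hym hym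
  have hredsec : ∀ z, D.red (sec z) = z := fun z => by
    rw [← hlift z, hsec, D.red_alg]
  let : Algebra 𝒪 D.R := D.alg.toAlgebra
  have : IsLocalHom (algebraMap 𝒪 D.R) := isLocalHom_alg D
  have hπl : IsLocalHom π := IsLocalHom.of_surjective π hπ
  let ψ : (ringOf DQ).R →+* D.R := sec.comp (ringOf DQ).red
  have hψl : IsLocalHom ψ := ⟨fun z hz => by
    by_contra hz'
    have h1 := hz.map D.red
    rw [RingHom.comp_apply, hredsec, ((ringOf DQ).ker_red z).mpr ((mem_maximalIdeal z).mpr hz')]
      at h1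
    exact not_isUnit_zero h1⟩
  let πA : DQ.R →ₐ[𝒪] D.R := { π with commutes' := fun a => RingHom.congr_fun hπa a }
  have hψc : ∀ a, ψ ((ringOf DQ).alg a) = D.alg a := fun a => by
    rw [RingHom.comp_apply, (ringOf DQ).red_alg, hsec]
  let ψA : DQ.R →ₐ[𝒪] D.R := { ψ with commutes' := hψc }
  have hres : Function.Surjective (residue D.R ∘ algebraMap 𝒪 D.R) :=
    residue_comp_surjective fun a => ⟨lift (D.red a), by
      show a - D.alg _ ∈ _
      rw [← D.ker_red, map_sub, D.red_alg, hlift, sub_self]⟩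
  let ρA := DQ.ρ.baseChangeAlong π hπl
  have hA : IsMatrixRep ρA (mapRep π ℓ.M) := hℓ.baseChangeAlong π hπl
  have hresA : ρA.residual.IsEquiv
      (ρbar.baseChangeAlong (ResidueField.map (algebraMap 𝒪 D.R))) := by
    rw [isResEquiv_iff_areConj hA.residual (hM0.baseChangeAlong _)]
    have e : mapRep (residue D.R) (mapRep π ℓ.M) =
        mapRep (ResidueField.map (algebraMap 𝒪 D.R)) M0 := by
      refine MonoidHom.ext fun σ => Matrix.ext fun i j => ?_
      simp only [mapRep_apply, Matrix.map_apply, ← ℓ.reduces σ]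
      rw [← hlift ((ringOf DQ).red (ℓ.M σ i j)), ResidueField.map_residue, key, map_add, map_mul,
        (residue_eq_zero_iff (π y)).mpr, mul_zero, add_zero]
      · conv_lhs => rw [← hlift ((ringOf DQ).red (ℓ.M σ i j)), hsec]
        rfl
      · rw [← D.ker_red, ← RingHom.comp_apply, hπr, hy0]
    rw [e]
    exact AreConj.refl _
  obtain ⟨φ, -, huniq⟩ := DQ.universal D.R hres ρA (hpush D.R π hπl) hresA
  have h1 : πA = φ := huniq πA ⟨hπl, ⟨GaloisRepAdic.Equiv.refl ρA⟩⟩
  have h2 : ψA = φ := huniq ψA ⟨hψl, by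
    refine (isEquiv_iff_areConj (hℓ.baseChangeAlong ψ hψl) hA).mpr ?_
    set Xs : M2 D.R := π y • X.map sec with hXs
    have hXs2 : Xs * Xs = 0 := by
      rw [hXs, Matrix.smul_mul, Matrix.mul_smul, smul_smul, he2, zero_smul]
    refine ⟨⟨1 + Xs, 1 - Xs, by simp [mul_sub, add_mul, hXs2], by
      simp [mul_add, sub_mul, hXs2]⟩, fun σ => ?_⟩
    have eψ : (ℓ.M σ).map ψ = (M0 σ).map sec := by
      rw [← ℓ.reduces σ, Matrix.map_map]; rfl
    have eπ : (ℓ.M σ).map π =
        (M0 σ).map sec + π y • (X * M0 σ - M0 σ * X).map sec := by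
      rw [← h σ, ← ℓ.reduces σ]
      ext i j
      simp only [Matrix.map_apply, Matrix.add_apply, Matrix.smul_apply, smul_eq_mul]
      rw [key]
      ring
    show (1 + Xs) * (ℓ.M σ).map ψ = (ℓ.M σ).map π * (1 + Xs)
    rw [eψ, eπ, hXs, Matrix.map_sub _ (map_sub sec), Matrix.map_mul, Matrix.map_mul]
    simp only [mul_add, add_mul, one_mul, mul_one, Matrix.smul_mul, Matrix.mul_smul, smul_smul,
      he2, zero_smul, smul_sub, Matrix.sub_mul, sub_zero, add_zero]
    abel⟩
  have h3 : π x = sec ((ringOf DQ).red x) := DFunLike.congr_fun (h1.trans h2.symm) x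
  rw [key, add_eq_left] at h3
  have hu : IsUnit (sec (δ x)) := (Ne.isUnit hx).map sec
  have h4 := ((h0 y).mp (hu.mul_right_eq_zero.mp h3)).2
  rw [hy1] at h4
  exact one_ne_zero h4

/-- **Generators.**  A bound `r + 2` on the framed Selmer space and at most `3 |T| + 1` local
coordinates give `r` generators. -/
theorem exists_surjective_of_coords (hM0 : IsResMatrixRep ρbar M0)
    (hpush : ∀ (A : Type) [CommRing A] [IsLocalRing A] [IsNoetherianRing A]
      [IsAdicComplete (maximalIdeal A) A] [Finite (ResidueField A)] [Algebra 𝒪 A]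
      (φ : DQ.R →+* A) (hφ : IsLocalHom φ), 𝒟 (DQ.ρ.baseChangeAlong φ hφ))
    {p : ℕ} [Fact p.Prime] (hp : (p : 𝒪) ∈ maximalIdeal 𝒪) (hdet : DQ.ρ.DetIsCyclotomic p)
    (T Q : Finset ℕ) (P : ℕ → ValuationSubring ℚbar)
    (hunr : ∀ x : ℕ, x.Prime → x ∉ T → x ∉ Q → DQ.ρ.IsUnramifiedAt x)
    (σv : T → Type) [∀ v, Fintype (σv v)]
    (cond : T → ∀ S : TestRing 𝒪, Lift M0 S → Prop)
    (hclosed : ∀ v, CondClosed (cond v))
    (hcond : ∀ (v : T) (ℓ : Lift M0 (ringOf DQ)), IsMatrixRep (A := DQ.R) DQ.ρ ℓ.M →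
      cond v (ringOf DQ) ℓ)
    (C : ∀ v : T, Coords M0 (P v) (σv v) (cond v))
    (hsum : ∑ v, Fintype.card (σv v) ≤ 3 * T.card + 1)
    (ρ : GQ →* GL (Fin 2) (ResidueField 𝒪)) (hρ : ∀ σ, (ρ σ).val = M0 σ)
    (hfix : ∀ X : M2 (ResidueField 𝒪), X.trace = 0 →
      (∀ σ, (ρ σ).val * X = X * (ρ σ).val) → X = 0)
    (r : ℕ)
    (hbound : ∀ (n : ℕ) (x : Fin n → (GQ → M2 (ResidueField 𝒪)) × (ℕ → M2 (ResidueField 𝒪))),
      (∀ i, IsFramedKernel ρ T Q P (x i)) → LinearIndependent (ResidueField 𝒪) x → n ≤ r + 2) :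
    ∃ γ : MvPowerSeries (Fin r) 𝒪 →ₐ[𝒪] DQ.R, Function.Surjective γ := by
  classical
  set S := ringOf DQ with hS
  obtain ⟨ℓ, hℓ⟩ := exists_lift DQ hM0
  -- the cotangent space
  set J : Ideal S.R := (maximalIdeal 𝒪).map S.alg ⊔ maximalIdeal S.R ^ 2 with hJdef
  have hSalg : ∀ a ∈ maximalIdeal 𝒪, S.alg a ∈ maximalIdeal S.R := fun a ha => by
    rw [← S.ker_red, S.red_alg, residue_eq_zero_iff]; exact ha
  have hJm : J ≤ maximalIdeal S.R :=
    sup_le (Ideal.map_le_iff_le_comap.mpr hSalg) (Ideal.pow_le_self two_ne_zero)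
  obtain ⟨D, π, hπ, hker, hπa, hπr, hD, hfin⟩ := S.exists_quotient_tangent J hJm le_sup_right
  let sec : ResidueField 𝒪 →+* D.R := Ideal.Quotient.lift (maximalIdeal 𝒪) D.alg fun a ha => by
    rw [← hπa, RingHom.comp_apply, ← RingHom.mem_ker, hker]
    exact Ideal.mem_sup_left (Ideal.mem_map_of_mem _ ha)
  have hsec : ∀ a, sec (residue 𝒪 a) = D.alg a := fun a => rfl
  have hredsec : ∀ z, D.red (sec z) = z := fun z => by
    obtain ⟨a, rfl⟩ := residue_surjective z
    exact D.red_alg a
  let : Algebra (ResidueField 𝒪) D.R := sec.toAlgebra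
  let V : Submodule (ResidueField 𝒪) D.R := (maximalIdeal D.R).restrictScalars (ResidueField 𝒪)
  have : Finite V := inferInstance
  set d := Module.finrank (ResidueField 𝒪) V
  let b : Module.Basis (Fin d) (ResidueField 𝒪) V := Module.finBasis (ResidueField 𝒪) V
  have hsub : ∀ x : D.R, x - sec (D.red x) ∈ V := fun x => by
    show x - sec (D.red x) ∈ maximalIdeal D.R
    rw [← D.ker_red, map_sub, hredsec, sub_self]
  let co : Fin d → (S.R →+ ResidueField 𝒪) := fun i =>
    { toFun := fun x => b.repr ⟨π x - sec (D.red (π x)), hsub _⟩ i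
      map_zero' := by
        rw [show (⟨π 0 - sec (D.red (π 0)), hsub _⟩ : V) = 0 from Subtype.ext (by simp), map_zero]
        rfl
      map_add' := fun x y => by
        rw [← Finsupp.add_apply, ← map_add]
        refine congrArg (fun f => b.repr f i) (Subtype.ext ?_)
        simp only [map_add, Submodule.coe_add]
        ring }
  have hco : ∀ i, IsPointDeriv S.red (co i) := fun i => ⟨fun x y => by
    have e : (⟨π (x * y) - sec (D.red (π (x * y))), hsub _⟩ : V) =
        S.red x • (⟨π y - sec (D.red (π y)), hsub _⟩ : V) +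
          S.red y • (⟨π x - sec (D.red (π x)), hsub _⟩ : V) := by
      refine Subtype.ext ?_
      have h0 : (π x - sec (D.red (π x))) * (π y - sec (D.red (π y))) = 0 := by
        rw [← Ideal.mem_bot, ← hD, pow_two]
        exact Ideal.mul_mem_mul (hsub _) (hsub _)
      simp only [Submodule.coe_add, Submodule.coe_smul, Algebra.smul_def,
        RingHom.algebraMap_toAlgebra, map_mul]
      rw [← RingHom.congr_fun hπr x, ← RingHom.congr_fun hπr y, RingHom.comp_apply,
        RingHom.comp_apply]
      linear_combination h0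
    show b.repr (⟨_, hsub _⟩ : V) i = S.red x * b.repr (⟨_, hsub _⟩ : V) i +
      b.repr (⟨_, hsub _⟩ : V) i * S.red y
    rw [e, map_add, map_smul, map_smul, Finsupp.add_apply, Finsupp.smul_apply, Finsupp.smul_apply,
      smul_eq_mul, smul_eq_mul, mul_comm _ (S.red y)]⟩
  have hco_alg : ∀ i a, co i (S.alg a) = 0 := fun i a => by
    show b.repr (⟨_, hsub _⟩ : V) i = 0
    rw [show (⟨_, hsub (π (S.alg a))⟩ : V) = 0 from Subtype.ext (by
      show π (S.alg a) - sec (D.red (π (S.alg a))) = 0
      rw [show π (S.alg a) = D.alg a from RingHom.congr_fun hπa a, D.red_alg, hsec, sub_self]),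
      map_zero]
    rfl
  choose y hy using fun i : Fin d => hπ ((b i : V) : D.R)
  have hym : ∀ i, y i ∈ maximalIdeal S.R := fun i => by
    rw [← S.ker_red, ← hπr, RingHom.comp_apply, hy]
    exact (D.ker_red _).mpr (b i).2
  have hcoy : ∀ l i, co l (y i) = if l = i then 1 else 0 := fun l i => by
    show b.repr (⟨_, hsub _⟩ : V) l = _
    rw [show (⟨_, hsub (π (y i))⟩ : V) = b i from Subtype.ext (by
      show π (y i) - sec (D.red (π (y i))) = _
      rw [hy, (D.ker_red _).mpr (b i).2, map_zero, sub_zero]), b.repr_self, Finsupp.single_apply]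
    simp [eq_comm]
  -- derivations of the framed ring
  let δE : (Fin d ⊕ FrameVar T → ResidueField 𝒪) → ((S.framed T).R →+ ResidueField 𝒪) := fun a =>
    ∑ i, (AddMonoidHom.mulLeft (a (Sum.inl i))).comp ((co i).comp (S.coeffZero _).toAddMonoidHom) +
      ∑ w, (AddMonoidHom.mulLeft (a (Sum.inr w))).comp (S.red.toAddMonoidHom.comp (coeffOne S w))
  have hδapply : ∀ a x, δE a x = ∑ i, a (Sum.inl i) * co i (S.coeffZero _ x) +
      ∑ w, a (Sum.inr w) * S.red (coeffOne S w x) := fun a x => by
    simp [δE, AddMonoidHom.finsetSum_apply]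
  have hδ : ∀ a, IsPointDeriv (S.framed T).red (δE a) := fun a => ⟨fun x z => by
    simp only [hδapply, coeffOne_mul, map_mul, map_add, (hco _).leibniz, S.series_red_apply,
      mul_add, add_mul, Finset.mul_sum, Finset.sum_mul, Finset.sum_add_distrib]
    rw [add_add_add_comm]
    congr 1 <;> congr 1 <;> exact Finset.sum_congr rfl fun i _ => by ring⟩
  have hδalg : ∀ a c, δE a ((S.framed T).alg c) = 0 := fun a c => by
    rw [hδapply, show (S.framed T).alg c = S.constHom (FrameVar T) (S.alg c) from rfl]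
    simp [coeffOne_constHom, hco_alg]
  let ev : (Fin d ⊕ FrameVar T → ResidueField 𝒪) →ₗ[ResidueField 𝒪]
      ((Σ v, σv v) → ResidueField 𝒪) :=
    { toFun := fun a x => δE a ((C x.1).val (S.framed T) (ℓ.framedAt x.1) x.2)
      map_add' := fun a a' => funext fun x => by
        simp only [Pi.add_apply, hδapply, add_mul, Finset.sum_add_distrib]
        abel
      map_smul' := fun c a => funext fun x => by
        simp [hδapply, Finset.mul_sum, mul_add, mul_assoc] }
  have hval : ∀ v i, (C v).val (S.framed T) (ℓ.framedAt v) i ∈ maximalIdeal (S.framed T).R :=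
    fun v i => (C v).mem _ _ ((hclosed v).framedAt ℓ (hcond v ℓ hℓ) v) i
  set K := LinearMap.ker ev
  let kb := Module.finBasis (ResidueField 𝒪) K
  have himg : Finset.univ.image (Subtype.val : T → ℕ) = T := by
    rw [Finset.univ_eq_attach, Finset.attach_image_val]
  have hkerK : ∀ j, IsFramedKernel ρ T Q P
      (cocycleOfDeriv ℓ ρ (δE (kb j : _)), frameOfDeriv Subtype.val (δE (kb j : _))) := fun j => by
    have h := isFramedKernel_of_deriv ℓ (Subtype.val : T → ℕ) hρ (hδ (kb j : _)) (hδalg _)
      Subtype.val_injective hp (detCyclotomic hℓ hdet)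
      (fun x hx => deriv_eq_zero_of_mem_sq (hδ _) hx) Q P
      (fun x hx hxT hxQ A hA σ hσ => eq_one_of_isUnramifiedAt (A := DQ.R) hℓ
        (hunr x hx (fun h => hxT ⟨x, h⟩ rfl) hxQ) hA hσ)
      fun v g hg => by
        obtain ⟨D', π', sec', -, hπa', hπr', hD', hsec', h0'⟩ :=
          exists_tangent_of_deriv (hδ (kb j : _)) (hδalg _)
        have hm := map_framed_eq ℓ (hclosed v) (hcond v ℓ hℓ) (C v) hD' π' hπa' hπr'
          (fun i => (h0' _).mpr ⟨((S.framed T).ker_red _).mpr (hval v i),
            congrFun (LinearMap.mem_ker.mp (kb j).2) ⟨v, i⟩⟩) sec' hsec' hg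
        ext s t
        have e1 := congrFun (congrFun hm s) t
        have e2 := congrFun (congrFun ((ℓ.framedAt v).reduces g) s) t
        rw [Matrix.map_apply, Matrix.map_apply] at e1
        rw [Matrix.map_apply] at e2
        obtain ⟨c, hc⟩ := residue_surjective (R := 𝒪) ((S.framed T).red ((ℓ.framedAt v).M g s t))
        have h3 : π' ((ℓ.framedAt v).M g s t - (S.framed T).alg c) = 0 := by
          rw [map_sub, e1, ← e2, ← hc, hsec', ← hπa']
          exact sub_self _
        have h4 := ((h0' _).mp h3).2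
        rwa [map_sub, hδalg, sub_zero] at h4
    rwa [himg] at h
  have hdim : d ≤ Module.finrank (ResidueField 𝒪) K + 1 := by
    have h1 := LinearMap.finrank_range_add_finrank_ker ev
    have h2 := (LinearMap.range ev).finrank_le
    rw [Module.finrank_pi, Fintype.card_sigma] at h2
    rw [Module.finrank_pi, Fintype.card_sum, Fintype.card_fin, Fintype.card_prod,
      Fintype.card_coe, Fintype.card_fin] at h1
    change _ + Module.finrank (ResidueField 𝒪) K = _ at h1
    omega
  have hlin : LinearIndependent (ResidueField 𝒪)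
      (Fin.append (fun j => (cocycleOfDeriv ℓ ρ (δE (kb j : _)),
        frameOfDeriv Subtype.val (δE (kb j : _)))) (coboundary ρ T)) := by
    rw [Fintype.linearIndependent_iff]
    intro c hc
    rw [Fin.sum_univ_add] at hc
    simp only [Fin.append_left, Fin.append_right] at hc
    set z : Fin 3 → ResidueField 𝒪 := fun j => c (Fin.natAdd _ j)
    have hX : ∑ j, z j • traceZero (Pi.single j 1) = traceZero z := by
      ext u w
      fin_cases u <;> fin_cases w <;> simp [traceZero, Fin.sum_univ_three]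
    set a : Fin d ⊕ FrameVar T → ResidueField 𝒪 :=
      ∑ j, c (Fin.castAdd 3 j) • ((kb j : K) : _ → ResidueField 𝒪) with ha
    have hδmap : ∀ M : M2 (S.framed T).R,
        M.map (δE a) = ∑ j, c (Fin.castAdd 3 j) • M.map (δE (kb j : _)) := fun M => by
      ext u w
      simp only [Matrix.sum_apply, Matrix.map_apply, Matrix.smul_apply, smul_eq_mul, hδapply, ha,
        Finset.sum_apply, Pi.smul_apply, Finset.sum_mul, mul_add, Finset.mul_sum,
        Finset.sum_add_distrib, mul_assoc]
      congr 1 <;> exact Finset.sum_comm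
    have h1 : ∀ σ, cocycleOfDeriv ℓ ρ (δE a) σ +
        (adAct ρ σ (traceZero z) - traceZero z) = 0 := fun σ => by
      have := congrFun (congrArg Prod.fst hc) σ
      simp only [Prod.fst_add, Prod.fst_sum, Prod.smul_fst, Pi.add_apply, Finset.sum_apply,
        Pi.smul_apply, Prod.fst_zero, Pi.zero_apply, coboundary, smul_sub,
        Finset.sum_sub_distrib] at this
      rw [← this, cocycleOfDeriv, hδmap, ← hX, Matrix.sum_mul]
      simp only [cocycleOfDeriv, adAct, Finset.mul_sum, Finset.sum_mul, smul_mul_assoc,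
        mul_smul_comm, z]
    have hred : ∀ σ, (ℓ.constSeries (ι := T)).M σ = (ℓ.M σ).map (S.constHom _) := fun σ => rfl
    let δR : S.R →+ ResidueField 𝒪 := (δE a).comp (S.constHom (FrameVar T)).toAddMonoidHom
    have hδRapply : ∀ x, δR x = ∑ i, a (Sum.inl i) * co i x := fun x => by
      show δE a (S.constHom _ x) = _
      simp [hδapply, coeffOne_constHom]
    have hδR : δR = 0 := by
      refine deriv_eq_zero_of_conj hM0 hpush ℓ hℓ ⟨fun x w => ?_⟩
        (fun u => (hδalg a u : _)) (traceZero z) fun σ => ?_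
      · show δE a (S.constHom _ (x * w)) = _
        rw [map_mul, (hδ a).leibniz]
        simp [S.series_red_apply, δR]
        ring
      · have h' := congrArg (fun Z => Z * (ρ σ).val) (h1 σ)
        simp only [cocycleOfDeriv, adAct, Matrix.add_mul, Matrix.sub_mul, Matrix.mul_assoc,
          val_inv_mul, Matrix.mul_one, Matrix.zero_mul] at h'
        rw [hred, hρ, Matrix.map_map] at h'
        rw [← sub_eq_zero, ← h']
        show (ℓ.M σ).map (δE a ∘ S.constHom _) - _ = _
        abel
    have hX0 : traceZero z = 0 := hfix _ (trace_traceZero z) fun σ => by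
      have h' := congrArg (fun Z => Z * (ρ σ).val) (h1 σ)
      have e : ((ℓ.constSeries (ι := T)).M σ).map (δE a) = 0 :=
        Matrix.ext fun u w => DFunLike.congr_fun hδR (ℓ.M σ u w)
      simp only [cocycleOfDeriv, e, adAct, Matrix.zero_mul, zero_add, Matrix.sub_mul,
        Matrix.mul_assoc, val_inv_mul, Matrix.mul_one] at h'
      exact sub_eq_zero.mp h'
    have ha0 : a = 0 := by
      funext w
      rcases w with i | w
      · have := DFunLike.congr_fun hδR (y i)
        simpa [hδRapply, hcoy] using this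
      · obtain ⟨v, u⟩ := w
        have h2 := congrFun (congrArg Prod.snd hc) (v : ℕ)
        simp only [Prod.snd_add, Prod.snd_sum, Prod.smul_snd, Pi.add_apply, Finset.sum_apply,
          Pi.smul_apply, Prod.snd_zero, Pi.zero_apply, coboundary, frameOfDeriv,
          Subtype.val_injective.extend_apply, if_pos v.2, smul_neg, Finset.sum_neg_distrib] at h2
        rw [← hδmap, hX, hX0, neg_zero, add_zero, neg_eq_zero] at h2
        have hv : ∀ u : Fin 3, δE a (S.varX (v, u)) = a (Sum.inr (v, u)) := fun u => by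
          simp [hδapply, coeffOne_varX]
        show a (Sum.inr (v, u)) = 0
        rw [← hv]
        fin_cases u
        · simpa [frameY] using congrFun (congrFun h2 0) 0
        · simpa [frameY] using congrFun (congrFun h2 0) 1
        · simpa [frameY] using congrFun (congrFun h2 1) 0
    have hc0 : ∀ j, c (Fin.castAdd 3 j) = 0 := Fintype.linearIndependent_iff.mp
      kb.linearIndependent (fun j => c (Fin.castAdd 3 j)) (Subtype.ext (by
        rw [Submodule.coe_sum, ZeroMemClass.coe_zero]
        simp only [SetLike.val_smul]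
        rw [← ha, ha0]))
    intro j
    refine Fin.addCases hc0 (fun j => ?_) j
    have h00 := congrFun (congrFun hX0 0) 0
    have h01 := congrFun (congrFun hX0 0) 1
    have h10 := congrFun (congrFun hX0 1) 0
    fin_cases j <;> simp [traceZero, z] at h00 h01 h10 ⊢ <;> assumption
  have hbd := hbound _ _ (fun j => Fin.addCases
    (fun i => by rw [Fin.append_left]; exact hkerK i)
    (fun i => by
      rw [Fin.append_right]
      have h := isFramedKernel_coboundary ℓ hρ (Subtype.val : T → ℕ) Q P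
        (fun x hx hxT hxQ A hA σ hσ => eq_one_of_isUnramifiedAt (A := DQ.R) hℓ
          (hunr x hx (fun h => hxT ⟨x, h⟩ rfl) hxQ) hA hσ) i
      rwa [himg] at h) j) hlin
  have hdr : d ≤ r := by omega
  -- the map
  let G : Fin r → S.R := fun j => if h : (j : ℕ) < d then y ⟨j, h⟩ else 0
  have hG : ∀ j, G j ∈ maximalIdeal S.R := fun j => by
    simp only [G]
    split_ifs
    exacts [hym _, zero_mem _]
  let F : MvPowerSeries (Fin r) 𝒪 →+* S.R := LocalRing.eval S.alg G hG
  have hFC : ∀ c, F (MvPowerSeries.C c) = S.alg c := fun c => LocalRing.eval_C _ _ _ c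
  have hFX : ∀ j, F (MvPowerSeries.X j) = G j := fun j => LocalRing.eval_X _ _ _ j
  have hle : (maximalIdeal (MvPowerSeries (Fin r) 𝒪)).map F ≤ maximalIdeal S.R :=
    LocalRing.map_maximalIdeal_le _ (fun c hc => by rw [hFC]; exact hSalg c hc)
      (fun j => by rw [hFX]; exact hG j)
  have : IsLocalHom F := ⟨fun f hf => by
    by_contra hu
    exact (mem_maximalIdeal _).mp (hle (Ideal.mem_map_of_mem _ ((mem_maximalIdeal f).mpr hu))) hf⟩
  refine ⟨{ F with commutes' := fun c => hFC c }, ?_⟩
  refine surjective_of_tangent F (fun x => ?_) fun I hI hIm hFI ψ _ hψ => RingHom.ext fun x => ?_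
  · obtain ⟨c, hc⟩ := residue_surjective (R := 𝒪) (S.red x)
    exact ⟨MvPowerSeries.C c, by rw [hFC, ← S.ker_red, map_sub, S.red_alg, hc, sub_self]⟩
  · have hmI : maximalIdeal S.R ≤ I := fun z hz => by
      have hzV : π z ∈ V := by
        show _ ∈ maximalIdeal D.R
        rw [← D.ker_red, show D.red (π z) = S.red z from RingHom.congr_fun hπr z, S.ker_red]
        exact hz
      have hsum' := congrArg Subtype.val (b.sum_repr ⟨_, hzV⟩)
      simp only [Submodule.coe_sum, Submodule.coe_smul, ← hy, Algebra.smul_def,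
        RingHom.algebraMap_toAlgebra] at hsum'
      choose u hu using fun i => hπ (sec (b.repr ⟨_, hzV⟩ i))
      simp only [← hu, ← map_mul, ← map_sum] at hsum'
      have hJz : z - ∑ i, u i * y i ∈ J := by
        rw [← hker, RingHom.mem_ker, map_sub, ← hsum', sub_self]
      rw [← sub_add_cancel z (∑ i, u i * y i)]
      refine add_mem ?_ (Ideal.sum_mem _ fun i _ => Ideal.mul_mem_left _ _ ?_)
      · refine (sup_le ?_ hI : J ≤ I) hJz
        rw [Ideal.map_le_iff_le_comap]
        exact fun a ha => Ideal.mem_comap.mpr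
          (hFC a ▸ hFI (Ideal.mem_map_of_mem F (LocalRing.C_mem_maximalIdeal ha)))
      · have e : G ⟨i, lt_of_lt_of_le i.2 hdr⟩ = y i := by simp [G]
        exact e ▸ hFX ⟨i, _⟩ ▸ hFI (Ideal.mem_map_of_mem F (LocalRing.X_mem_maximalIdeal _))
    have h5 := Ideal.map_mono (f := Ideal.Quotient.mk I) hmI (hψ x)
    rwa [Ideal.map_quotient_self, Ideal.mem_bot, sub_eq_zero] at h5

end Universal

end Fermat.Agent.TWGen
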