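import Fermat.Agent.TWGen.Unip
import Fermat.Agent.SelmerTW.Image

/-!
# The first cohomology of the twisted adjoint module vanishes

For a finite subgroup of `GL₂(k)` without stable lines, with split characteristic polynomials and
non-square determinants in `F_p`, every cocycle with values in trace zero matrices under
`A ↦ g A adj(g)` is a coboundary (`exists_coboundary`).
-/

set_option autoImplicit false

noncomputable section

open Matrix MulAction

namespace Fermat.Agent.TWGen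

variable {k : Type} [Field k]

/-- The twisted adjoint action. -/
def tw (g : GL (Fin 2) k) (A : Matrix (Fin 2) (Fin 2) k) : Matrix (Fin 2) (Fin 2) k :=
  g.val * A * g.val.adjugate

theorem tw_mul (g h : GL (Fin 2) k) (A : Matrix (Fin 2) (Fin 2) k) :
    tw (g * h) A = tw g (tw h A) := by
  simp only [tw, Units.val_mul, adjugate_mul_distrib, Matrix.mul_assoc]

theorem tw_one (A : Matrix (Fin 2) (Fin 2) k) : tw 1 A = A := by simp [tw]

theorem tw_add (g : GL (Fin 2) k) (A B : Matrix (Fin 2) (Fin 2) k) :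
    tw g (A + B) = tw g A + tw g B := by simp only [tw, Matrix.mul_add, Matrix.add_mul]

theorem tw_sub (g : GL (Fin 2) k) (A B : Matrix (Fin 2) (Fin 2) k) :
    tw g (A - B) = tw g A - tw g B := by simp only [tw, Matrix.mul_sub, Matrix.sub_mul]

theorem trace_tw (g : GL (Fin 2) k) (A : Matrix (Fin 2) (Fin 2) k) :
    (tw g A).trace = g.val.det * A.trace := by
  rw [tw, trace_mul_comm, ← Matrix.mul_assoc, adjugate_mul, Matrix.smul_mul, Matrix.one_mul,
    trace_smul, smul_eq_mul]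

theorem tw_entries {g : GL (Fin 2) k} (h : g.val 1 0 = 0) {A : Matrix (Fin 2) (Fin 2) k}
    (hA : A.trace = 0) :
    tw g A 1 0 = g.val 1 1 ^ 2 * A 1 0 ∧
    tw g A 0 0 = g.val 1 1 * (g.val 0 0 * A 0 0 + g.val 0 1 * A 1 0) ∧
    tw g A 0 1 = g.val 0 0 ^ 2 * A 0 1 - 2 * g.val 0 0 * g.val 0 1 * A 0 0
      - g.val 0 1 ^ 2 * A 1 0 := by
  rw [trace_fin_two] at hA
  have h11 : A 1 1 = -A 0 0 := by linear_combination hA
  refine ⟨?_, ?_, ?_⟩ <;>
    simp [tw, adjugate_fin_two, Matrix.mul_apply, Fin.sum_univ_two, h, h11] <;> ring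

variable {p : ℕ} [hp : Fact p.Prime] [CharP k p] [Finite k]

/-- Trace zero values and cocycle rule on `G`. -/
structure IsTwCocycle (G : Subgroup (GL (Fin 2) k)) (z : GL (Fin 2) k → Matrix (Fin 2) (Fin 2) k) :
    Prop where
  cocycle : ∀ g ∈ G, ∀ h ∈ G, z (g * h) = tw g (z h) + z g
  trace_zero : ∀ g ∈ G, (z g).trace = 0

/-- The twisted adjoint module of a subgroup. -/
def TwMat (_G : Subgroup (GL (Fin 2) k)) : Type := Matrix (Fin 2) (Fin 2) k

instance twMatAddCommGroup (G : Subgroup (GL (Fin 2) k)) : AddCommGroup (TwMat G) :=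
  inferInstanceAs (AddCommGroup (Matrix (Fin 2) (Fin 2) k))

instance twMatAction (G : Subgroup (GL (Fin 2) k)) : DistribMulAction G (TwMat G) where
  smul g A := tw (g : GL (Fin 2) k) A
  one_smul A := tw_one A
  mul_smul g h A := tw_mul (g : GL (Fin 2) k) h A
  smul_zero g := by show tw (g : GL (Fin 2) k) 0 = 0; simp [tw]
  smul_add g A B := tw_add (g : GL (Fin 2) k) A B

omit [Finite k] in
theorem two_ne_zero' (hp2 : p ≠ 2) : (2 : k) ≠ 0 := fun h => hp2
  ((Nat.prime_dvd_prime_iff_eq hp.out Nat.prime_two).1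
    ((CharP.cast_eq_zero_iff k p 2).1 (by exact_mod_cast h)))

/-- A cocycle vanishing on a subgroup of index prime to `p` is a coboundary. -/
theorem exists_of_vanish {G : Subgroup (GL (Fin 2) k)}
    (hdet : ∃ g ∈ G, g.val.det ≠ 1) {z : GL (Fin 2) k → Matrix (Fin 2) (Fin 2) k}
    (hz : IsTwCocycle G z) (P : Subgroup G) (hidx : ¬ p ∣ P.index)
    (hP : ∀ u : G, u ∈ P → z u = 0) :
    ∃ A, A.trace = 0 ∧ ∀ g ∈ G, z g = tw g A - A := by
  have htor : ∀ x : TwMat G, p • x = 0 := fun x => by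
    have h : ∀ y : Matrix (Fin 2) (Fin 2) k, p • y = 0 := fun y => by
      rw [← Nat.cast_smul_eq_nsmul k, CharP.cast_eq_zero, zero_smul]
    exact h x
  have : P.FiniteIndex := inferInstance
  obtain ⟨B, hB⟩ := SelmerTW.coboundary_of_subgroup (M := TwMat G) htor (z := fun g : G => z g)
    (fun g h => hz.cocycle g g.2 h h.2) P hidx fun u hu => hP u hu
  let B' : Matrix (Fin 2) (Fin 2) k := B
  have hB' : ∀ g ∈ G, z g = tw g B' - B' := fun g hg => hB ⟨g, hg⟩
  obtain ⟨g₁, hg₁, hg1⟩ := hdet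
  have htr : B'.trace = 0 := by
    have h1 := congrArg Matrix.trace (hB' g₁ hg₁)
    rw [hz.trace_zero g₁ hg₁, trace_sub, trace_tw, ← sub_one_mul] at h1
    exact (mul_eq_zero.mp h1.symm).resolve_left (sub_ne_zero.mpr hg1)
  exact ⟨B', htr, hB'⟩

omit [Finite k] in
/-- Subtracting a coboundary. -/
theorem IsTwCocycle.sub {G : Subgroup (GL (Fin 2) k)}
    {z : GL (Fin 2) k → Matrix (Fin 2) (Fin 2) k} (hz : IsTwCocycle G z)
    {A : Matrix (Fin 2) (Fin 2) k} (hA : A.trace = 0) :
    IsTwCocycle G fun g => z g - (tw g A - A) := by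
  refine ⟨fun g hg h hh => ?_, fun g hg => ?_⟩
  · show z (g * h) - (tw (g * h) A - A) = tw g (z h - (tw h A - A)) + (z g - (tw g A - A))
    rw [hz.cocycle g hg h hh, tw_mul, tw_sub, tw_sub]
    abel
  · rw [trace_sub, trace_sub, trace_tw, hA, hz.trace_zero g hg]
    simp

omit [Finite k] in
/-- The rules on the upper triangular part. -/
theorem IsTwCocycle.conj_rules {G : Subgroup (GL (Fin 2) k)}
    {z : GL (Fin 2) k → Matrix (Fin 2) (Fin 2) k} (hz : IsTwCocycle G z) {g : GL (Fin 2) k}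
    (hg : g ∈ G) (h : g.val 1 0 = 0) {t : k} (ht : t ∈ unipSet G) :
    let t' := g.val 0 0 / g.val 1 1 * t
    z (uMat t') 1 0 = g.val 1 1 ^ 2 * z (uMat t) 1 0 ∧
    z (uMat t') 0 0 + t' * z g 1 0 =
      g.val 1 1 * (g.val 0 0 * z (uMat t) 0 0 + g.val 0 1 * z (uMat t) 1 0) ∧
    z (uMat t') 0 1 - 2 * t' * z g 0 0 - t' ^ 2 * z g 1 0 =
      g.val 0 0 ^ 2 * z (uMat t) 0 1 - 2 * g.val 0 0 * g.val 0 1 * z (uMat t) 0 0
      - g.val 0 1 ^ 2 * z (uMat t) 1 0 := by
  intro t'
  have ht' : uMat t' ∈ G := ratio_mul_mem hg h ht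
  have e := hz.cocycle g hg _ ht
  rw [conj_uMat h, hz.cocycle _ ht' g hg] at e
  obtain ⟨a1, a2, a3⟩ := tw_entries h (hz.trace_zero _ ht)
  obtain ⟨b1, b2, b3⟩ := tw_entries (g := uMat t') (by simp) (hz.trace_zero g hg)
  have e10 := congrFun (congrFun e 1) 0
  have e00 := congrFun (congrFun e 0) 0
  have e01 := congrFun (congrFun e 0) 1
  rw [Matrix.add_apply, Matrix.add_apply, a1, b1] at e10
  rw [Matrix.add_apply, Matrix.add_apply, a2, b2] at e00
  rw [Matrix.add_apply, Matrix.add_apply, a3, b3] at e01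
  simp at e10 e00 e01
  exact ⟨by linear_combination e10, by linear_combination e00, by linear_combination e01⟩

omit [Finite k] in
/-- The rules on the upper unipotents. -/
theorem IsTwCocycle.add_rules {G : Subgroup (GL (Fin 2) k)}
    {z : GL (Fin 2) k → Matrix (Fin 2) (Fin 2) k} (hz : IsTwCocycle G z) {s t : k}
    (hs : s ∈ unipSet G) (ht : t ∈ unipSet G) :
    z (uMat (s + t)) 1 0 = z (uMat t) 1 0 + z (uMat s) 1 0 ∧
    z (uMat (s + t)) 0 0 = z (uMat t) 0 0 + s * z (uMat t) 1 0 + z (uMat s) 0 0 ∧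
    z (uMat (s + t)) 0 1 = z (uMat t) 0 1 - 2 * s * z (uMat t) 0 0 - s ^ 2 * z (uMat t) 1 0
      + z (uMat s) 0 1 := by
  obtain ⟨a1, a2, a3⟩ := tw_entries (g := uMat s) (by simp) (hz.trace_zero _ ht)
  rw [uMat_add, hz.cocycle _ hs _ ht]
  simp only [Matrix.add_apply, a1, a2, a3]
  refine ⟨?_, ?_, ?_⟩ <;> simp

omit [Finite k] in
/-- Symmetric additive data are linear. -/
theorem eq_mul_of_symm {T : Set k} {φ : k → k} {t₀ : k} (ht₀ : t₀ ≠ 0)
    (h : ∀ s ∈ T, s * φ t₀ = t₀ * φ s) : ∀ s ∈ T, φ s = φ t₀ / t₀ * s := fun s hs => by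
  rw [div_mul_eq_mul_div, eq_div_iff ht₀]
  linear_combination -(h s hs)

/-- **Vanishing, normalised form.** -/
theorem exists_coboundary_upper (hp2 : p ≠ 2) (G : Subgroup (GL (Fin 2) k))
    (hirr : ∀ v : Fin 2 → k, v ≠ 0 → ∃ g ∈ G, ∀ c : k, g.val.mulVec v ≠ c • v)
    (hsplit : ∀ g ∈ G, ∃ α β : k, g.val 0 0 + g.val 1 1 = α + β ∧ g.val.det = α * β)
    (hns : ∃ g ∈ G, g.val.det ^ ((p - 1) / 2) ≠ 1)
    {t₀ : k} (ht₀ : t₀ ≠ 0) (ht : uMat t₀ ∈ G)
    (z : GL (Fin 2) k → Matrix (Fin 2) (Fin 2) k) (hz : IsTwCocycle G z) :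
    ∃ A, A.trace = 0 ∧ ∀ g ∈ G, z g = tw g A - A := by
  classical
  have h20 := two_ne_zero' (k := k) hp2
  obtain ⟨P, hP⟩ := exists_sylow_unip (p := p) ht₀ ht
  have hbound := natCard_unipSet_le hp2 hirr hsplit ht₀ ht
  set T := unipSet G with hT
  have ht0 : t₀ ∈ T := ht
  have hHup : ∀ g : stabilizer (detOne G) (pt₀ k), ((g.1 : detOne G) : GL (Fin 2) k) ∈ G ∧
      ((g.1 : detOne G) : GL (Fin 2) k).val 1 0 = 0 ∧
      ((g.1 : detOne G) : GL (Fin 2) k).val 0 0 * ((g.1 : detOne G) : GL (Fin 2) k).val 1 1 = 1 :=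
    fun g => by
    have h10 : ((g.1 : detOne G) : GL (Fin 2) k).val 1 0 = 0 := smul_pt₀_iff.mp g.2
    obtain ⟨h1, h2⟩ := mem_detOne.mp g.1.2
    rw [det_fin_two, h10, mul_zero, sub_zero] at h2
    exact ⟨h1, h10, h2⟩
  -- an upper triangular element with non-square determinant
  obtain ⟨g₀, hg₀, hg₀u, hg₀d⟩ : ∃ g ∈ G, g.val 1 0 = 0 ∧ g.val.det ^ ((p - 1) / 2) ≠ 1 := by
    let χ : G →* kˣ :=
      (powMonoidHom ((p - 1) / 2)).comp (GeneralLinearGroup.det.comp G.subtype)
    have hPχ : (P : Subgroup G) ≤ χ.ker := fun u hu => by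
      rw [hP] at hu
      obtain ⟨t, htu⟩ := hu
      rw [MonoidHom.mem_ker, Units.ext_iff]
      show ((u : GL (Fin 2) k).val.det) ^ ((p - 1) / 2) = 1
      rw [htu]
      simp [det_fin_two]
    obtain ⟨g, hg, hgd⟩ := hns
    by_contra hcon
    push Not at hcon
    have hle : Subgroup.normalizer (P : Set G) ≤ χ.ker := fun n hn => by
      rw [MonoidHom.mem_ker, Units.ext_iff]
      show ((n : GL (Fin 2) k).val.det) ^ ((p - 1) / 2) = 1
      refine hcon _ n.2 ?_
      have h1 : n * ⟨uMat t₀, ht⟩ * n⁻¹ ∈ (P : Subgroup G) :=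
        (Subgroup.mem_normalizer_iff.mp hn _).mp (hP ▸ ⟨t₀, rfl⟩)
      rw [hP] at h1
      obtain ⟨s, hs⟩ := h1
      exact upper_of_conj ht₀ hs
    have h2 := Sylow.normalizer_sup_eq_top' P hPχ
    have h3 : (⟨g, hg⟩ : G) ∈ χ.ker := by
      have : Subgroup.normalizer (P : Set G) ⊔ χ.ker ≤ χ.ker := sup_le hle le_rfl
      exact this (h2 ▸ Subgroup.mem_top _)
    exact hgd (Units.ext_iff.mp (MonoidHom.mem_ker.mp h3))
  -- the lower left entries are linear, hence zero
  set c := z (uMat t₀) 1 0 / t₀ with hc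
  have hf : ∀ s ∈ T, z (uMat s) 1 0 = c * s := by
    refine eq_mul_of_symm (φ := fun s => z (uMat s) 1 0) (T := (T : Set k)) ht₀ fun s hs => ?_
    have h1 := (hz.add_rules hs ht0).2.1
    have h2 := (hz.add_rules ht0 hs).2.1
    rw [add_comm] at h2
    linear_combination h2 - h1
  have hc0 : c = 0 := by
    by_contra hc0
    have hr : ∀ g ∈ G, g.val 1 0 = 0 → g.val 0 0 / g.val 1 1 = g.val 1 1 ^ 2 := fun g hg h => by
      have h1 := (hz.conj_rules hg h ht0).1
      rw [hf _ (ratio_mul_mem hg h ht0), hf _ ht0] at h1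
      refine mul_right_cancel₀ (mul_ne_zero hc0 ht₀) ?_
      linear_combination h1
    have he : Nat.card (Set.range (ratioHom (detOne G))) ≤ 2 := by
      refine (Nat.card_mono (Set.toFinite ({1, -1} : Set k)) ?_).trans ?_
      · rintro _ ⟨g, rfl⟩
        obtain ⟨hg, h, hd⟩ := hHup g
        have h1 := hr _ hg h
        have h2 := (diag_ne_zero h).2
        set α := ((g.1 : detOne G) : GL (Fin 2) k).val 0 0
        set δ := ((g.1 : detOne G) : GL (Fin 2) k).val 1 1
        show α / δ ∈ ({1, -1} : Set k)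
        rw [h1, Set.mem_insert_iff, Set.mem_singleton_iff]
        refine mul_self_eq_one_iff.mp ?_
        rw [div_eq_iff h2] at h1
        linear_combination hd - δ * h1
      · rw [Nat.card_coe_set_eq]
        exact (Set.ncard_insert_le _ _).trans (by simp)
    have hp3 : 3 ≤ p := lt_of_le_of_ne hp.out.two_le (Ne.symm hp2)
    have hord : addOrderOf (⟨t₀, ht0⟩ : T) = p :=
      addOrderOf_eq_prime (Subtype.ext (by simp)) (fun h => ht₀ (congrArg Subtype.val h))
    have hTp : Nat.card T = p := by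
      obtain ⟨m, hm⟩ := hord ▸ addOrderOf_dvd_natCard (⟨t₀, ht0⟩ : T)
      have hm0 : m ≠ 0 := fun h => Nat.card_pos.ne' (hm.trans (by rw [h, mul_zero]))
      have : m < 2 := by
        by_contra hm2
        have := Nat.mul_le_mul_left p (not_lt.mp hm2)
        omega
      rw [hm, show m = 1 by omega, mul_one]
    have htop : AddSubgroup.zmultiples (⟨t₀, ht0⟩ : T) = ⊤ :=
      AddSubgroup.eq_top_of_card_eq _ (by rw [Nat.card_zmultiples, hord, hTp])
    obtain ⟨i, hi⟩ := AddSubgroup.mem_zmultiples_iff.mp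
      (htop ▸ AddSubgroup.mem_top (⟨_, ratio_mul_mem hg₀ hg₀u ht0⟩ : T))
    have hi' : g₀.val 0 0 / g₀.val 1 1 = (i : k) := by
      have h1 := congrArg Subtype.val hi
      simp only [AddSubgroup.coe_zsmul, zsmul_eq_mul] at h1
      exact (mul_right_cancel₀ ht₀ h1).symm
    refine hg₀d ?_
    have hne := diag_ne_zero hg₀u
    have h1 := hr _ hg₀ hg₀u
    rw [div_eq_iff hne.2] at h1
    have hdd : g₀.val.det = (i : k) ^ 2 := by
      rw [← hi', det_fin_two, hg₀u, mul_zero, sub_zero, h1]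
      field_simp
    have hi0 : (i : ZMod p) ≠ 0 := fun h => by
      have := congrArg (ZMod.castHom (dvd_refl p) k) h
      rw [map_intCast, map_zero, ← hi', div_eq_zero_iff] at this
      rcases this with h | h
      exacts [hne.1 h, hne.2 h]
    rw [hdd, ← pow_mul, Nat.two_mul_div_two_of_even (hp.out.even_sub_one hp2),
      ← map_intCast (ZMod.castHom (dvd_refl p) k), ← map_pow, ZMod.pow_card_sub_one_eq_one hi0,
      map_one]
  -- normalise the diagonal entries
  set d := z (uMat t₀) 0 0 / t₀ with hd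
  have hD : ∀ s ∈ T, z (uMat s) 0 0 = d * s := by
    refine eq_mul_of_symm (φ := fun s => z (uMat s) 0 0) (T := (T : Set k)) ht₀ fun s hs => ?_
    have h1 := (hz.add_rules hs ht0).2.2
    have h2 := (hz.add_rules ht0 hs).2.2
    rw [add_comm] at h2
    rw [hf _ hs, hc0] at h2
    rw [hf _ ht0, hc0] at h1
    refine mul_left_cancel₀ h20 ?_
    linear_combination h1 - h2
  have hA₁ : (!![0, 0; d, 0] : Matrix (Fin 2) (Fin 2) k).trace = 0 := by simp [trace_fin_two]
  set z₁ := fun g => z g - (tw g !![0, 0; d, 0] - !![0, 0; d, 0]) with hz₁def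
  have hz₁ : IsTwCocycle G z₁ := hz.sub hA₁
  have hz₁0 : ∀ s ∈ T, z₁ (uMat s) 1 0 = 0 ∧ z₁ (uMat s) 0 0 = 0 := fun s hs => by
    obtain ⟨a1, a2, -⟩ := tw_entries (g := uMat s) (by simp) hA₁
    simp only [hz₁def, Matrix.sub_apply, a1, a2, hf s hs, hD s hs, hc0]
    constructor <;> simp [mul_comm]
  -- the upper right entries are linear
  have hadd : ∀ s ∈ T, ∀ t ∈ T, z₁ (uMat (s + t)) 0 1 = z₁ (uMat s) 0 1 + z₁ (uMat t) 0 1 :=
    fun s hs t ht => by
      rw [(hz₁.add_rules hs ht).2.2, (hz₁0 t ht).1, (hz₁0 t ht).2]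
      ring
  set R := Set.range (ratioHom (detOne G)) with hR
  set K := Subring.closure R with hK
  have hrT : ∀ r ∈ R, ∀ t ∈ T, r * t ∈ T := by
    rintro _ ⟨g, rfl⟩ t ht
    exact ratio_mul_mem (hHup g).1 (hHup g).2.1 ht
  have hKT : ∀ x ∈ K, ∀ t ∈ T, x * t ∈ T := by
    intro x hx
    induction hx using Subring.closure_induction with
    | mem y hy => exact hrT y hy
    | zero => exact fun t _ => by rw [zero_mul]; exact T.zero_mem
    | one => exact fun t ht => by rwa [one_mul]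
    | add a b _ _ ha hb => exact fun t ht => by rw [add_mul]; exact T.add_mem (ha t ht) (hb t ht)
    | neg a _ ha => exact fun t ht => by rw [neg_mul]; exact T.neg_mem (ha t ht)
    | mul a b _ _ ha hb => exact fun t ht => by rw [mul_assoc]; exact ha _ (hb t ht)
  let : Fintype k := Fintype.ofFinite k
  have hKinv : ∀ x ∈ K, x⁻¹ ∈ K := fun x hx => by
    rcases eq_or_ne x 0 with rfl | hx0
    · rw [_root_.inv_zero]; exact K.zero_mem
    · rw [inv_eq_of_mul_eq_one_right (show x * x ^ (Fintype.card k - 2) = 1 by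
        rw [← pow_succ', show Fintype.card k - 2 + 1 = Fintype.card k - 1 by
          have := Fintype.one_lt_card (α := k); omega, FiniteField.pow_card_sub_one_eq_one x hx0])]
      exact pow_mem hx _
  have hgenT : ∀ t ∈ T, ∃ x ∈ K, t = x * t₀ := by
    by_contra hcon
    push Not at hcon
    obtain ⟨t₁, ht₁, hne⟩ := hcon
    have hinj : Function.Injective (fun x : K × K => (⟨x.1.1 * t₀ + x.2.1 * t₁,
        T.add_mem (hKT _ x.1.2 _ ht0) (hKT _ x.2.2 _ ht₁)⟩ : T)) := by
      rintro ⟨a, b⟩ ⟨a', b'⟩ h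
      have h1 := congrArg Subtype.val h
      simp only at h1
      by_cases hb : (b : k) = b'
      · rw [hb] at h1
        exact Prod.ext (Subtype.ext (mul_right_cancel₀ ht₀ (add_right_cancel h1))) (Subtype.ext hb)
      · exfalso
        refine hne (((a' : k) - a) * ((b : k) - b')⁻¹)
          (K.mul_mem (K.sub_mem a'.2 a.2) (hKinv _ (K.sub_mem b.2 b'.2))) ?_
        field_simp [sub_ne_zero.mpr hb]
        linear_combination h1
    have h1 := Nat.card_le_card_of_injective _ hinj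
    rw [Nat.card_prod] at h1
    have h2 : Nat.card R + 1 ≤ Nat.card K := by
      have hsub : insert (0 : k) R ⊆ (K : Set k) :=
        Set.insert_subset K.zero_mem Subring.subset_closure
      have h3 := Set.ncard_le_ncard hsub (Set.toFinite _)
      rw [Set.ncard_insert_of_notMem (by
        rintro ⟨g, hg⟩
        rcases div_eq_zero_iff.mp hg with h | h
        exacts [(diag_ne_zero (hHup g).2.1).1 h, (diag_ne_zero (hHup g).2.1).2 h]) (Set.toFinite _)]
        at h3
      rwa [← Nat.card_coe_set_eq, ← Nat.card_coe_set_eq] at h3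
    have h4 : 1 ≤ Nat.card R :=
      haveI : Nonempty R := ⟨⟨_, 1, rfl⟩⟩
      Nat.card_pos
    nlinarith
  let E : k → k := fun x => z₁ (uMat (x * t₀)) 0 1 / t₀ - x * (z₁ (uMat t₀) 0 1 / t₀)
  have hE1 : E 1 = 0 := by simp [E]
  have hEadd : ∀ x ∈ K, ∀ y ∈ K, E (x + y) = E x + E y := fun x hx y hy => by
    simp only [E]
    rw [add_mul x y t₀, hadd _ (hKT _ hx _ ht0) _ (hKT _ hy _ ht0)]
    ring
  have hE0 : E 0 = 0 := by
    have := hEadd 0 K.zero_mem 0 K.zero_mem
    rwa [add_zero, left_eq_add] at this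
  have hEneg : ∀ x ∈ K, E (-x) = -E x := fun x hx => by
    have := hEadd x hx (-x) (K.neg_mem hx)
    rw [add_neg_cancel, hE0] at this
    linear_combination -this
  have hlaw : ∀ x ∈ K, ∀ y ∈ K, E (x * y) = x * E y + E x * y := by
    intro x hx
    induction hx using Subring.closure_induction with
    | mem r hr =>
      obtain ⟨g, rfl⟩ := hr
      obtain ⟨hg, h10, hd1⟩ := hHup g
      set G₁ := ((g.1 : detOne G) : GL (Fin 2) k)
      have hratio : ratioHom (detOne G) g = G₁.val 0 0 / G₁.val 1 1 := rfl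
      have hne := diag_ne_zero h10
      have hsq : G₁.val 0 0 ^ 2 = G₁.val 0 0 / G₁.val 1 1 := by
        rw [eq_div_iff hne.2]
        linear_combination G₁.val 0 0 * hd1
      have hw : z₁ G₁ 1 0 = 0 := by
        have h1 := (hz₁.conj_rules hg h10 ht0).2.1
        rw [(hz₁0 _ (ratio_mul_mem hg h10 ht0)).2, (hz₁0 _ ht0).1, (hz₁0 _ ht0).2] at h1
        simp only [mul_zero, add_zero, zero_add] at h1
        exact (mul_eq_zero.mp h1).resolve_left
          (mul_ne_zero (div_ne_zero hne.1 hne.2) ht₀)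
      have key : ∀ y ∈ K, E (ratioHom (detOne G) g * y) =
          ratioHom (detOne G) g * E y + 2 * z₁ G₁ 0 0 * ratioHom (detOne G) g * y := by
        intro y hy
        have h1 := (hz₁.conj_rules hg h10 (hKT y hy _ ht0)).2.2
        rw [(hz₁0 _ (hKT y hy _ ht0)).1, (hz₁0 _ (hKT y hy _ ht0)).2, hw, hsq, ← hratio] at h1
        simp only [E]
        rw [mul_assoc (ratioHom (detOne G) g) y t₀]
        generalize z₁ (uMat (ratioHom (detOne G) g * (y * t₀))) 0 1 = a at h1 ⊢
        generalize z₁ (uMat (y * t₀)) 0 1 = b at h1 ⊢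
        field_simp
        linear_combination h1
      intro y hy
      have h1 := key 1 K.one_mem
      rw [mul_one, hE1] at h1
      rw [key y hy, h1]
      ring
    | zero => exact fun y _ => by rw [zero_mul, hE0]; ring
    | one => exact fun y _ => by rw [one_mul, hE1]; ring
    | add a b ha' hb' ha hb =>
      exact fun y hy => by
        rw [add_mul, hEadd _ (K.mul_mem ha' hy) _ (K.mul_mem hb' hy), ha y hy, hb y hy,
          hEadd a ha' b hb']
        ring
    | neg a ha' ha =>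
      exact fun y hy => by
        rw [neg_mul, hEneg _ (K.mul_mem ha' hy), ha y hy, hEneg a ha']
        ring
    | mul a b ha' hb' ha hb =>
      exact fun y hy => by
        rw [mul_assoc, ha _ (K.mul_mem hb' hy), hb y hy, ha b hb']
        ring
  have hEK : ∀ x ∈ K, E x = 0 := fun x hx => by
    have hpow : ∀ n : ℕ, E (x ^ (n + 1)) = ((n + 1 : ℕ) : k) * x ^ n * E x := by
      intro n
      induction n with
      | zero => simp
      | succ n ih =>
        rw [pow_succ' x (n + 1), hlaw x hx _ (pow_mem hx _), ih]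
        push_cast
        ring
    have h1 := hpow (Fintype.card k - 1)
    rw [Nat.sub_add_cancel (Fintype.card_pos (α := k)), FiniteField.pow_card,
      FiniteField.cast_card_eq_zero, zero_mul,
      zero_mul] at h1
    exact h1
  set l := z₁ (uMat t₀) 0 1 / t₀ with hl
  have hlin : ∀ t ∈ T, z₁ (uMat t) 0 1 = l * t := fun t ht => by
    obtain ⟨x, hx, rfl⟩ := hgenT t ht
    have h1 := hEK x hx
    simp only [E, sub_eq_zero, div_eq_iff ht₀] at h1
    linear_combination h1
  -- subtract the last coboundary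
  have hA₂ : (!![-l / 2, 0; 0, l / 2] : Matrix (Fin 2) (Fin 2) k).trace = 0 := by
    rw [trace_fin_two]
    show -l / 2 + l / 2 = 0
    rw [neg_div, neg_add_cancel]
  have hz₂ := hz₁.sub hA₂
  obtain ⟨g₁, hg₁, hg1⟩ := hns
  obtain ⟨A, hA, hzA⟩ := exists_of_vanish (p := p)
    ⟨g₁, hg₁, fun h => hg1 (by rw [h, one_pow])⟩ hz₂ (unipSub G) (hP ▸ P.not_dvd_index)
    (fun u hu => by
      obtain ⟨t, htu⟩ := hu
      have htT : t ∈ T := show uMat t ∈ G from htu ▸ u.2
      obtain ⟨a1, a2, a3⟩ := tw_entries (g := uMat t) (by simp) hA₂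
      rw [htu]
      have hzero : ∀ M : Matrix (Fin 2) (Fin 2) k, M.trace = 0 → M 1 0 = 0 → M 0 0 = 0 →
          M 0 1 = 0 → M = 0 := fun M h0 h1 h2 h3 => by
        rw [trace_fin_two, h2, zero_add] at h0
        ext i j
        fin_cases i <;> fin_cases j <;> assumption
      refine hzero _ (hz₂.trace_zero _ htT) ?_ ?_ ?_
      · rw [Matrix.sub_apply, Matrix.sub_apply, a1, (hz₁0 t htT).1]; simp
      · rw [Matrix.sub_apply, Matrix.sub_apply, a2, (hz₁0 t htT).2]; simp
      · rw [Matrix.sub_apply, Matrix.sub_apply, a3, hlin t htT]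
        simp
        field_simp
        ring)
  refine ⟨A + (!![-l / 2, 0; 0, l / 2] + !![0, 0; d, 0]),
    by rw [trace_add, trace_add, hA, hA₂, hA₁, add_zero, add_zero], fun g hg => ?_⟩
  have h := hzA g hg
  simp only [hz₁def] at h
  rw [tw_add, tw_add, sub_eq_iff_eq_add.mp (sub_eq_iff_eq_add.mp h)]
  abel

/-- **Vanishing of the twisted adjoint cohomology.** -/
theorem exists_coboundary (hp2 : p ≠ 2) (G : Subgroup (GL (Fin 2) k))
    (hirr : ∀ v : Fin 2 → k, v ≠ 0 → ∃ g ∈ G, ∀ c : k, g.val.mulVec v ≠ c • v)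
    (hsplit : ∀ g ∈ G, ∃ α β : k, g.val.trace = α + β ∧ g.val.det = α * β)
    (hns : ∃ g ∈ G, g.val.det ^ ((p - 1) / 2) ≠ 1)
    (z : GL (Fin 2) k → Matrix (Fin 2) (Fin 2) k) (hz : IsTwCocycle G z) :
    ∃ A, A.trace = 0 ∧ ∀ g ∈ G, z g = tw g A - A := by
  classical
  by_cases hpG : p ∣ Nat.card G
  swap
  · obtain ⟨g₁, hg₁, hg1⟩ := hns
    refine exists_of_vanish (p := p) ⟨g₁, hg₁, fun h => hg1 (by rw [h, one_pow])⟩ hz ⊥
      (by rwa [Subgroup.index_bot]) fun u hu => ?_
    rw [Subgroup.mem_bot] at hu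
    have h := hz.cocycle 1 G.one_mem 1 G.one_mem
    rw [mul_one, tw_one, left_eq_add] at h
    rw [hu]
    exact h
  obtain ⟨u, hu⟩ := exists_prime_orderOf_dvd_card' p hpG
  set N : Matrix (Fin 2) (Fin 2) k := (u : GL (Fin 2) k).val - 1 with hN
  have hup : (u : GL (Fin 2) k).val ^ p = 1 := by
    rw [← Units.val_pow_eq_pow_val, ← SubmonoidClass.coe_pow, ← hu, pow_orderOf_eq_one]
    rfl
  obtain ⟨hN2, hNt⟩ := SelmerTW.mul_self_eq_zero_of_isNilpotent
    (show IsNilpotent N from ⟨p, by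
      rw [hN, sub_pow_char_of_commute _ (Commute.one_right _), one_pow, hup, sub_self]⟩)
  have hN0 : N ≠ 0 := fun h => hp.out.ne_one (by
    rw [← hu, orderOf_eq_one_iff]
    exact Subtype.ext (Units.ext (sub_eq_zero.mp h)))
  obtain ⟨b, hb, hbd⟩ : ∃ b : Fin 2 → k, N.mulVec b ≠ 0 ∧
      (!![N.mulVec b 0, b 0; N.mulVec b 1, b 1] : Matrix (Fin 2) (Fin 2) k).det ≠ 0 := by
    obtain ⟨b, hb⟩ : ∃ b, N.mulVec b ≠ 0 := by
      by_contra h
      push Not at h
      exact hN0 (Matrix.ext_of_mulVec_single fun i => by rw [h, Matrix.zero_mulVec])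
    refine ⟨b, hb, fun hd => hb ?_⟩
    set v := N.mulVec b with hv
    have hNv : N.mulVec v = 0 := by rw [hv, mulVec_mulVec, hN2, zero_mulVec]
    rw [det_fin_two] at hd
    simp at hd
    by_cases hv0 : v 0 = 0
    · have hv1 : v 1 ≠ 0 := fun h => hb (funext fun i => by fin_cases i <;> simp [hv0, h])
      have hb0 : b 0 = 0 := by
        rw [hv0, zero_mul, zero_sub, neg_eq_zero, mul_eq_zero] at hd
        exact hd.resolve_right hv1
      have hbv : b = (b 1 / v 1) • v := funext fun i => by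
        fin_cases i <;> simp [hb0, hv0, div_mul_cancel₀ _ hv1]
      rw [hv, hbv, mulVec_smul, hNv, smul_zero]
    · have hbv : b = (b 0 / v 0) • v := funext fun i => by
        fin_cases i <;> simp [div_mul_cancel₀ _ hv0]
        field_simp
        linear_combination hd
      rw [hv, hbv, mulVec_smul, hNv, smul_zero]
  set C : GL (Fin 2) k := GeneralLinearGroup.mkOfDetNeZero _ hbd with hC
  have hCu : C⁻¹ * (u : GL (Fin 2) k) * C = uMat 1 := by
    rw [mul_assoc, inv_mul_eq_iff_eq_mul]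
    refine Units.ext ?_
    have hNv : N.mulVec (N.mulVec b) = 0 := by rw [mulVec_mulVec, hN2, zero_mulVec]
    have hu' : (u : GL (Fin 2) k).val = N + 1 := by rw [hN, sub_add_cancel]
    have a0 := congrFun hNv 0
    have a1 := congrFun hNv 1
    simp [mulVec, dotProduct, Fin.sum_univ_two] at a0 a1
    ext i j
    fin_cases i <;> fin_cases j <;>
      simp [hC, hu', GeneralLinearGroup.mkOfDetNeZero, Matrix.mul_apply, Fin.sum_univ_two, mulVec,
        dotProduct] <;>
      first | linear_combination a0 | linear_combination a1 | ring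
  let G' : Subgroup (GL (Fin 2) k) := G.comap (MulAut.conj C).toMonoidHom
  have hmem : ∀ g, g ∈ G' ↔ C * g * C⁻¹ ∈ G := fun g => Iff.rfl
  have hback : ∀ g ∈ G, C⁻¹ * g * C ∈ G' := fun g hg => by
    rw [hmem, show C * (C⁻¹ * g * C) * C⁻¹ = g by group]; exact hg
  let z' : GL (Fin 2) k → Matrix (Fin 2) (Fin 2) k := fun g => tw C⁻¹ (z (C * g * C⁻¹))
  have hz' : IsTwCocycle G' z' := ⟨fun g hg h hh => by
      show tw C⁻¹ (z (C * (g * h) * C⁻¹)) = tw g (tw C⁻¹ (z (C * h * C⁻¹))) + _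
      rw [show C * (g * h) * C⁻¹ = C * g * C⁻¹ * (C * h * C⁻¹) by group,
        hz.cocycle _ ((hmem g).mp hg) _ ((hmem h).mp hh), tw_add, ← tw_mul, ← tw_mul,
        show C⁻¹ * (C * g * C⁻¹) = g * C⁻¹ by group],
    fun g hg => by rw [trace_tw, hz.trace_zero _ ((hmem g).mp hg), mul_zero]⟩
  have hdetc : ∀ g : GL (Fin 2) k, (C * g * C⁻¹).val.det = g.val.det := fun g => by
    rw [Units.val_mul, Units.val_mul, det_units_conj]
  obtain ⟨A, hA, hzA⟩ := exists_coboundary_upper hp2 G' (fun v hv => by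
      have hCv : C.val.mulVec v ≠ 0 := fun h => hv (by
        have h1 := congrArg (C⁻¹).val.mulVec h
        rwa [mulVec_mulVec, ← Units.val_mul, inv_mul_cancel, Units.val_one, one_mulVec,
          mulVec_zero] at h1)
      obtain ⟨g, hg, hgc⟩ := hirr _ hCv
      refine ⟨_, hback g hg, fun c hc => hgc c ?_⟩
      rw [Units.val_mul, Units.val_mul, ← mulVec_mulVec, ← mulVec_mulVec] at hc
      have h1 := congrArg C.val.mulVec hc
      rwa [mulVec_mulVec, ← Units.val_mul, mul_inv_cancel, Units.val_one, one_mulVec,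
        mulVec_smul] at h1)
    (fun g hg => by
      obtain ⟨α, β, h1, h2⟩ := hsplit _ ((hmem g).mp hg)
      refine ⟨α, β, ?_, by rw [← hdetc g, h2]⟩
      rw [← h1, ← trace_fin_two, Units.val_mul, Units.val_mul, trace_units_conj])
    (by
      obtain ⟨g, hg, h⟩ := hns
      refine ⟨_, hback g hg, ?_⟩
      rwa [← hdetc (C⁻¹ * g * C), show C * (C⁻¹ * g * C) * C⁻¹ = g by group])
    one_ne_zero (hCu ▸ hback _ u.2) z' hz'
  refine ⟨tw C A, by rw [trace_tw, hA, mul_zero], fun g hg => ?_⟩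
  have h := congrArg (tw C) (hzA _ (hback g hg))
  simp only [z', tw_sub, ← tw_mul] at h
  rw [mul_inv_cancel, tw_one, show C * (C⁻¹ * g * C) * C⁻¹ = g by group,
    show C * (C⁻¹ * g * C) = g * C by group] at h
  rw [h, tw_mul]

end Fermat.Agent.TWGen
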