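import Fermat.Agent.TWGen.Count

/-!
# Unipotent subgroups of finite subgroups of `GL₂`

For a subgroup `G` of `GL₂(k)` containing a nontrivial upper unipotent, the upper unipotents form a
Sylow `p`-subgroup (`exists_sylow_unip`), and if `G` has no stable line the torus normalising it is
large (`natCard_unipSet_le`).
-/

set_option autoImplicit false

noncomputable section

open Matrix MulAction
open scoped LinearAlgebra.Projectivization Pointwise

namespace Fermat.Agent.TWGen

variable {k : Type} [Field k]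

/-- The upper unipotent. -/
def uMat (t : k) : GL (Fin 2) k :=
  GeneralLinearGroup.mkOfDetNeZero !![1, t; 0, 1] (by simp [det_fin_two])

@[simp] theorem uMat_val (t : k) : (uMat t).val = !![1, t; 0, 1] := rfl

theorem uMat_add (s t : k) : uMat (s + t) = uMat s * uMat t := Units.ext (by
  ext i j
  fin_cases i <;> fin_cases j <;> simp [Matrix.mul_apply, Fin.sum_univ_two, add_comm])

theorem uMat_zero : uMat (0 : k) = 1 := Units.ext (by
  ext i j; fin_cases i <;> fin_cases j <;> simp)

theorem uMat_neg (t : k) : uMat (-t) = (uMat t)⁻¹ :=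
  eq_inv_of_mul_eq_one_left (by rw [← uMat_add, neg_add_cancel, uMat_zero])

theorem uMat_nsmul (n : ℕ) (t : k) : uMat (n • t) = uMat t ^ n := by
  induction n with
  | zero => simp [uMat_zero]
  | succ n ih => rw [succ_nsmul, uMat_add, ih, pow_succ]

/-- The parameters of the upper unipotents of `G`. -/
def unipSet (G : Subgroup (GL (Fin 2) k)) : AddSubgroup k where
  carrier := {t | uMat t ∈ G}
  zero_mem' := by simp [uMat_zero]
  add_mem' {s t} hs ht := by
    show uMat (s + t) ∈ G
    rw [uMat_add]; exact mul_mem hs ht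
  neg_mem' {t} ht := by
    show uMat (-t) ∈ G
    rw [uMat_neg]; exact inv_mem ht

theorem mem_unipSet {G : Subgroup (GL (Fin 2) k)} {t : k} : t ∈ unipSet G ↔ uMat t ∈ G := Iff.rfl

/-- The group of upper unipotents of `G`. -/
def unipSub (G : Subgroup (GL (Fin 2) k)) : Subgroup G where
  carrier := {g | ∃ t, (g : GL (Fin 2) k) = uMat t}
  one_mem' := ⟨0, uMat_zero.symm⟩
  mul_mem' {a b} := fun ⟨s, hs⟩ ⟨t, ht⟩ => ⟨s + t, by rw [uMat_add, ← hs, ← ht]; rfl⟩
  inv_mem' {a} := fun ⟨s, hs⟩ => ⟨-s, by rw [uMat_neg, ← hs]; rfl⟩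

variable {p : ℕ} [hp : Fact p.Prime] [CharP k p] [Finite k] {G : Subgroup (GL (Fin 2) k)}

omit hp [Finite k] in
theorem uMat_pow_p (t : k) : uMat t ^ p = 1 := by
  rw [← uMat_nsmul, nsmul_eq_mul, CharP.cast_eq_zero, zero_mul, uMat_zero]

omit [Finite k] in
theorem det_eq_one_of_isPGroup {Q : Subgroup G} (hQ : IsPGroup p Q) {g : G} (hg : g ∈ Q) :
    (g : GL (Fin 2) k).val.det = 1 := by
  obtain ⟨j, hj⟩ := hQ ⟨g, hg⟩
  have h1 : ((g : GL (Fin 2) k)).val.det ^ p ^ j = 1 := by
    have h2 := congrArg (fun x : Q => ((x : G) : GL (Fin 2) k).val.det) hj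
    simpa [det_pow] using h2
  exact pow_one ((g : GL (Fin 2) k).val.det) ▸ (ExpChar.pow_prime_pow_mul_eq_one_iff p j 1 _).mp
    (by rwa [mul_one])

variable (G) in
omit hp [Finite k] in
theorem isPGroup_unipSub : IsPGroup p (unipSub G) := fun g => by
  obtain ⟨t, ht⟩ := g.2
  refine ⟨1, Subtype.ext (Subtype.ext ?_)⟩
  rw [pow_one]
  show ((g : G) : GL (Fin 2) k) ^ p = 1
  rw [ht, uMat_pow_p]

/-- The upper unipotents form a Sylow subgroup as soon as there is one. -/
theorem exists_sylow_unip {t₀ : k} (ht₀ : t₀ ≠ 0) (ht : uMat t₀ ∈ G) :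
    ∃ P : Sylow p G, (P : Subgroup G) = unipSub G := by
  classical
  refine ⟨⟨unipSub G, isPGroup_unipSub G, fun {Q} hQ hle => le_antisymm (fun g hg => ?_) hle⟩, rfl⟩
  let : Fintype k := Fintype.ofFinite k
  have hdvd : p ∣ Nat.card (Fin 2 → k) := by
    rw [Nat.card_fun, Nat.card_eq_fintype_card, Nat.card_eq_fintype_card, Fintype.card_fin]
    obtain ⟨n, -, hn⟩ := FiniteField.card k p
    rw [hn, ← pow_mul]
    exact dvd_pow_self p (by simp)
  have h0 : (0 : Fin 2 → k) ∈ fixedPoints Q (Fin 2 → k) := fun x => smul_zero x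
  obtain ⟨v, hv, hv0⟩ := hQ.exists_fixed_point_of_prime_dvd_card_of_fixed_point (Fin 2 → k) hdvd h0
  have hu : (⟨uMat t₀, ht⟩ : G) ∈ Q := hle ⟨t₀, rfl⟩
  have hvu : (uMat t₀).val.mulVec v = v := hv ⟨_, hu⟩
  have hv1 : v 1 = 0 := by
    have := congrFun hvu 0
    simp [mulVec, dotProduct, Fin.sum_univ_two] at this
    exact this.resolve_left ht₀
  have hv00 : v 0 ≠ 0 := fun h => hv0.symm (by
    funext i; fin_cases i <;> simp [h, hv1])
  have hgv : (g : GL (Fin 2) k).val.mulVec v = v := hv ⟨g, hg⟩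
  have e10 : (g : GL (Fin 2) k).val 1 0 = 0 := by
    have := congrFun hgv 1
    simp [mulVec, dotProduct, Fin.sum_univ_two, hv1] at this
    exact this.resolve_right hv00
  have e00 : (g : GL (Fin 2) k).val 0 0 = 1 := by
    have := congrFun hgv 0
    simp [mulVec, dotProduct, Fin.sum_univ_two, hv1] at this
    exact (mul_eq_right₀ hv00).mp this
  have e11 : (g : GL (Fin 2) k).val 1 1 = 1 := by
    have := det_eq_one_of_isPGroup hQ hg
    rwa [det_fin_two, e10, e00, mul_zero, sub_zero, one_mul] at this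
  refine ⟨(g : GL (Fin 2) k).val 0 1, Units.ext ?_⟩
  ext i j
  fin_cases i <;> fin_cases j <;> simp [e00, e10, e11]

omit [Finite k] hp [CharP k p] in
theorem diag_ne_zero {g : GL (Fin 2) k} (h : g.val 1 0 = 0) : g.val 0 0 ≠ 0 ∧ g.val 1 1 ≠ 0 := by
  have hd : g.val.det ≠ 0 := ((Matrix.isUnit_iff_isUnit_det _).mp g.isUnit).ne_zero
  rw [det_fin_two, h, mul_zero, sub_zero] at hd
  exact ⟨left_ne_zero_of_mul hd, right_ne_zero_of_mul hd⟩

omit [Finite k] hp [CharP k p] in
/-- Conjugating an upper unipotent by an upper triangular matrix. -/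
theorem conj_uMat {g : GL (Fin 2) k} (h : g.val 1 0 = 0) (t : k) :
    g * uMat t = uMat (g.val 0 0 / g.val 1 1 * t) * g := Units.ext (by
  have := (diag_ne_zero h).2
  ext i j
  fin_cases i <;> fin_cases j <;> simp [Matrix.mul_apply, Fin.sum_univ_two, h]
  field_simp
  ring)

omit [Finite k] hp [CharP k p] in
theorem ratio_mul_mem {g : GL (Fin 2) k} (hg : g ∈ G) (h : g.val 1 0 = 0) {t : k}
    (ht : t ∈ unipSet G) : g.val 0 0 / g.val 1 1 * t ∈ unipSet G := by
  rw [mem_unipSet, show uMat (g.val 0 0 / g.val 1 1 * t) = g * uMat t * g⁻¹ by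
    rw [conj_uMat h, mul_inv_cancel_right]]
  exact mul_mem (mul_mem hg ht) (inv_mem hg)

omit [Finite k] hp [CharP k p] in
/-- Only upper triangular matrices conjugate an upper unipotent to one. -/
theorem upper_of_conj {g : GL (Fin 2) k} {t s : k} (ht : t ≠ 0) (h : g * uMat t * g⁻¹ = uMat s) :
    g.val 1 0 = 0 := by
  rw [mul_inv_eq_iff_eq_mul] at h
  have h1 := congrFun (congrFun (congrArg (fun x : GL (Fin 2) k => x.val) h) 1) 1
  simp [Matrix.mul_apply, Fin.sum_univ_two] at h1
  exact h1.resolve_right ht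

/-- The point `e₁`. -/
def pt₀ (k : Type) [Field k] : ℙ k (Fin 2 → k) :=
  Projectivization.mk k ![1, 0] (fun h => by simpa using congrFun h 0)

omit [Finite k] hp [CharP k p] in
theorem smul_mk_eq_iff {g : GL (Fin 2) k} {v : Fin 2 → k} (hv : v ≠ 0) :
    g • Projectivization.mk k v hv = Projectivization.mk k v hv ↔
      ∃ c : k, g.val.mulVec v = c • v := by
  rw [Projectivization.smul_mk, Projectivization.mk_eq_mk_iff']
  exact ⟨fun ⟨c, hc⟩ => ⟨c, hc.symm⟩, fun ⟨c, hc⟩ => ⟨c, hc.symm⟩⟩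

omit [Finite k] hp [CharP k p] in
theorem smul_pt₀_iff {g : GL (Fin 2) k} : g • pt₀ k = pt₀ k ↔ g.val 1 0 = 0 := by
  rw [pt₀, smul_mk_eq_iff]
  constructor
  · rintro ⟨c, hc⟩
    simpa [mulVec, dotProduct, Fin.sum_univ_two] using congrFun hc 1
  · intro h
    refine ⟨g.val 0 0, funext fun i => ?_⟩
    fin_cases i <;> simp [mulVec, dotProduct, Fin.sum_univ_two, h]

omit hp [CharP k p] [Finite k] in
theorem eigen_root {g : GL (Fin 2) k} {α β c : k} (hsum : g.val 0 0 + g.val 1 1 = α + β)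
    (hprod : g.val.det = α * β) {v : Fin 2 → k} (hv : v ≠ 0) (h : g.val.mulVec v = c • v) :
    c = α ∨ c = β := by
  have hd : (g.val - c • (1 : Matrix (Fin 2) (Fin 2) k)).det = 0 :=
    Matrix.exists_mulVec_eq_zero_iff.mp ⟨v, hv, by rw [sub_mulVec, smul_mulVec, one_mulVec, h,
      sub_self]⟩
  rw [det_fin_two] at hd hprod
  simp at hd
  have : (c - α) * (c - β) = 0 := by linear_combination hd + c * hsum - hprod
  rcases mul_eq_zero.mp this with h | h
  · exact Or.inl (sub_eq_zero.mp h)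
  · exact Or.inr (sub_eq_zero.mp h)

omit hp [CharP k p] [Finite k] in
/-- An eigenspace of a non-scalar matrix is a line. -/
theorem mk_eq_of_eigen {g : GL (Fin 2) k}
    (hns : ¬ (g.val 0 1 = 0 ∧ g.val 1 0 = 0 ∧ g.val 0 0 = g.val 1 1)) {c : k} {v w : Fin 2 → k}
    (hv : v ≠ 0) (hw : w ≠ 0) (hv' : g.val.mulVec v = c • v) (hw' : g.val.mulVec w = c • w) :
    Projectivization.mk k v hv = Projectivization.mk k w hw := by
  have hv0 := congrFun hv' 0
  have hv1 := congrFun hv' 1
  have hw0 := congrFun hw' 0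
  have hw1 := congrFun hw' 1
  simp [mulVec, dotProduct, Fin.sum_univ_two] at hv0 hv1 hw0 hw1
  have hcross : v 0 * w 1 - v 1 * w 0 = 0 := by
    by_contra hne
    refine hns ⟨(mul_eq_zero.mp ?_).resolve_right hne, (mul_eq_zero.mp ?_).resolve_right hne, ?_⟩
    · linear_combination v 0 * hw0 - w 0 * hv0
    · linear_combination w 1 * hv1 - v 1 * hw1
    · have : (g.val 0 0 - g.val 1 1) * (v 0 * w 1 - v 1 * w 0) = 0 := by
        linear_combination w 1 * hv0 - v 1 * hw0 + w 0 * hv1 - v 0 * hw1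
      exact sub_eq_zero.mp ((mul_eq_zero.mp this).resolve_right hne)
  rw [Projectivization.mk_eq_mk_iff']
  by_cases h0 : w 0 = 0
  · have h1 : w 1 ≠ 0 := fun h1 => hw (funext fun i => by fin_cases i <;> simp [h0, h1])
    refine ⟨v 1 / w 1, funext fun i => ?_⟩
    fin_cases i <;> simp
    · rw [h0, mul_zero, sub_zero] at hcross
      rw [(mul_eq_zero.mp hcross).resolve_right h1, h0, mul_zero]
    · rw [div_mul_cancel₀ _ h1]
  · refine ⟨v 0 / w 0, funext fun i => ?_⟩
    fin_cases i <;> simp [h0]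
    field_simp
    linear_combination hcross

open scoped Classical in
omit hp [CharP k p] [Finite k] in
theorem ncard_fixed {g : GL (Fin 2) k}
    (hns : ¬ (g.val 0 1 = 0 ∧ g.val 1 0 = 0 ∧ g.val 0 0 = g.val 1 1)) {α β : k}
    (hsum : g.val 0 0 + g.val 1 1 = α + β) (hprod : g.val.det = α * β) :
    (fixedBy (ℙ k (Fin 2 → k)) g).ncard = if α = β then 1 else 2 := by
  classical
  have hex : ∀ c, c = α ∨ c = β → ∃ (v : Fin 2 → k) (_ : v ≠ 0), g.val.mulVec v = c • v := by
    intro c hc
    obtain ⟨v, hv, h⟩ := Matrix.exists_mulVec_eq_zero_iff.mpr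
      (show (g.val - c • (1 : Matrix (Fin 2) (Fin 2) k)).det = 0 by
        rw [det_fin_two] at hprod ⊢
        simp
        rcases hc with rfl | rfl <;> linear_combination hprod - c * hsum)
    exact ⟨v, hv, by rwa [sub_mulVec, smul_mulVec, one_mulVec, sub_eq_zero] at h⟩
  obtain ⟨v, hv, hv'⟩ := hex α (Or.inl rfl)
  obtain ⟨w, hw, hw'⟩ := hex β (Or.inr rfl)
  have hset : fixedBy (ℙ k (Fin 2 → k)) g =
      {Projectivization.mk k v hv, Projectivization.mk k w hw} := by
    ext x
    induction x using Projectivization.ind with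
    | h u hu =>
      rw [mem_fixedBy, smul_mk_eq_iff, Set.mem_insert_iff, Set.mem_singleton_iff]
      constructor
      · rintro ⟨c, hc⟩
        rcases eigen_root hsum hprod hu hc with rfl | rfl
        · exact Or.inl (mk_eq_of_eigen hns hu hv hc hv')
        · exact Or.inr (mk_eq_of_eigen hns hu hw hc hw')
      · rintro (h | h) <;> rw [Projectivization.mk_eq_mk_iff'] at h <;> obtain ⟨a, ha⟩ := h <;>
          subst ha
        · exact ⟨α, by rw [mulVec_smul, hv', smul_comm]⟩
        · exact ⟨β, by rw [mulVec_smul, hw', smul_comm]⟩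
  rw [hset]
  split_ifs with h
  · subst h
    rw [mk_eq_of_eigen hns hv hw hv' hw', Set.insert_eq_of_mem (Set.mem_singleton _),
      Set.ncard_singleton]
  · refine Set.ncard_pair fun he => h ?_
    rw [Projectivization.mk_eq_mk_iff'] at he
    obtain ⟨a, rfl⟩ := he
    rw [mulVec_smul, hw', smul_comm] at hv'
    exact (smul_left_injective k hv hv').symm

/-- The ratio of the diagonal entries on the stabiliser of `e₁`. -/
def ratioHom (H : Subgroup (GL (Fin 2) k)) : stabilizer H (pt₀ k) →* k where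
  toFun g := (g.1 : GL (Fin 2) k).val 0 0 / (g.1 : GL (Fin 2) k).val 1 1
  map_one' := by simp
  map_mul' g g' := by
    have h : (g.1 : GL (Fin 2) k).val 1 0 = 0 := smul_pt₀_iff.mp g.2
    have h' : (g'.1 : GL (Fin 2) k).val 1 0 = 0 := smul_pt₀_iff.mp g'.2
    simp [Matrix.mul_apply, Fin.sum_univ_two, h, h', mul_div_mul_comm]

/-- The determinant one part of `G`. -/
def detOne (G : Subgroup (GL (Fin 2) k)) : Subgroup (GL (Fin 2) k) :=
  G ⊓ (GeneralLinearGroup.det : GL (Fin 2) k →* kˣ).ker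

omit [Finite k] hp [CharP k p] in
theorem mem_detOne {g : GL (Fin 2) k} : g ∈ detOne G ↔ g ∈ G ∧ g.val.det = 1 := by
  rw [detOne, Subgroup.mem_inf, MonoidHom.mem_ker, Units.ext_iff]
  rfl

omit [Finite k] hp [CharP k p] in
theorem uMat_mem_detOne {t : k} (h : uMat t ∈ G) : uMat t ∈ detOne G :=
  mem_detOne.mpr ⟨h, by simp [det_fin_two]⟩

/-- **A big torus.**  The number of upper unipotents is at most twice the torus plus one. -/
theorem natCard_unipSet_le (hp2 : p ≠ 2)
    (hirr : ∀ v : Fin 2 → k, v ≠ 0 → ∃ g ∈ G, ∀ c : k, g.val.mulVec v ≠ c • v)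
    (hsplit : ∀ g ∈ G, ∃ α β : k, g.val 0 0 + g.val 1 1 = α + β ∧ g.val.det = α * β)
    {t₀ : k} (ht₀ : t₀ ≠ 0) (ht : uMat t₀ ∈ G) :
    Nat.card (unipSet G) ≤ 2 * Nat.card (Set.range (ratioHom (detOne G))) + 1 := by
  classical
  set H := detOne G with hH
  have hdet : ∀ g : H, (g : GL (Fin 2) k).val.det = 1 := fun g => (mem_detOne.mp g.2).2
  have h20 : (2 : k) ≠ 0 := fun h => hp2 ((Nat.prime_dvd_prime_iff_eq hp.out Nat.prime_two).1
    ((CharP.cast_eq_zero_iff k p 2).1 (by exact_mod_cast h)))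
  -- the scalars
  let Z : Subgroup H := (Subgroup.center (GL (Fin 2) k)).comap H.subtype
  have hZiff : ∀ g : H, g ∈ Z ↔ (g : GL (Fin 2) k).val 0 1 = 0 ∧
      (g : GL (Fin 2) k).val 1 0 = 0 ∧ (g : GL (Fin 2) k).val 0 0 = (g : GL (Fin 2) k).val 1 1 := by
    intro g
    show (g : GL (Fin 2) k) ∈ Subgroup.center _ ↔ _
    rw [Subgroup.mem_center_iff]
    constructor
    · intro hc
      have h1 := congrArg Units.val (hc (uMat 1))
      have h2 := congrArg Units.val (hc (GeneralLinearGroup.mkOfDetNeZero !![1, 0; 1, 1]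
        (by simp [det_fin_two])))
      have a := congrFun (congrFun h1 0) 0
      have b := congrFun (congrFun h1 0) 1
      have c := congrFun (congrFun h2 0) 0
      simp [Matrix.mul_apply, Fin.sum_univ_two, GeneralLinearGroup.mkOfDetNeZero] at a b c
      exact ⟨c, a, by linear_combination -b⟩
    · rintro ⟨h01, h10, h00⟩ x
      refine Units.ext ?_
      ext i j
      fin_cases i <;> fin_cases j <;>
        simp [Matrix.mul_apply, Fin.sum_univ_two, h01, h10, h00] <;> ring
  have hZ : ∀ c ∈ Z, ∀ x : ℙ k (Fin 2 → k), c • x = x := by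
    intro c hc x
    obtain ⟨h01, h10, h00⟩ := (hZiff c).mp hc
    induction x using Projectivization.ind with
    | h v hv =>
      refine (smul_mk_eq_iff (g := (c : GL (Fin 2) k)) hv).mpr ⟨(c : GL (Fin 2) k).val 0 0, ?_⟩
      funext i
      fin_cases i <;> simp [mulVec, dotProduct, Fin.sum_univ_two, h01, h10, h00]
  let S₁ : Subgroup H := (ratioHom H).ker.map (stabilizer H (pt₀ k)).subtype
  have hS₁iff : ∀ g : H, g ∈ S₁ ↔ (g : GL (Fin 2) k).val 1 0 = 0 ∧
      (g : GL (Fin 2) k).val 0 0 = (g : GL (Fin 2) k).val 1 1 := by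
    intro g
    constructor
    · rintro ⟨⟨a, ha⟩, hk, rfl⟩
      have h10 : (a : GL (Fin 2) k).val 1 0 = 0 := smul_pt₀_iff.mp ha
      exact ⟨h10, (div_eq_one_iff_eq (diag_ne_zero h10).2).mp hk⟩
    · rintro ⟨h10, h00⟩
      exact ⟨⟨g, smul_pt₀_iff.mpr h10⟩,
        (div_eq_one_iff_eq (diag_ne_zero h10).2).mpr h00, rfl⟩
  have hZS : Z ≤ S₁ := fun g hg => (hS₁iff g).mpr ⟨((hZiff g).mp hg).2.1, ((hZiff g).mp hg).2.2⟩
  have hS : S₁ ≤ stabilizer H (pt₀ k) := by
    rintro _ ⟨a, -, rfl⟩
    exact a.2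
  have hab : ∀ g : H, ∃ α β : k, (g : GL (Fin 2) k).val 0 0 + (g : GL (Fin 2) k).val 1 1 = α + β ∧
      (g : GL (Fin 2) k).val.det = α * β := fun g => hsplit _ (mem_detOne.mp g.2).1
  have hcard : ∀ g : H, g ∉ Z → ∀ α β : k,
      (g : GL (Fin 2) k).val 0 0 + (g : GL (Fin 2) k).val 1 1 = α + β →
      (g : GL (Fin 2) k).val.det = α * β →
      (fixedBy (ℙ k (Fin 2 → k)) g).ncard = if α = β then 1 else 2 :=
    fun g hg α β h1 h2 =>
      ncard_fixed (g := (g : GL (Fin 2) k)) (fun h => hg ((hZiff g).mpr h)) h1 h2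
  have hfix : ∀ g, g ∉ Z → (fixedBy (ℙ k (Fin 2 → k)) g).ncard = 1 ∨
      (fixedBy (ℙ k (Fin 2 → k)) g).ncard = 2 := fun g hg => by
    obtain ⟨α, β, h1, h2⟩ := hab g
    rw [hcard g hg α β h1 h2]
    split_ifs <;> simp
  have hiff : ∀ g ∈ stabilizer H (pt₀ k), g ∉ Z →
      ((fixedBy (ℙ k (Fin 2 → k)) g).ncard = 1 ↔ g ∈ S₁) := fun g hg hgZ => by
    have h10 : (g : GL (Fin 2) k).val 1 0 = 0 := smul_pt₀_iff.mp hg
    rw [hcard g hgZ _ _ rfl (by rw [det_fin_two, h10, mul_zero, sub_zero]), hS₁iff]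
    split_ifs with h <;> simp [h, h10]
  -- Sylow subgroups of `H`
  obtain ⟨P, hP⟩ := exists_sylow_unip (p := p) (G := H) ht₀ (uMat_mem_detOne ht)
  have hone : ∀ g, g ∉ Z → (fixedBy (ℙ k (Fin 2 → k)) g).ncard = 1 →
      ∀ x, g • x = x → x ∈ orbit H (pt₀ k) := by
    intro g hgZ hg1 x hx
    obtain ⟨α, β, h1, h2⟩ := hab g
    rw [hcard g hgZ α β h1 h2] at hg1
    split_ifs at hg1 with hαβ
    swap
    · omega
    subst hαβ
    -- the unipotent `g ^ 2`
    have hα : α * α = 1 := h2 ▸ hdet g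
    set gm := (g : GL (Fin 2) k).val with hgm
    set N := gm - α • (1 : Matrix (Fin 2) (Fin 2) k) with hN
    have hNN : N * N = 0 := by
      rw [det_fin_two] at h2
      ext i j
      fin_cases i <;> fin_cases j <;> simp [hN, Matrix.mul_apply, Fin.sum_univ_two]
      · linear_combination gm 0 0 * h1 - h2
      · linear_combination gm 0 1 * h1
      · linear_combination gm 1 0 * h1
      · linear_combination gm 1 1 * h1 - h2
    have hsq : (((g * g : H) : GL (Fin 2) k).val) = 1 + (2 * α) • N := by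
      show gm * gm = _
      rw [show gm = α • (1 : Matrix (Fin 2) (Fin 2) k) + N by rw [hN]; abel, Matrix.add_mul,
        Matrix.mul_add, Matrix.mul_add, hNN]
      simp [smul_smul, hα, two_mul, add_smul]
      abel
    have hpow : (g * g) ^ p = 1 := Subtype.ext (Units.ext (by
      rw [SubmonoidClass.coe_pow, Units.val_pow_eq_pow_val, hsq,
        add_pow_char_of_commute _ (Commute.one_left _), one_pow]
      obtain ⟨e, he⟩ := Nat.exists_eq_add_of_le hp.out.two_le
      rw [smul_pow, show N ^ p = 0 by rw [he, pow_add, pow_two, hNN, Matrix.zero_mul], smul_zero,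
        add_zero]
      rfl))
    obtain ⟨Q, hQ⟩ := (IsPGroup.of_card (p := p) (n := 1) (G := Subgroup.zpowers (g * g))
      (by
        rw [Nat.card_zpowers, pow_one]
        refine orderOf_eq_prime hpow fun he => hgZ ((hZiff g).mpr ?_)
        have h3 := congrArg (fun a : H => (a : GL (Fin 2) k).val) he
        change (((g * g : H) : GL (Fin 2) k).val) = 1 at h3
        rw [hsq] at h3
        have h4 : N = 0 := by
          have h5 : (2 * α) • N = 0 := add_left_cancel (h3.trans (add_zero _).symm)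
          exact (smul_eq_zero.mp h5).resolve_left
            (mul_ne_zero h20 (left_ne_zero_of_mul_eq_one hα))
        rw [hN, sub_eq_zero] at h4
        show gm 0 1 = 0 ∧ gm 1 0 = 0 ∧ gm 0 0 = gm 1 1
        simp [h4])).exists_le_sylow
    obtain ⟨a, ha⟩ := MulAction.exists_smul_eq H P Q
    have hmem : a⁻¹ * (g * g) * a ∈ unipSub H := by
      have h3 : g * g ∈ ((a • P : Sylow p H) : Subgroup H) := by
        rw [ha]
        exact hQ (Subgroup.mem_zpowers _)
      obtain ⟨b, hb, hbe⟩ := h3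
      rw [← hP, ← hbe]
      show a⁻¹ * (a * b * a⁻¹) * a ∈ (P : Subgroup H)
      rw [show a⁻¹ * (a * b * a⁻¹) * a = b by group]
      exact hb
    obtain ⟨t, htt⟩ := hmem
    have htne : t ≠ 0 := fun h0 => by
      rw [h0, uMat_zero] at htt
      have h3 : g * g = 1 := by
        have h4 : a⁻¹ * (g * g) * a = 1 := Subtype.ext htt
        calc g * g = a * (a⁻¹ * (g * g) * a) * a⁻¹ := by group
          _ = 1 := by rw [h4]; group
      have h4 := congrArg (fun b : H => (b : GL (Fin 2) k).val) h3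
      change (((g * g : H) : GL (Fin 2) k).val) = 1 at h4
      rw [hsq] at h4
      have h5 : N = 0 := by
        have h6 : (2 * α) • N = 0 := add_left_cancel (h4.trans (add_zero _).symm)
        exact (smul_eq_zero.mp h6).resolve_left (mul_ne_zero h20 (left_ne_zero_of_mul_eq_one hα))
      rw [hN, sub_eq_zero] at h5
      exact hgZ ((hZiff g).mpr (show gm 0 1 = 0 ∧ gm 1 0 = 0 ∧ gm 0 0 = gm 1 1 by simp [h5]))
    refine ⟨a, ?_⟩
    show a • pt₀ k = x
    have hfix2 : (a⁻¹ * (g * g) * a) • (a⁻¹ • x) = a⁻¹ • x := by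
      rw [mul_smul, mul_smul, smul_inv_smul, mul_smul, hx, hx]
    have : a⁻¹ • x = pt₀ k := by
      generalize a⁻¹ • x = y at hfix2
      induction y using Projectivization.ind with
      | h v hv =>
        have hfix3 : uMat t • Projectivization.mk k v hv = Projectivization.mk k v hv := by
          rw [← htt]
          exact hfix2
        obtain ⟨c, hc⟩ := (smul_mk_eq_iff hv).mp hfix3
        rcases eigen_root (g := uMat t) (α := 1) (β := 1) (by simp) (by simp [det_fin_two]) hv hc
          with rfl | rfl <;>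
        · refine mk_eq_of_eigen (g := uMat t) (by simp [htne]) hv _ hc ?_
          funext i
          fin_cases i <;> simp [mulVec, dotProduct, Fin.sum_univ_two]
    rw [← this, smul_inv_smul]
  have hne : stabilizer H (pt₀ k) ≠ ⊤ := by
    intro htop
    obtain ⟨g, hg, hgc⟩ := hirr ![1, 0] (fun h => by simpa using congrFun h 0)
    have hup : g.val 1 0 ≠ 0 := fun h => by
      obtain ⟨c, hc⟩ := (smul_mk_eq_iff _).mp (smul_pt₀_iff.mpr h)
      exact hgc c hc
    refine hup ?_
    have hm : g * uMat t₀ * g⁻¹ ∈ H := mem_detOne.mpr ⟨mul_mem (mul_mem hg ht) (inv_mem hg), by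
      rw [Units.val_mul, Units.val_mul, det_mul, det_mul, mul_right_comm, ← det_mul,
        ← Units.val_mul, mul_inv_cancel, Units.val_one, det_one, one_mul]
      simp [det_fin_two]⟩
    have h10 : (g * uMat t₀ * g⁻¹).val 1 0 = 0 :=
      smul_pt₀_iff.mp ((show (⟨_, hm⟩ : H) ∈ stabilizer H (pt₀ k) by rw [htop]; trivial))
    -- `g e₁` is the fixed point of an upper triangular unipotent
    by_contra h
    have e0 : (g * uMat t₀ * g⁻¹).val * g.val = g.val * (uMat t₀).val := by
      rw [← Units.val_mul, inv_mul_cancel_right, Units.val_mul]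
    generalize (g * uMat t₀ * g⁻¹).val = M at e0 h10
    have e1 := congrFun (congrFun e0 1) 0
    have e2 := congrFun (congrFun e0 1) 1
    simp [Matrix.mul_apply, Fin.sum_univ_two, h10] at e1 e2
    have h11 : M 1 1 = 1 := mul_right_cancel₀ h (by linear_combination e1)
    rw [h11, one_mul] at e2
    exact mul_ne_zero h ht₀ (by linear_combination -e2)
  -- the cardinalities
  have hq : Nat.card S₁ = Nat.card Z * Nat.card (unipSet G) := by
    rw [← Nat.card_prod]
    refine (Nat.card_eq_of_bijective (fun x : Z × unipSet G =>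
      (⟨(x.1 : H) * ⟨uMat x.2.1, uMat_mem_detOne x.2.2⟩, ?_⟩ : S₁)) ⟨?_, ?_⟩).symm
    · exact mul_mem (hZS x.1.2) ((hS₁iff _).mpr ⟨by simp, by simp⟩)
    · rintro ⟨c, t⟩ ⟨d, s⟩ h
      have h1 := congrArg (fun a : S₁ => ((a : H) : GL (Fin 2) k).val) h
      simp only [Subgroup.coe_mul, Units.val_mul] at h1
      obtain ⟨c01, c10, c00⟩ := (hZiff c).mp c.2
      obtain ⟨d01, d10, d00⟩ := (hZiff d).mp d.2
      have a := congrFun (congrFun h1 0) 0
      have b := congrFun (congrFun h1 0) 1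
      simp [Matrix.mul_apply, Fin.sum_univ_two, c01, d01] at a b
      refine Prod.ext (Subtype.ext (Subtype.ext (Units.ext ?_))) (Subtype.ext ?_)
      · ext i j
        fin_cases i <;> fin_cases j <;> simp [c01, c10, d01, d10, ← c00, ← d00, a]
      · rw [a] at b
        exact mul_left_cancel₀ (diag_ne_zero d10).1 b
    · rintro ⟨g, hg⟩
      obtain ⟨h10, h00⟩ := (hS₁iff g).mp hg
      have hz0 := (diag_ne_zero h10).1
      have hd := hdet g
      rw [det_fin_two, h10, ← h00, mul_zero, sub_zero] at hd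
      set α := (g : GL (Fin 2) k).val 0 0 with hα
      -- `α = ±1`
      rcases mul_self_eq_one_iff.mp hd with h1 | h1
      · refine ⟨(1, ⟨(g : GL (Fin 2) k).val 0 1, ?_⟩), ?_⟩
        · rw [mem_unipSet, show uMat ((g : GL (Fin 2) k).val 0 1) = g from Units.ext (by
            ext i j; fin_cases i <;> fin_cases j <;> simp [h10, ← h00, ← hα, h1])]
          exact (mem_detOne.mp g.2).1
        · refine Subtype.ext (Subtype.ext (Units.ext ?_))
          ext i j
          fin_cases i <;> fin_cases j <;> simp [h10, ← h00, ← hα, h1]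
      · -- `g ^ p` is `-1`
        have hgp : ((g ^ p : H) : GL (Fin 2) k).val = -1 := by
          rw [SubmonoidClass.coe_pow, Units.val_pow_eq_pow_val,
            show (g : GL (Fin 2) k).val = -(uMat (-(g : GL (Fin 2) k).val 0 1)).val by
              ext i j; fin_cases i <;> fin_cases j <;> simp [h10, ← h00, ← hα, h1],
            neg_pow, (hp.out.odd_of_ne_two hp2).neg_one_pow, ← Units.val_pow_eq_pow_val,
            uMat_pow_p]
          simp
        have hzm : g ^ p ∈ Z := (hZiff _).mpr (by rw [hgp]; simp)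
        have hu : uMat (-(g : GL (Fin 2) k).val 0 1) ∈ G := by
          rw [show uMat (-(g : GL (Fin 2) k).val 0 1) = ((g ^ p)⁻¹ * g : H) from Units.ext (by
            have hinv : (((g ^ p)⁻¹ : H) : GL (Fin 2) k).val = -1 := by
              rw [Subgroup.coe_inv]
              exact Units.inv_eq_of_mul_eq_one_right (by rw [hgp]; simp)
            rw [Subgroup.coe_mul, Units.val_mul, hinv]
            ext i j; fin_cases i <;> fin_cases j <;> simp [h10, ← h00, ← hα, h1])]
          exact (mem_detOne.mp ((g ^ p)⁻¹ * g).2).1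
        refine ⟨(⟨g ^ p, hzm⟩, ⟨_, hu⟩), ?_⟩
        refine Subtype.ext (Subtype.ext (Units.ext ?_))
        simp only [Subgroup.coe_mul, Units.val_mul, hgp]
        ext i j
        fin_cases i <;> fin_cases j <;> simp [h10, ← h00, ← hα, h1]
  refine le_two_mul_add_one Z hZ (pt₀ k) S₁ hZS hS hfix hiff hone hne _ _ hq ?_
  rw [← hq, show Nat.card S₁ = Nat.card (ratioHom H).ker from
    Nat.card_congr ((ratioHom H).ker.equivMapOfInjective _ Subtype.val_injective).toEquiv.symm]
  let F : stabilizer H (pt₀ k) →* kˣ := (ratioHom H).toHomUnits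
  have hker : F.ker = (ratioHom H).ker := by
    ext g
    rw [MonoidHom.mem_ker, MonoidHom.mem_ker, Units.ext_iff]
    rfl
  rw [← hker, ← Subgroup.card_mul_index F.ker, Subgroup.index_ker]
  congr 1
  refine Nat.card_eq_of_bijective (fun x : F.range => (⟨x.1.1, ?_⟩ : Set.range (ratioHom H)))
    ⟨fun x y h => Subtype.ext (Units.ext (congrArg Subtype.val h)), ?_⟩
  · obtain ⟨g, hg⟩ := x.2
    exact ⟨g, by rw [← hg]; rfl⟩
  · rintro ⟨_, g, rfl⟩
    exact ⟨⟨F g, g, rfl⟩, rfl⟩

end Fermat.Agent.TWGen
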